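import Fermat.Agent.DeligneSerre.ChrH1

/-!
# The action of field automorphisms on the characters

`tw σ χ` is the character of an `n`-th root of `σ (f ^ n)` for any nonzero `f` with character `χ`;
it is multiplicative in `χ` and is an action in `σ`.
-/

set_option autoImplicit false

noncomputable section

open Function
open UpperHalfPlane hiding I
open scoped MatrixGroups Manifold

namespace Fermat.Agent.DeligneSerre

open Fermat.Agent.Igusa (HasExp)
open Fermat.Agent.LevelM (sgnGamma sgnGamma1 ConjRel RootTwist ex)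

variable {L : ℕ} [NeZero L] {σ τ : ℂ →+* ℂ} {c c' d : ℤ}

theorem RootTwist.cast_eq (h : RootTwist L σ c) (h' : RootTwist L σ c') :
    (c : ZMod L) = c' := by
  have e := (h 1).symm.trans (h' 1)
  rw [mul_one, mul_one, ex, ex, Complex.exp_eq_exp_iff_exists_int] at e
  obtain ⟨k, hk⟩ := e
  have hL : (L : ℂ) ≠ 0 := Nat.cast_ne_zero.2 (NeZero.ne L)
  have hpi : (2 : ℂ) * Real.pi * Complex.I ≠ 0 := Complex.two_pi_I_ne_zero
  have h1 : (c : ℂ) = c' + k * L := by
    field_simp at hk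
    refine mul_left_cancel₀ hpi ?_
    linear_combination (2 * (Real.pi : ℂ) * Complex.I) * hk
  have h2 : c = c' + k * (L : ℤ) := by exact_mod_cast h1
  rw [h2]; simp

omit [NeZero L] in
theorem RootTwist.comp (h : RootTwist L σ c) (h' : RootTwist L τ d) :
    RootTwist L (τ.comp σ) (d * c) := fun b => by
  rw [RingHom.comp_apply, h b, h' (c * b), mul_assoc]

omit [NeZero L] in
theorem rootTwist_id : RootTwist L (RingHom.id ℂ) 1 := fun b => by simp

omit [NeZero L] in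
theorem ConjRel.congr {γ γ' : SL(2, ℤ)} (h : (c : ZMod L) = c') (hγ : ConjRel L c γ γ') :
    ConjRel L c' γ γ' := by
  obtain ⟨h00, h01, h10, h11⟩ := hγ
  exact ⟨h00, h ▸ h01, h ▸ h10, h11⟩

omit [NeZero L] in
theorem FunTwist.congr_exp {g g' : ℍ → ℂ} (h : (c : ZMod L) = c') (ht : FunTwist L σ c g g') :
    FunTwist L σ c' g g' := fun γ γ' hγ => ht γ γ' (ConjRel.congr h.symm hγ)

theorem FunTwist.trans {g g' g'' : ℍ → ℂ} (hc : IsCoprime c (L : ℤ)) (ht : FunTwist L σ c g g')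
    (ht' : FunTwist L τ d g' g'') : FunTwist L (τ.comp σ) (d * c) g g'' := by
  intro γ γ'' hγ
  obtain ⟨γ', hγ'⟩ := LevelM.exists_conjRel hc γ
  obtain ⟨u, w, huw⟩ := id hc
  have hu : (u : ZMod L) * c = 1 := by
    have := congrArg (fun x : ℤ => (x : ZMod L)) huw
    push_cast at this
    simpa using this
  have h2 : ConjRel L d γ' γ'' := by
    obtain ⟨a00, a01, a10, a11⟩ := hγ'
    obtain ⟨b00, b01, b10, b11⟩ := hγ
    push_cast at b01 b10
    refine ⟨b00.trans a00.symm, ?_, ?_, b11.trans a11.symm⟩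
    · rw [b01, a01, mul_assoc]
    · linear_combination (-((d : ZMod L) * γ'' 1 0 - γ' 1 0)) * hu + (u : ZMod L) * b10 -
        (u : ZMod L) * a10
  obtain ⟨s, hs, hs'⟩ := ht γ γ' hγ'
  obtain ⟨t, ht1, ht2⟩ := ht' γ' γ'' h2
  refine ⟨s, hs, ?_⟩
  rw [← hs'.unique ht1] at ht2
  convert ht2 using 1
  ext k
  simp

theorem FunTwist.id_self {g : ℍ → ℂ} (hg : IsFunOn L g) :
    FunTwist L (RingHom.id ℂ) 1 g g := by
  intro γ γ' hγ
  obtain ⟨s, hs⟩ := hg.exists_hasExp γ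
  refine ⟨s, hs, ?_⟩
  have hmem : γ' * γ⁻¹ ∈ sgnGamma L := by
    obtain ⟨h00, h01, h10, h11⟩ := hγ
    push_cast at h01 h10
    rw [one_mul] at h01 h10
    refine Or.inl (CongruenceSubgroup.Gamma_mem'.2 ?_)
    rw [map_mul, map_inv, mul_inv_eq_one]
    ext i j
    fin_cases i <;> fin_cases j <;> simp [h00, h01, h10, h11]
  have e : (fun τ : ℍ => g (γ' • τ)) = fun τ => g (γ • τ) := funext fun τ => by
    rw [show γ' • τ = (γ' * γ⁻¹) • γ • τ by rw [← mul_smul, inv_mul_cancel_right]]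
    exact hg.inv _ hmem _
  rw [e]
  convert hs using 1
  ext k
  simp

theorem FunTwist.eq_zero_of_right {g : ℍ → ℂ} (ht : FunTwist L σ c g 0) : g = 0 := by
  obtain ⟨s, hs, hs'⟩ := ht 1 1 (ConjRel.one L c)
  simp only [one_smul] at hs hs'
  have hs0 : s = 0 := by
    ext k
    refine σ.injective ?_
    rw [HahnSeries.coeff_zero, map_zero, ← ModularCurve.coeffMap_coeff,
      (show ModularCurve.coeffMap σ s = 0 from HasExp.eq_zero hs'), HahnSeries.coeff_zero]
  subst hs0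
  funext τ
  have := hs.2 τ
  simp only [HahnSeries.coeff_zero, zero_mul] at this
  exact this.unique hasSum_zero

variable {M n : ℕ} [NeZero M] [Fact (5 ≤ M)] [Fact n.Prime]

omit [NeZero M] in
theorem five_le_M : 5 ≤ M := Fact.out

theorem n_pos : 0 < n := (Fact.out : n.Prime).pos

/-- A chosen exponent for `σ` on the roots of unity. -/
def rootExp (M : ℕ) [NeZero M] (σ : ℂ →+* ℂ) : ℤ := (LevelM.exists_rootTwist M σ).choose

omit [Fact (5 ≤ M)] in
theorem isCoprime_rootExp (σ : ℂ →+* ℂ) : IsCoprime (rootExp M σ) (M : ℤ) :=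
  (LevelM.exists_rootTwist M σ).choose_spec.1

omit [Fact (5 ≤ M)] in
theorem rootTwist_rootExp (σ : ℂ →+* ℂ) : RootTwist M σ (rootExp M σ) :=
  (LevelM.exists_rootTwist M σ).choose_spec.2

/-- The twist of a character. -/
def tw (σ : ℂ →+* ℂ) (χ : Chr M n) : Chr M n :=
  (exists_twistChr five_le_M n_pos (isCoprime_rootExp σ) (rootTwist_rootExp σ) χ).choose

/-- The defining property of the twist. -/
theorem tw_spec (σ : ℂ →+* ℂ) {χ : Chr M n} {f : ℍ → ℂ} (hf : IsCharFun χ.toHom f) :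
    ∃ H, IsCharFun (tw σ χ).toHom H ∧ FunTwist M σ (rootExp M σ) (f ^ n) (H ^ n) :=
  (exists_twistChr five_le_M n_pos (isCoprime_rootExp σ) (rootTwist_rootExp σ) χ).choose_spec f hf

omit [Fact (5 ≤ M)] in
theorem twist_ne_zero {f H : ℍ → ℂ} (hf0 : f ≠ 0) (ht : FunTwist M σ c (f ^ n) (H ^ n)) :
    H ≠ 0 := fun h => by
  rw [h, zero_pow n_pos.ne'] at ht
  exact hf0 (funext fun τ => eq_zero_of_pow_eq_zero (congrFun ht.eq_zero_of_right τ))

omit [NeZero M] [Fact (5 ≤ M)] in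
/-- Characters of functions with equal `n`-th powers agree. -/
theorem chr_eq_of_pow_eq {χ ψ : Chr M n} {f g : ℍ → ℂ} (hf : IsCharFun χ.toHom f)
    (hg : IsCharFun ψ.toHom g) (hg0 : g ≠ 0) (h : f ^ n = g ^ n) : χ = ψ := by
  obtain ⟨a, ha, rfl⟩ := exists_eq_smul_of_pow_eq n_pos hf.holo hg.holo h
  have ha0 : a ≠ 0 := fun h0 => by
    rw [h0, zero_pow n_pos.ne'] at ha
    exact zero_ne_one ha
  obtain ⟨τ, hτ⟩ := Function.ne_iff.1 hg0
  refine Chr.apply_eq fun γ => Units.ext ?_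
  have h1 := hf.map_smul γ τ
  rw [Pi.smul_apply, Pi.smul_apply, hg.map_smul γ τ, smul_eq_mul, smul_eq_mul,
    mul_left_comm] at h1
  exact (mul_right_cancel₀ (mul_ne_zero ha0 hτ) h1).symm

/-- The twist is determined by any nonzero function with character `χ`. -/
theorem tw_unique {χ χ' : Chr M n} {f H : ℍ → ℂ} (hf : IsCharFun χ.toHom f) (hf0 : f ≠ 0)
    (hc : RootTwist M σ c) (hH : IsCharFun χ'.toHom H) (ht : FunTwist M σ c (f ^ n) (H ^ n)) :
    χ' = tw σ χ := by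
  obtain ⟨H', hH', ht'⟩ := tw_spec σ hf
  exact chr_eq_of_pow_eq hH hH' (twist_ne_zero hf0 ht')
    ((ht.congr_exp (RootTwist.cast_eq hc (rootTwist_rootExp σ))).right_unique ht')

theorem exists_ne_zero_charFun (χ : Chr M n) : ∃ f, IsCharFun χ.toHom f ∧ f ≠ 0 := by
  obtain ⟨f, hf, h0⟩ := χ.exists_nonzero five_le_M n_pos UpperHalfPlane.I
  exact ⟨f, hf, fun h => h0 (by rw [h]; rfl)⟩

/-- The twist is multiplicative in the character. -/
theorem tw_mul (σ : ℂ →+* ℂ) (χ ψ : Chr M n) : tw σ (χ * ψ) = tw σ χ * tw σ ψ := by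
  obtain ⟨f, hf, hf0⟩ := exists_ne_zero_charFun χ
  obtain ⟨g, hg, hg0⟩ := exists_ne_zero_charFun ψ
  obtain ⟨H, hH, ht⟩ := tw_spec σ hf
  obtain ⟨H', hH', ht'⟩ := tw_spec σ hg
  refine (tw_unique (f := f * g) (H := H * H') (hf.mul hg) (fun h => ?_) (rootTwist_rootExp σ)
    (hH.mul hH') (by rw [mul_pow, mul_pow]; exact ht.mul ht')).symm
  rcases (UpperHalfPlane.mul_eq_zero_iff hf.holo hg.holo).1 h with h | h
  exacts [hf0 h, hg0 h]

omit [NeZero M] [Fact (5 ≤ M)] [Fact (Nat.Prime n)] in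
theorem charFun_pow_one {χ : Chr M n} {f : ℍ → ℂ} (hf : IsCharFun χ.toHom f) :
    IsCharFun (1 : sgnGamma1 M →* ℂˣ) (f ^ n) := (hf.pow n).congr χ.pow_eq

theorem tw_id (χ : Chr M n) : tw (RingHom.id ℂ) χ = χ := by
  obtain ⟨f, hf, hf0⟩ := exists_ne_zero_charFun χ
  exact (tw_unique hf hf0 rootTwist_id hf (FunTwist.id_self (charFun_pow_one hf).isFunOn)).symm

/-- **The twists form an action.** -/
theorem tw_comp (τ σ : ℂ →+* ℂ) (χ : Chr M n) : tw (τ.comp σ) χ = tw τ (tw σ χ) := by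
  obtain ⟨f, hf, hf0⟩ := exists_ne_zero_charFun χ
  obtain ⟨H, hH, ht⟩ := tw_spec σ hf
  obtain ⟨H', hH', ht'⟩ := tw_spec τ hH
  exact (tw_unique hf hf0 (RootTwist.comp (rootTwist_rootExp σ) (rootTwist_rootExp τ)) hH'
    (ht.trans (isCoprime_rootExp σ) ht')).symm

theorem tw_symm_apply (σ : ℂ ≃+* ℂ) (χ : Chr M n) :
    tw (σ.symm : ℂ →+* ℂ) (tw (σ : ℂ →+* ℂ) χ) = χ := by
  rw [← tw_comp, show (σ.symm : ℂ →+* ℂ).comp (σ : ℂ →+* ℂ) = RingHom.id ℂ from
    RingHom.ext fun x => σ.symm_apply_apply x, tw_id]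

end Fermat.Agent.DeligneSerre
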