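import Fermat.Agent.DeligneSerre.Poincare
import Fermat.Agent.LevelM.SeriesTools
import Fermat.Agent.Connected.Main

/-!
# Products of functions with inverse characters generate the unit ideal

For `Γ` free of elliptic points and a unitary character `χ` trivial on elliptic and parabolic
elements, `1` is a finite sum of products `f · f'` with characters `χ`, `χ⁻¹`.
-/

set_option autoImplicit false

noncomputable section

open Complex Filter Topology Function Polynomial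
open UpperHalfPlane hiding I
open scoped MatrixGroups Manifold

namespace Fermat.Agent.DeligneSerre

open Fermat.Agent.Igusa (HasExp QS QSR mem_QS mem_QSR jFun)
open Fermat.Agent.Connected (tr Inv)

local notation "Δf" => ModularForm.discriminant

/-- Periodic, holomorphic and meromorphic at infinity: an expansion exists. -/
theorem exists_hasExp {h : ℕ} [NeZero h] {f : ℍ → ℂ} (hd : MDiff f)
    (hp : ∀ τ : ℍ, f ((h : ℝ) +ᵥ τ) = f τ) {m : ℕ}
    (hb : IsBoundedAtImInfty (fun τ => Δf τ ^ m * f τ)) :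
    ∃ s : LaurentSeries ℂ, HasExp h f s := by
  set F : ℍ → ℂ := fun τ => Δf τ ^ m * f τ with hF
  have hh : (0 : ℝ) < h := by exact_mod_cast NeZero.pos h
  have hΔ := LevelM.hasExp_expand (h := h) Igusa.hasExp_delta h (one_mul h)
  have hΔp : ∀ τ : ℍ, Δf ((h : ℝ) +ᵥ τ) = Δf τ := fun τ => by
    have h1 : ((h : ℤ) : ℝ) +ᵥ τ = (ModularGroup.T ^ (h : ℤ) : SL(2, ℤ)) • τ :=
      (modular_T_zpow_smul τ h).symm
    rw [Int.cast_natCast] at h1
    rw [h1, Igusa.discriminant_smul, ModularGroup.denom_apply, ModularGroup.coe_T_zpow]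
    simp
  have hFd : MDiff F := (hΔ.1.pow m).mul hd
  have hFp : Function.Periodic (F ∘ ofComplex) ((h : ℝ) : ℂ) :=
    LevelOne.periodic_comp_ofComplex_of_vadd fun τ => by simp [hF, hp, hΔp]
  have hFExp := Igusa.hasExp_ofPowerSeries (h := h) (p := qExpansion (h : ℝ) F) hFd fun τ => by
    simpa using UpperHalfPlane.hasSum_qExpansion hh hFp hFd hb τ
  have hinv := LevelM.hasExp_expand (h := h) Igusa.hasExp_deltaInv h (one_mul h)
  have h2 : ((fun τ => (Δf τ)⁻¹) ^ m * F, ModularCurve.qExpand ℂ h (Igusa.deltaInvR ℂ) ^ m *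
      HahnSeries.ofPowerSeries ℤ ℂ (qExpansion (h : ℝ) F)) ∈ QS h :=
    mul_mem
      (pow_mem (show ((fun τ => (Δf τ)⁻¹), ModularCurve.qExpand ℂ h (Igusa.deltaInvR ℂ)) ∈ QS h
        from hinv) m) (show (F, _) ∈ QS h from hFExp)
  refine ⟨ModularCurve.qExpand ℂ h (Igusa.deltaInvR ℂ) ^ m *
    HahnSeries.ofPowerSeries ℤ ℂ (qExpansion (h : ℝ) F), ?_⟩
  convert (mem_QS.1 h2) using 1
  funext τ
  have := ModularForm.discriminant_ne_zero τ
  simp only [hF, Pi.mul_apply, Pi.pow_apply, inv_pow]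
  field_simp

/-- An invariant function holomorphic on `ℍ` and meromorphic at `i∞` is a polynomial in `j`. -/
theorem exists_eq_poly_jFun {f : ℍ → ℂ} (hd : MDiff f)
    (hinv : ∀ (γ : SL(2, ℤ)) τ, f (γ • τ) = f τ) {m : ℕ}
    (hb : IsBoundedAtImInfty (fun τ => Δf τ ^ m * f τ)) :
    ∃ P : ℂ[X], ∀ τ, f τ = P.eval (jFun τ) := by
  obtain ⟨s, hs⟩ := exists_hasExp (h := 1) hd (fun τ => by
    rw [Nat.cast_one, ← modular_T_smul]; exact hinv _ _) hb
  have hfs : (f, s) ∈ QSR 1 (RingHom.id ℂ) := by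
    rw [mem_QSR, show ModularCurve.coeffMap (RingHom.id ℂ) s = s by ext n; simp]
    exact hs
  obtain ⟨P, hP⟩ := Igusa.exists_aeval_jW (RingHom.id ℂ) Function.injective_id 1 hfs hinv
  have hj : (jFun, Igusa.jW ℂ 1) ∈ QSR 1 (RingHom.id ℂ) := by
    rw [mem_QSR, Igusa.coeffMap_jW]; exact Igusa.hasExp_jW 1
  have hC : ∀ c : ℂ, ((fun _ => c : ℍ → ℂ), HahnSeries.C c) ∈ QSR 1 (RingHom.id ℂ) := fun c => by
    rw [mem_QSR, HahnSeries.C_apply, ModularCurve.coeffMap_single]; exact Igusa.hasExp_const 1 _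
  have key : ∀ Q : ℂ[X], ((fun τ => Q.eval (jFun τ)),
      Q.eval₂ HahnSeries.C (Igusa.jW ℂ 1)) ∈ QSR 1 (RingHom.id ℂ) := by
    intro Q
    induction Q using Polynomial.induction_on' with
    | add a b ha hb =>
      convert add_mem ha hb using 1
      simp only [Polynomial.eval_add, Polynomial.eval₂_add, Prod.mk_add_mk]
      rfl
    | monomial i c =>
      convert mul_mem (hC c) (pow_mem hj i) using 1
      simp only [Polynomial.eval_monomial, Polynomial.eval₂_monomial, Prod.pow_mk, Prod.mk_mul_mk]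
      rfl
  exact ⟨P, fun τ => congrFun (Connected.qsr_fun_unique (hP ▸ hfs) (key P)) τ⟩

variable {Γ : Subgroup SL(2, ℤ)} {χ : Γ →* ℂˣ} {f : ℍ → ℂ}

theorem IsCharFun.inv (hf : IsCharFun (1 : Γ →* ℂˣ) f) : Inv Γ f := fun γ hγ τ => by
  simpa using hf.map_smul ⟨γ, hγ⟩ τ

theorem IsCharFun.mdiff_smul (hf : IsCharFun χ f) (δ : SL(2, ℤ)) :
    MDiff fun τ : ℍ => f (δ • τ) :=
  hf.holo.comp (mdifferentiable_smul (by simp))

/-- Membership in the ideal generated by the products. -/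
def IsPairSum (χ : Γ →* ℂˣ) (g : ℍ → ℂ) : Prop :=
  ∃ (r : ℕ) (f f' : Fin r → ℍ → ℂ), (∀ i, IsCharFun χ (f i)) ∧ (∀ i, IsCharFun χ⁻¹ (f' i)) ∧
    ∑ i, f i * f' i = g

theorem IsPairSum.add {g g' : ℍ → ℂ} (h : IsPairSum χ g) (h' : IsPairSum χ g') :
    IsPairSum χ (g + g') := by
  obtain ⟨r, f, f', hf, hf', rfl⟩ := h
  obtain ⟨r', u, u', hu, hu', rfl⟩ := h'
  refine ⟨r + r', Fin.append f u, Fin.append f' u', fun i => ?_, fun i => ?_, ?_⟩
  · induction i using Fin.addCases <;> simp [hf, hu]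
  · induction i using Fin.addCases <;> simp [hf', hu']
  · simp [Fin.sum_univ_add]

theorem IsPairSum.zero : IsPairSum χ 0 :=
  ⟨0, Fin.elim0, Fin.elim0, fun i => i.elim0, fun i => i.elim0, by simp⟩

theorem IsPairSum.of_mul {g g' : ℍ → ℂ} (h : IsCharFun χ g) (h' : IsCharFun χ⁻¹ g') :
    IsPairSum χ (g * g') :=
  ⟨1, fun _ => g, fun _ => g', fun _ => h, fun _ => h', by simp⟩

theorem IsPairSum.mul {g b : ℍ → ℂ} (h : IsPairSum χ g) (hb : IsCharFun (1 : Γ →* ℂˣ) b) :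
    IsPairSum χ (b * g) := by
  obtain ⟨r, f, f', hf, hf', rfl⟩ := h
  refine ⟨r, fun i => b * f i, f', fun i => (hb.mul (hf i)).congr (one_mul χ), hf', ?_⟩
  rw [Finset.mul_sum]
  exact Finset.sum_congr rfl fun i _ => mul_assoc _ _ _

theorem IsPairSum.sum {ι : Type*} (s : Finset ι) {g : ι → ℍ → ℂ}
    (h : ∀ i ∈ s, IsPairSum χ (g i)) : IsPairSum χ (∑ i ∈ s, g i) :=
  Finset.sum_induction g (IsPairSum χ) (fun _ _ h h' => h.add h') .zero h

theorem IsPairSum.isCharFun {g : ℍ → ℂ} (h : IsPairSum χ g) : IsCharFun (1 : Γ →* ℂˣ) g := by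
  obtain ⟨r, f, f', hf, hf', rfl⟩ := h
  exact IsCharFun.sum _ fun i _ => ((hf i).mul (hf' i)).congr (mul_inv_cancel χ)

attribute [local instance] Classical.decEq

/-- The product of the conjugates other than the first. -/
def coNorm (Γ : Subgroup SL(2, ℤ)) [Fintype (SL(2, ℤ) ⧸ Γ)] (g : ℍ → ℂ) : ℍ → ℂ :=
  ∏ q ∈ (Finset.univ : Finset (SL(2, ℤ) ⧸ Γ)).erase (Connected.one Γ), tr g q

/-- The product of all conjugates. -/
def fullNorm (Γ : Subgroup SL(2, ℤ)) [Fintype (SL(2, ℤ) ⧸ Γ)] (g : ℍ → ℂ) : ℍ → ℂ :=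
  ∏ q : SL(2, ℤ) ⧸ Γ, tr g q

theorem exists_bdd_prod_tr [Fintype (SL(2, ℤ) ⧸ Γ)] (hg : IsCharFun χ f)
    (s : Finset (SL(2, ℤ) ⧸ Γ)) : ∃ m : ℕ, ∀ δ : SL(2, ℤ),
      IsBoundedAtImInfty (fun τ => Δf τ ^ m * (∏ q ∈ s, tr f q) (δ • τ)) := by
  obtain ⟨m, hm⟩ := hg.bdd
  refine ⟨s.card * m, fun δ => ?_⟩
  induction s using Finset.induction_on with
  | empty =>
    simp only [Finset.card_empty, zero_mul, pow_zero, Finset.prod_empty, Pi.one_apply, mul_one]
    exact atImInfty.const_boundedAtFilter 1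
  | insert a s ha ih =>
    refine ((hm (a.out⁻¹ * δ)).mul ih).congr' (Eventually.of_forall fun τ => ?_) EventuallyEq.rfl
    simp only [Pi.mul_apply, Finset.prod_insert ha, Finset.card_insert_of_notMem ha, tr, mul_smul]
    ring

theorem tr_one_eq (hg : IsCharFun (1 : Γ →* ℂˣ) f) : tr f (Connected.one Γ) = f :=
    funext fun τ => by
  rw [Connected.tr_mk hg.inv 1 τ, inv_one, one_smul]

theorem coNorm_isCharFun [Fintype (SL(2, ℤ) ⧸ Γ)] (hg : IsCharFun (1 : Γ →* ℂˣ) f) :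
    IsCharFun (1 : Γ →* ℂˣ) (coNorm Γ f) := by
  refine ⟨MDifferentiable.prod fun q _ => hg.mdiff_smul _, fun γ τ => ?_,
    exists_bdd_prod_tr hg _⟩
  rw [MonoidHom.one_apply, Units.val_one, one_mul, coNorm, Finset.prod_apply, Finset.prod_apply]
  let e : SL(2, ℤ) ⧸ Γ ≃ SL(2, ℤ) ⧸ Γ := MulAction.toPerm ((γ : SL(2, ℤ))⁻¹)
  refine Finset.prod_equiv e (fun q => ?_) fun q _ => ?_
  · simp only [Finset.mem_erase, Finset.mem_univ, and_true]
    refine not_congr ⟨fun h => ?_, fun h => ?_⟩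
    · subst h
      show QuotientGroup.mk ((γ : SL(2, ℤ))⁻¹ * 1) = _
      rw [QuotientGroup.eq]; simp
    · have := congrArg (fun x => (γ : SL(2, ℤ)) • x) h
      simp only [e, MulAction.toPerm_apply, smul_inv_smul] at this
      rw [this]
      show QuotientGroup.mk ((γ : SL(2, ℤ)) * 1) = _
      rw [QuotientGroup.eq]; simp
  · show tr f q _ = tr f ((γ : SL(2, ℤ))⁻¹ • q) τ
    rw [Connected.tr_smul hg.inv, inv_inv]

theorem fullNorm_smul [Fintype (SL(2, ℤ) ⧸ Γ)] (hg : IsCharFun (1 : Γ →* ℂˣ) f)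
    (δ : SL(2, ℤ)) (τ : ℍ) : fullNorm Γ f (δ • τ) = fullNorm Γ f τ := by
  rw [fullNorm, Finset.prod_apply, Finset.prod_apply]
  let e : SL(2, ℤ) ⧸ Γ ≃ SL(2, ℤ) ⧸ Γ := MulAction.toPerm δ⁻¹
  refine Finset.prod_equiv e (by simp) fun q _ => ?_
  show tr f q _ = tr f (δ⁻¹ • q) τ
  rw [Connected.tr_smul hg.inv, inv_inv]

theorem fullNorm_eq [Fintype (SL(2, ℤ) ⧸ Γ)] (hg : IsCharFun (1 : Γ →* ℂˣ) f) :
    fullNorm Γ f = coNorm Γ f * f := by
  rw [fullNorm, coNorm, ← Finset.prod_erase_mul _ _ (Finset.mem_univ (Connected.one Γ)),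
    tr_one_eq hg]

/-- **The unit is a sum of products.** -/
theorem exists_unit_sum [Γ.FiniteIndex] (hneg : (-1 : SL(2, ℤ)) ∈ Γ) (hfree : IsFree Γ)
    (hχ : ∀ γ, ‖((χ γ : ℂˣ) : ℂ)‖ = 1) (hpar : IsEllParChar χ) : IsPairSum χ 1 := by
  have : Fintype (SL(2, ℤ) ⧸ Γ) := Subgroup.fintypeQuotientOfFiniteIndex
  have hχ' : ∀ γ, ‖(((χ⁻¹) γ : ℂˣ) : ℂ)‖ = 1 := fun γ => by simp [hχ γ]
  have hpar' : IsEllParChar χ⁻¹ := fun γ hγ => by simp [hpar γ hγ]
  -- non vanishing at the orbit of a point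
  have hpt : ∀ p : ℍ, ∃ g, IsPairSum χ g ∧ g p ≠ 0 := fun p => by
    obtain ⟨g, hg, hg0⟩ := exists_charFun_ne_zero hneg hfree χ hχ hpar p
    obtain ⟨g', hg', hg'0⟩ := exists_charFun_ne_zero hneg hfree χ⁻¹ hχ' hpar' p
    exact ⟨g * g', .of_mul hg hg', mul_ne_zero hg0 hg'0⟩
  have horb : ∀ p : ℍ, ∃ g, IsPairSum χ g ∧ ∀ q : SL(2, ℤ) ⧸ Γ, tr g q p ≠ 0 := by
    intro p
    choose G hG hG0 using fun q : SL(2, ℤ) ⧸ Γ => hpt (q.out⁻¹ • p)
    set n := Fintype.card (SL(2, ℤ) ⧸ Γ)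
    set e := Fintype.equivFin (SL(2, ℤ) ⧸ Γ)
    set P : (SL(2, ℤ) ⧸ Γ) → ℂ[X] := fun q =>
      ∑ i : Fin n, Polynomial.monomial (i : ℕ) (tr (G (e.symm i)) q p) with hP
    have hP0 : ∀ q, P q ≠ 0 := fun q h0 => by
      have := congrArg (fun R : ℂ[X] => R.coeff (e q : ℕ)) h0
      simp only [hP, finsetSum_coeff, coeff_monomial, coeff_zero] at this
      rw [Finset.sum_eq_single (e q) (fun b _ hb => if_neg fun h => hb (Fin.ext h))
        (fun h => absurd (Finset.mem_univ _) h), if_pos rfl, Equiv.symm_apply_apply] at this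
      exact hG0 q this
    obtain ⟨t, ht⟩ := Infinite.exists_notMem_finset (∏ q, P q).roots.toFinset
    refine ⟨∑ i : Fin n, (fun _ : ℍ => t ^ (i : ℕ)) * G (e.symm i),
      .sum _ fun i _ => (hG _).mul (IsCharFun.const _), fun q h0 => ht ?_⟩
    rw [Multiset.mem_toFinset, mem_roots (Finset.prod_ne_zero_iff.2 fun q _ => hP0 q), IsRoot,
      eval_prod]
    refine Finset.prod_eq_zero (Finset.mem_univ q) (Eq.trans ?_ h0)
    simp only [hP, eval_finsetSum, eval_monomial, tr, Finset.sum_apply, Pi.mul_apply]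
    exact Finset.sum_congr rfl fun i _ => mul_comm _ _
  -- the ideal of polynomials
  let J : Ideal ℂ[X] :=
    { carrier := {P | IsPairSum χ fun τ => P.eval (jFun τ)}
      zero_mem' := by
        show IsPairSum χ _
        simpa [Pi.zero_def] using (IsPairSum.zero (χ := χ))
      add_mem' := fun {P Q} hP hQ => by
        show IsPairSum χ _
        have := IsPairSum.add hP hQ
        simpa [Pi.add_def] using this
      smul_mem' := fun b P hP => by
        show IsPairSum χ _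
        have hb : IsCharFun (1 : Γ →* ℂˣ) fun τ => b.eval (jFun τ) := by
          induction b using Polynomial.induction_on' with
          | add u v hu hv =>
            have := hu.add hv
            simpa [Pi.add_def] using this
          | monomial i c =>
            have hj : IsCharFun (1 : Γ →* ℂˣ) jFun := by
              refine ⟨Igusa.hasExp_jFun.1,
                fun γ τ => by rw [Igusa.jFun_smul]; simp, ⟨1, fun δ => ?_⟩⟩
              have hb4 : IsBoundedAtImInfty (⇑ModularForm.E₄) :=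
                ModularFormClass.bdd_at_infty ModularForm.E₄
              refine (hb4.mul (hb4.mul hb4)).congr' (Eventually.of_forall fun τ => ?_)
                EventuallyEq.rfl
              have := ModularForm.discriminant_ne_zero τ
              show _ = Δf τ ^ 1 * jFun (δ • τ)
              rw [Igusa.jFun_smul, Igusa.jFun, Pi.mul_apply, Pi.mul_apply]
              field_simp
            have := ((IsCharFun.const (Γ := Γ) c).mul (hj.pow i)).congr
              (ψ := (1 : Γ →* ℂˣ)) (by ext γ; simp)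
            simpa [eval_monomial, Pi.mul_def, Pi.pow_def] using this
        have := IsPairSum.mul hP hb
        simpa [Pi.mul_def] using this }
  have hJ : ∀ p : ℍ, ∃ P ∈ J, P.eval (jFun p) ≠ 0 := by
    intro p
    obtain ⟨g, hg, hg0⟩ := horb p
    have hgR := hg.isCharFun
    obtain ⟨m, hm⟩ := exists_bdd_prod_tr hgR Finset.univ
    obtain ⟨P, hP⟩ := exists_eq_poly_jFun (f := fullNorm Γ g)
      (MDifferentiable.prod fun q _ => hgR.mdiff_smul _) (fullNorm_smul hgR) (m := m)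
      (by simpa [fullNorm] using hm 1)
    refine ⟨P, ?_, ?_⟩
    · show IsPairSum χ _
      rw [show (fun τ => P.eval (jFun τ)) = fullNorm Γ g from funext fun τ => (hP τ).symm,
        fullNorm_eq hgR]
      exact hg.mul (coNorm_isCharFun hgR)
    · rw [← hP, fullNorm, Finset.prod_apply]
      exact Finset.prod_ne_zero_iff.2 fun q _ => hg0 q
  obtain ⟨P₀, hP₀⟩ := (IsPrincipalIdealRing.principal J).principal
  have hmem : ∀ P, P ∈ J ↔ P₀ ∣ P := fun P => by
    rw [hP₀, Submodule.mem_span_singleton]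
    exact ⟨fun ⟨a, ha⟩ => ⟨a, by rw [← ha, smul_eq_mul, mul_comm]⟩,
      fun ⟨a, ha⟩ => ⟨a, by rw [ha, smul_eq_mul, mul_comm]⟩⟩
  have hu : IsUnit P₀ := by
    by_contra hu
    obtain ⟨α, hα⟩ : ∃ α : ℂ, P₀.IsRoot α := by
      rcases eq_or_ne P₀ 0 with h0 | h0
      · exact ⟨0, by simp [h0]⟩
      · exact IsAlgClosed.exists_root P₀ fun hd => hu (isUnit_iff_degree_eq_zero.2 hd)
    obtain ⟨p, hp⟩ := LevelOne.jFun_surjective α
    obtain ⟨P, hP, hP0⟩ := hJ p
    obtain ⟨a, rfl⟩ := (hmem P).1 hP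
    refine hP0 ?_
    have e : jFun p = α := by
      rw [← hp, Igusa.jFun, LevelOne.jFun, div_eq_mul_inv]
    rw [eval_mul, e, hα.eq_zero, zero_mul]
  have h1 : IsPairSum χ fun τ => (1 : ℂ[X]).eval (jFun τ) := (hmem 1).2 hu.dvd
  simpa [Pi.one_def] using h1

end Fermat.Agent.DeligneSerre
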