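import Fermat.Agent.DeligneSerre.TwistChar
import Fermat.Agent.GammaH.Algebra
import Mathlib.Analysis.SpecialFunctions.Complex.CircleAddChar

/-!
# `H¹` of `±Γ₁(M)` modulo `n` as a group of characters

`chrEquiv` identifies the classes with the characters of order dividing `n` that are trivial on
elliptic and parabolic elements.
-/

set_option autoImplicit false

noncomputable section

open scoped MatrixGroups

namespace Fermat.Agent.DeligneSerre

open Fermat.Agent.LevelM (sgnGamma1)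
open Fermat.Agent.GammaH (GammaH H1)

variable {M n : ℕ}

/-- The subgroup `{±1}`. -/
abbrev pmOne (M : ℕ) : Subgroup (ZMod M)ˣ := Subgroup.zpowers (-1)

theorem neg_one_mem_pmOne (M : ℕ) : (-1 : (ZMod M)ˣ) ∈ pmOne M := Subgroup.mem_zpowers _

theorem mem_pmOne {a : (ZMod M)ˣ} : a ∈ pmOne M ↔ a = 1 ∨ a = -1 := by
  refine ⟨fun h => ?_, fun h => ?_⟩
  · obtain ⟨k, rfl⟩ := Subgroup.mem_zpowers_iff.1 h
    rcases Int.even_or_odd k with hk | hk
    · exact Or.inl (Even.neg_one_zpow hk)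
    · exact Or.inr (Odd.neg_one_zpow hk)
  · rcases h with rfl | rfl
    · exact one_mem _
    · exact neg_one_mem_pmOne M

theorem gammaH_pmOne (M : ℕ) : GammaH M (pmOne M) = sgnGamma1 M := by
  ext γ
  rw [GammaH.mem_GammaH', mem_sgnGamma1_iff_zmod]
  constructor
  · rintro ⟨h0, a, ha, h1⟩
    rcases mem_pmOne.1 ha with rfl | rfl
    · exact Or.inl ⟨h0, by simpa using h1⟩
    · exact Or.inr ⟨h0, by simpa using h1⟩
  · rintro (⟨h0, h1⟩ | ⟨h0, h1⟩)
    · exact ⟨h0, 1, one_mem _, by simpa using h1⟩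
    · exact ⟨h0, -1, neg_one_mem_pmOne M, by simpa using h1⟩

theorem mem_gammaH_iff {γ : SL(2, ℤ)} : γ ∈ GammaH M (pmOne M) ↔ γ ∈ sgnGamma1 M := by
  rw [gammaH_pmOne]

/-- `x ↦ exp (2πix/n)` as a unit. -/
def eZ (n : ℕ) [NeZero n] : Multiplicative (ZMod n) →* ℂˣ :=
  (ZMod.stdAddChar (N := n)).toMonoidHom.toHomUnits

theorem eZ_injective (n : ℕ) [NeZero n] : Function.Injective (eZ n) := fun _ _ h =>
  Multiplicative.toAdd.injective (ZMod.injective_stdAddChar (congrArg Units.val h))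

theorem eZ_pow [NeZero n] (x : Multiplicative (ZMod n)) : eZ n x ^ n = 1 := by
  have h : x ^ n = 1 := by
    refine Multiplicative.toAdd.injective ?_
    rw [toAdd_pow, toAdd_one, nsmul_eq_mul, ZMod.natCast_self, zero_mul]
  rw [← map_pow, h, map_one]

theorem exists_eZ_eq [NeZero n] {u : ℂˣ} (hu : u ^ n = 1) : ∃ x, eZ n x = u := by
  have hz := Complex.isPrimitiveRoot_exp n (NeZero.ne n)
  obtain ⟨i, -, hi⟩ := hz.eq_pow_of_pow_eq_one (ξ := (u : ℂ)) (by
    rw [← Units.val_pow_eq_pow_val, hu, Units.val_one])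
  refine ⟨Multiplicative.ofAdd ((i : ℤ) : ZMod n), Units.ext ?_⟩
  rw [← hi, eZ, MonoidHom.coe_toHomUnits]
  show ZMod.stdAddChar ((i : ℤ) : ZMod n) = _
  rw [ZMod.stdAddChar_coe, ← Complex.exp_nat_mul]
  congr 1
  push_cast
  ring

namespace Chr

instance : One (Chr M n) := ⟨⟨1, MonoidHom.ext fun _ => one_pow n, fun _ _ => rfl⟩⟩

instance : Mul (Chr M n) := ⟨fun χ ψ => ⟨χ.toHom * ψ.toHom,
  by
    refine MonoidHom.ext fun x => ?_
    have h1 := DFunLike.congr_fun χ.pow_eq x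
    have h2 := DFunLike.congr_fun ψ.pow_eq x
    simp only [MonoidHom.pow_apply, MonoidHom.mul_apply, MonoidHom.one_apply] at h1 h2 ⊢
    rw [mul_pow, h1, h2, one_mul],
  fun γ hγ => by rw [MonoidHom.mul_apply, χ.ellPar γ hγ, ψ.ellPar γ hγ, one_mul]⟩⟩

@[simp] theorem toHom_one : (1 : Chr M n).toHom = 1 := rfl

@[simp] theorem toHom_mul (χ ψ : Chr M n) : (χ * ψ).toHom = χ.toHom * ψ.toHom := rfl

instance : Inv (Chr M n) := ⟨fun χ => ⟨χ.toHom⁻¹,
  by
    refine MonoidHom.ext fun x => ?_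
    have h := DFunLike.congr_fun χ.pow_eq x
    simp only [MonoidHom.pow_apply, MonoidHom.inv_apply, MonoidHom.one_apply] at h ⊢
    rw [inv_pow, h, inv_one],
  fun γ hγ => by rw [MonoidHom.inv_apply, χ.ellPar γ hγ, inv_one]⟩⟩

@[simp] theorem toHom_inv (χ : Chr M n) : χ⁻¹.toHom = χ.toHom⁻¹ := rfl

theorem apply_eq {χ ψ : Chr M n} (h : ∀ γ, χ.toHom γ = ψ.toHom γ) : χ = ψ :=
  Chr.ext' (MonoidHom.ext h)

instance : CommGroup (Chr M n) where
  mul_assoc a b c := apply_eq fun γ => mul_assoc _ _ _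
  one_mul a := apply_eq fun γ => one_mul _
  mul_one a := apply_eq fun γ => mul_one _
  inv_mul_cancel a := apply_eq fun γ => inv_mul_cancel (a.toHom γ)
  mul_comm a b := apply_eq fun γ => mul_comm _ _

end Chr

variable [NeZero n]

/-- The character attached to a class. -/
def chrOf (φ : H1 M (pmOne M) (ZMod n) (ZMod n)) : Chr M n where
  toHom := (eZ n).comp ((AddMonoidHom.toMultiplicativeRight
    (φ : Additive (GammaH M (pmOne M)) →+ ZMod n)).comp
      (MulEquiv.subgroupCongr (gammaH_pmOne M).symm).toMonoidHom)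
  pow_eq := MonoidHom.ext fun x => eZ_pow _
  ellPar := fun γ hγ => by
    rw [MonoidHom.comp_apply, MonoidHom.comp_apply]
    show eZ n (Multiplicative.ofAdd _) = 1
    exact (congrArg (fun x => eZ n (Multiplicative.ofAdd x))
      (φ.2 ⟨(γ : SL(2, ℤ)), mem_gammaH_iff.2 γ.2⟩ hγ)).trans (map_one _)

theorem chrOf_apply (φ : H1 M (pmOne M) (ZMod n) (ZMod n)) (γ : sgnGamma1 M) :
    (chrOf φ).toHom γ = eZ n (Multiplicative.ofAdd
      ((φ : Additive (GammaH M (pmOne M)) →+ ZMod n)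
        (Additive.ofMul ⟨(γ : SL(2, ℤ)), mem_gammaH_iff.2 γ.2⟩))) := rfl

theorem chrOf_add (φ ψ : H1 M (pmOne M) (ZMod n) (ZMod n)) :
    chrOf (φ + ψ) = chrOf φ * chrOf ψ := Chr.apply_eq fun γ => by
  rw [Chr.toHom_mul, MonoidHom.mul_apply, chrOf_apply, chrOf_apply, chrOf_apply, ← map_mul,
    ← ofAdd_add]
  rfl

theorem chrOf_injective : Function.Injective
    (chrOf : H1 M (pmOne M) (ZMod n) (ZMod n) → Chr M n) := by
  intro φ ψ h
  refine Subtype.ext (AddMonoidHom.ext fun γ => ?_)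
  obtain ⟨γ, rfl⟩ := Additive.ofMul.surjective γ
  have := eZ_injective n (DFunLike.congr_fun (congrArg Chr.toHom h)
    (⟨(γ : SL(2, ℤ)), mem_gammaH_iff.1 γ.2⟩ : sgnGamma1 M))
  exact Multiplicative.ofAdd.injective this

theorem chrOf_surjective :
    Function.Surjective (chrOf : H1 M (pmOne M) (ZMod n) (ZMod n) → Chr M n) := by
  intro χ
  choose x hx using fun γ : GammaH M (pmOne M) =>
    exists_eZ_eq (n := n) (u := χ.toHom ⟨(γ : SL(2, ℤ)), mem_gammaH_iff.1 γ.2⟩)
      (by rw [← MonoidHom.pow_apply, χ.pow_eq, MonoidHom.one_apply])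
  let φ : Additive (GammaH M (pmOne M)) →+ ZMod n :=
    AddMonoidHom.mk' (fun γ => (x γ.toMul).toAdd) fun γ δ => by
      rw [← toAdd_mul]
      refine congrArg _ (eZ_injective n ?_)
      rw [map_mul, hx, hx, hx, ← map_mul]
      rfl
  refine ⟨⟨φ, fun γ hγ => ?_⟩, Chr.apply_eq fun γ => ?_⟩
  · show (x γ).toAdd = 0
    rw [toAdd_eq_zero]
    refine eZ_injective n ?_
    rw [hx, map_one]
    exact χ.ellPar _ hγ
  · rw [chrOf_apply]
    exact hx _

/-- Classes are characters. -/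
def chrEquiv (M n : ℕ) [NeZero n] : H1 M (pmOne M) (ZMod n) (ZMod n) ≃ Chr M n :=
  Equiv.ofBijective chrOf ⟨chrOf_injective, chrOf_surjective⟩

instance finite_chr [NeZero M] : Finite (Chr M n) :=
  haveI : Finite (H1 M (pmOne M) (ZMod n) (ZMod n)) :=
    Finite.of_equiv _ (GammaH.coordH (neg_one_mem_pmOne M) (ZMod n) (ZMod n)).toEquiv
  Finite.of_surjective _ (chrOf_surjective (M := M) (n := n))

end Fermat.Agent.DeligneSerre
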