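import Fermat.Agent.GammaH.Hecke
import Fermat.Agent.Newform.Expansion

/-!
# Hecke relations in weight one force the diamond eigencharacter

If the coefficients of `f ∈ S₁(Γ₁(N))` satisfy the Hecke relation at `p` with `ε p`, then
`g = f ∣ δ_p - ε(p) f` and `τ ↦ g (p τ)` both have level `Γ₁(N)`; such a `g` vanishes: it is
invariant under all translations by `p⁻ʲ`.
-/

set_option autoImplicit false

noncomputable section

namespace Fermat.Agent.DeligneSerre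

open UpperHalfPlane CongruenceSubgroup Fermat.Agent.Newform Fermat.Agent.GammaH
open Fermat.Agent.Periods (IsCosetFamily)
open P2MW.S_ModularForm_heckeT_slash_eq_self_of_mem_Gamma0.ModularForm.HeckeSlashInvariance
  (heckeU_eq_sum_zmod)
open ModularFormClass (qCoeff)
open scoped MatrixGroups ModularForm Manifold OnePoint

/-- The hypotheses of Deligne–Serre. -/
structure WeightOneEigen (N : ℕ) (ε : DirichletCharacter ℂ N) (f : CuspForm (Gamma1 N) 1) :
    Prop where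
  one : qCoeff f 1 = 1
  rel : ∀ p : ℕ, p.Prime → ¬ p ∣ N → ∀ n : ℕ,
    qCoeff f (p * n) + ε (p : ZMod N) * (if p ∣ n then qCoeff f (n / p) else 0) =
      qCoeff f p * qCoeff f n

variable {N : ℕ} [NeZero N] {k : ℤ}

omit [NeZero N] in
theorem GammaH_bot : GammaH N ⊥ = Gamma1 N := by
  refine le_antisymm (fun γ h => ?_) Gamma1_le_GammaH
  obtain ⟨h0, a, ha, hd⟩ := mem_GammaH'.1 h
  rw [Subgroup.mem_bot.1 ha, Units.val_one] at hd
  have hdet := congrArg (Int.cast : ℤ → ZMod N) γ.det_coe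
  rw [Matrix.det_fin_two] at hdet
  push_cast at hdet
  rw [h0, hd, mul_one, mul_zero, sub_zero] at hdet
  exact (Gamma1_mem _ _).2 ⟨hdet, hd, h0⟩

theorem one_mem_periods1 (N : ℕ) :
    (1 : ℝ) ∈ (Gamma1 N : Subgroup (GL (Fin 2) ℝ)).strictPeriods := by
  simp

theorem hasQ_form1 (f : CuspForm (Gamma1 N) k) : HasQ ⇑f (qCoeff ⇑f) :=
  fun τ => ModularForm.hasSum_qExpansion f one_pos (one_mem_periods1 N) τ

omit [NeZero N] in
theorem qCoeff_form1_zero (f : CuspForm (Gamma1 N) k) : qCoeff ⇑f 0 = 0 :=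
  CuspFormClass.qExpansion_coeff_zero f one_pos (one_mem_periods1 N)

omit [NeZero N] in
theorem slash_form1 (f : CuspForm (Gamma1 N) k) {γ : SL(2, ℤ)} (h : γ ∈ Gamma1 N) :
    (f : ℍ → ℂ) ∣[k] γ = f :=
  slash_eq_self f h

omit [NeZero N] in
theorem qCoeff_eq_of_hasQ1 {f : CuspForm (Gamma1 N) k} {c : ℕ → ℂ} (h : HasQ ⇑f c) (n : ℕ) :
    qCoeff ⇑f n = c n :=
  (ModularFormClass.qExpansion_coeff_unique one_pos (one_mem_periods1 N)
    (fun τ => by simpa [smul_eq_mul] using h τ) n).symm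

/-- Invariant functions vanishing at the cusps have expansions. -/
theorem exists_hasQ {φ : ℍ → ℂ} (hφ : IsCuspFun k φ) (hinv : ∀ γ ∈ Gamma1 N, φ ∣[k] γ = φ) :
    ∃ c : ℕ → ℂ, c 0 = 0 ∧ HasQ φ c :=
  ⟨_, qCoeff_form1_zero (ofCuspFun hφ hinv), hasQ_form1 (ofCuspFun hφ hinv)⟩

theorem hasQ_unique {φ : ℍ → ℂ} {c c' : ℕ → ℂ} (hφ : IsCuspFun k φ)
    (hinv : ∀ γ ∈ Gamma1 N, φ ∣[k] γ = φ) (h : HasQ φ c) (h' : HasQ φ c') (n : ℕ) : c n = c' n :=
  ((qCoeff_eq_of_hasQ1 (f := ofCuspFun hφ hinv) h n).symm).trans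
    (qCoeff_eq_of_hasQ1 (f := ofCuspFun hφ hinv) h' n)

section Dilate

variable {φ : ℍ → ℂ} {p : ℕ}

omit [NeZero N] in
/-- If `φ` and `φ(pτ)` have level `Γ₁(N)` then so has `φ(τ/p)`. -/
theorem slash_contract_eq_self (hp : p.Prime) (hpN : ¬ p ∣ N)
    (h : ∀ γ ∈ Gamma1 N, φ ∣[k] γ = φ)
    (h' : ∀ γ ∈ Gamma1 N, (φ ∣[k] qm p 0 0 1) ∣[k] γ = φ ∣[k] qm p 0 0 1) :
    ∀ γ ∈ Gamma1 N, (φ ∣[k] qm 1 0 0 p) ∣[k] γ = φ ∣[k] qm 1 0 0 p := by
  have hpq : (p : ℚ) ≠ 0 := by exact_mod_cast hp.ne_zero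
  have hco : IsCoprime (p : ℤ) (N : ℤ) :=
    Nat.isCoprime_iff_coprime.2 ((Nat.Prime.coprime_iff_not_dvd hp).2 hpN)
  obtain ⟨u, v, huv⟩ := hco
  obtain ⟨a, b, hab⟩ : IsCoprime (u * p) (N : ℤ) := ⟨1, v, by rw [one_mul]; exact huv⟩
  have hα : a * (u * p) - (-b) * N = 1 := by linear_combination hab
  have hβ : (a * p) * u - (-b) * N = 1 := by linear_combination hab
  set α : SL(2, ℤ) := slMk a (-b) N (u * p) hα with hαdef
  set β : SL(2, ℤ) := slMk (a * p) (-b) N u hβ with hβdef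
  have hu : ((u * p : ℤ) : ZMod N) = 1 := by
    have := congrArg (Int.cast : ℤ → ZMod N) huv
    push_cast at this ⊢
    simpa using this
  have hαmem : α ∈ Gamma1 N := by
    have ha : ((a : ℤ) : ZMod N) = 1 := by
      have := congrArg (Int.cast : ℤ → ZMod N) hab
      push_cast at this hu
      rwa [ZMod.natCast_self, mul_zero, add_zero, hu, mul_one] at this
    refine (Gamma1_mem _ _).2 ⟨?_, ?_, ?_⟩
    · simpa [hαdef, slMk] using ha
    · simpa [hαdef, slMk] using hu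
    · simp [hαdef, slMk]
  have hβmem : β ∈ Gamma0 N := Gamma0_mem.2 (by simp [hβdef, slMk])
  have e : (α : GL (Fin 2) ℝ) * qm p 0 0 1 = qm 1 0 0 p * (β : GL (Fin 2) ℝ) := by
    have h1 : ((a : ℤ) : ℚ) * ((u * p : ℤ) : ℚ) - ((-b : ℤ) : ℚ) * ((N : ℤ) : ℚ) = 1 := by
      exact_mod_cast hα
    have h2 : ((a * p : ℤ) : ℚ) * ((u : ℤ) : ℚ) - ((-b : ℤ) : ℚ) * ((N : ℤ) : ℚ) = 1 := by
      exact_mod_cast hβ
    rw [hαdef, hβdef, ← qm_slMk hα, ← qm_slMk hβ,
      qm_mul (by rw [h1]; exact one_ne_zero) (by simpa using hpq),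
      qm_mul (by simpa using hpq) (by rw [h2]; exact one_ne_zero)]
    congr 1 <;> push_cast <;> ring
  have key : φ ∣[k] qm 1 0 0 p = (φ ∣[k] qm p 0 0 1) ∣[k] β⁻¹ := by
    conv_rhs => rw [← h α hαmem]
    simp only [ModularForm.SL_slash, ← SlashAction.slash_mul]
    rw [e, mul_assoc]
    simp only [← map_mul, mul_inv_cancel, map_one, mul_one]
  intro γ hγ
  rw [key, ← SlashAction.slash_mul]
  have hconj : β⁻¹ * γ * β ∈ Gamma1 N := by
    rw [← GammaH_bot] at hγ ⊢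
    simpa using conj_mem_GammaH (inv_mem hβmem) hγ
  rw [show β⁻¹ * γ = (β⁻¹ * γ * β) * β⁻¹ by group, SlashAction.slash_mul, h' _ hconj]

/-- Functions `φ` with `φ` and `φ(pτ)` of level `Γ₁(N)` vanish. -/
theorem eq_zero_of_dilate_invariant (hp : p.Prime) (hpN : ¬ p ∣ N) (hcusp : IsCuspFun k φ)
    (h : ∀ γ ∈ Gamma1 N, φ ∣[k] γ = φ)
    (h' : ∀ γ ∈ Gamma1 N, (φ ∣[k] qm p 0 0 1) ∣[k] γ = φ ∣[k] qm p 0 0 1) : φ = 0 := by
  have hpq : (p : ℚ) ≠ 0 := by exact_mod_cast hp.ne_zero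
  have hppos : (0 : ℚ) < p := by exact_mod_cast hp.pos
  set g : ℕ → ℍ → ℂ := fun j => φ ∣[k] qm 1 0 0 ((p : ℚ) ^ j) with hg
  have hinv : ∀ j, (∀ γ ∈ Gamma1 N, g j ∣[k] γ = g j) ∧
      ∀ γ ∈ Gamma1 N, (g j ∣[k] qm p 0 0 1) ∣[k] γ = g j ∣[k] qm p 0 0 1 := by
    intro j
    induction j with
    | zero =>
      have e0 : g 0 = φ := by simp only [hg, pow_zero, qm_one, SlashAction.slash_one]
      rw [e0]
      exact ⟨h, h'⟩
    | succ j ih =>
      have e1 : g (j + 1) = g j ∣[k] qm 1 0 0 p := by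
        simp only [hg, ← SlashAction.slash_mul]
        rw [qm_mul (by simpa using pow_ne_zero j hpq) (by simpa using hpq)]
        congr 2 <;> simp [pow_succ]
      have e2 : g (j + 1) ∣[k] qm p 0 0 1 = (p : ℂ) ^ (k - 2) • g j := by
        rw [e1, ← SlashAction.slash_mul, qm_mul (by simpa using hpq) (by simpa using hpq)]
        simpa using slash_qm_scalar k hppos (g j)
      refine ⟨fun γ hγ => ?_, fun γ hγ => ?_⟩
      · rw [e1]; exact slash_contract_eq_self hp hpN ih.1 ih.2 γ hγ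
      · rw [e2, ModularForm.SL_smul_slash, ih.1 γ hγ]
  have htrans : ∀ j : ℕ, φ ∣[k] qm 1 (1 / (p : ℚ) ^ j) 0 1 = φ := by
    intro j
    have hpj : (p : ℚ) ^ j ≠ 0 := pow_ne_zero j hpq
    have hT := (hinv j).1 ModularGroup.T (by simp [Gamma1_mem, ModularGroup.coe_T])
    have e : qm 1 0 0 ((p : ℚ) ^ j) * (ModularGroup.T : GL (Fin 2) ℝ) =
        qm 1 (1 / (p : ℚ) ^ j) 0 1 * qm 1 0 0 ((p : ℚ) ^ j) := by
      rw [qm_SL, qm_mul (by simpa using hpj) (by simp [ModularGroup.coe_T]),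
        qm_mul (by simp) (by simpa using hpj)]
      congr 1 <;> simp [ModularGroup.coe_T, hpj]
    rw [hg] at hT
    simp only [ModularForm.SL_slash] at hT
    rw [← SlashAction.slash_mul, e, SlashAction.slash_mul] at hT
    have := congrArg (fun F : ℍ → ℂ => F ∣[k] (qm 1 0 0 ((p : ℚ) ^ j))⁻¹) hT
    simpa only [← SlashAction.slash_mul, mul_inv_cancel_right, mul_inv_cancel,
      SlashAction.slash_one, mul_one] using this
  obtain ⟨c, hc0, hc⟩ := exists_hasQ hcusp h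
  have hzero : ∀ n, c n = 0 := by
    intro n
    rcases Nat.eq_zero_or_pos n with rfl | hn
    · exact hc0
    have ht := hc.translate k (1 / (p : ℚ) ^ n)
    rw [htrans n] at ht
    have e := hasQ_unique hcusp h ht hc n
    have hne : Function.Periodic.qParam 1 (((1 / (p : ℚ) ^ n : ℚ)) : ℂ) ^ n ≠ 1 := by
      have hz := Complex.isPrimitiveRoot_exp (p ^ n) (pow_ne_zero n hp.ne_zero)
      intro he
      have hq : Function.Periodic.qParam 1 (((1 / (p : ℚ) ^ n : ℚ)) : ℂ) =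
          Complex.exp (2 * Real.pi * Complex.I / ((p ^ n : ℕ) : ℂ)) := by
        rw [Function.Periodic.qParam]
        congr 1
        push_cast
        ring
      rw [hq, hz.pow_eq_one_iff_dvd] at he
      exact absurd (Nat.le_of_dvd hn he) (not_le.2 (Nat.lt_pow_self hp.one_lt))
    by_contra hcn
    exact hne (mul_left_cancel₀ hcn (e.trans (mul_one _).symm))
  funext τ
  simpa [hzero] using (hc τ).unique (hasSum_zero.congr_fun fun n => by simp [hzero n])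

end Dilate

namespace WeightOneEigen

variable {ε : DirichletCharacter ℂ N} {f : CuspForm (Gamma1 N) 1}

theorem slash_deltaOf_prime (h : WeightOneEigen N ε f) {p : ℕ} (hp : p.Prime) (hpN : ¬ p ∣ N) :
    (f : ℍ → ℂ) ∣[(1 : ℤ)] (deltaOf N (primeUnit hp hpN) : SL(2, ℤ)) =
      ε (p : ZMod N) • (f : ℍ → ℂ) := by
  have : NeZero p := ⟨hp.ne_zero⟩
  set δ : SL(2, ℤ) := (deltaOf N (primeUnit hp hpN) : SL(2, ℤ)) with hδ
  set g : ℍ → ℂ := (f : ℍ → ℂ) ∣[(1 : ℤ)] δ - ε (p : ZMod N) • (f : ℍ → ℂ) with hg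
  have hfc : IsCuspFun 1 ⇑f := isCuspFun_cuspForm f
  have hgc : IsCuspFun 1 g := (hfc.slash_SL δ).sub (hfc.smul _)
  have hginv : ∀ γ ∈ Gamma1 N, g ∣[(1 : ℤ)] γ = g := by
    intro γ hγ
    have hconj : δ * γ * δ⁻¹ ∈ Gamma1 N := by
      rw [← GammaH_bot] at hγ ⊢
      exact conj_mem_GammaH (deltaOf N (primeUnit hp hpN)).2 hγ
    rw [hg, sub_eq_add_neg, SlashAction.add_slash, SlashAction.neg_slash,
      ModularForm.SL_smul_slash, slash_form1 f hγ, ← SlashAction.slash_mul,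
      show δ * γ = (δ * γ * δ⁻¹) * δ by group, SlashAction.slash_mul, slash_form1 f hconj]
  set Tf : ℍ → ℂ := ∑ x, (f : ℍ → ℂ) ∣[(1 : ℤ)] repT (N := N) hp hpN x with hTf
  have hTinv : ∀ γ ∈ Gamma1 N, Tf ∣[(1 : ℤ)] γ = Tf := fun γ hγ =>
    slashSum_invariant (isCosetFamily_T (H := ⊥) hp hpN)
      (fun δ hδ => slash_form1 f (GammaH_bot (N := N) ▸ hδ)) (GammaH_bot (N := N) ▸ hγ)
  have hD : ModularForm.heckeDiagMatrix p = qm p 0 0 1 := by
    refine Units.ext ?_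
    rw [val_qm (by simp [hp.ne_zero]), ModularForm.val_heckeDiagMatrix hp.ne_zero]
    simp
  have eT : Tf = ModularForm.heckeU 1 p ⇑f + ((f : ℍ → ℂ) ∣[(1 : ℤ)] δ) ∣[(1 : ℤ)] qm p 0 0 1 := by
    rw [hTf, heckeU_eq_sum_zmod, ← hD, ModularForm.SL_slash, ← SlashAction.slash_mul, add_comm]
    refine (Fintype.sum_option _).trans ?_
    exact congrArg₂ (· + ·) rfl (Finset.sum_congr rfl fun j _ ↦
      congrArg (fun g : GL (Fin 2) ℝ ↦ (f : ℍ → ℂ) ∣[(1 : ℤ)] g) (repT_coe hp hpN j))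
  have hper : Function.Periodic ((f : ℍ → ℂ) ∘ ofComplex) 1 := by
    simpa using SlashInvariantFormClass.periodic_comp_ofComplex f (one_mem_periods1 N)
  have hcusp : Fact (IsCusp OnePoint.infty (Gamma1 N : Subgroup (GL (Fin 2) ℝ))) :=
    ⟨Subgroup.isCusp_of_mem_strictPeriods one_pos (one_mem_periods1 N)⟩
  have hU : HasQ (ModularForm.heckeU 1 p ⇑f) fun n => qCoeff ⇑f (n * p) := by
    intro τ
    have hs := UpperHalfPlane.hasSum_qExpansion one_pos
      (by simpa using ModularForm.periodic_heckeU_comp_ofComplex hper 1 p)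
      (ModularForm.mdifferentiable_heckeU (CuspFormClass.holo f) 1 p)
      (ModularForm.isBoundedAtImInfty_heckeU (ModularFormClass.bdd_at_infty f) 1 p) τ
    refine hs.congr_fun fun n ↦ ?_
    rw [smul_eq_mul]
    congr 1
    exact (UpperHalfPlane.qCoeff_heckeU hper (CuspFormClass.holo f)
      (ModularFormClass.bdd_at_infty f) 1 hp.ne_zero n).symm
  have eU : ModularForm.heckeU 1 p ⇑f =
      qCoeff ⇑f p • (f : ℍ → ℂ) - ε (p : ZMod N) • ((f : ℍ → ℂ) ∣[(1 : ℤ)] qm p 0 0 1) := by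
    refine funext fun τ => (hU τ).unique ?_
    refine ((((hasQ_form1 f).smul (qCoeff ⇑f p)).sub
      (((hasQ_form1 f).dilate 1 hp.pos).smul (ε (p : ZMod N)))) τ).congr_fun fun n => ?_
    congr 1
    have := h.rel p hp hpN n
    rw [mul_comm p n] at this
    by_cases hd : p ∣ n <;> simp only [hd, if_true, if_false, mul_zero, add_zero, sub_self,
      zpow_zero, one_mul, sub_zero] at this ⊢ <;> linear_combination this
  have hgD : g ∣[(1 : ℤ)] qm p 0 0 1 = Tf - qCoeff ⇑f p • (f : ℍ → ℂ) := by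
    rw [eT, eU, hg, sub_eq_add_neg, SlashAction.add_slash, SlashAction.neg_slash,
      smul_slash_qm 1 (by simp; exact_mod_cast hp.pos)]
    abel
  have h0 : g = 0 := eq_zero_of_dilate_invariant hp hpN hgc hginv fun γ hγ => by
    rw [hgD, sub_eq_add_neg, SlashAction.add_slash, SlashAction.neg_slash,
      ModularForm.SL_smul_slash, slash_form1 f hγ, hTinv γ hγ]
  exact sub_eq_zero.1 h0

/-- **`f` is an eigenvector of the diamond operators with character `ε`.** -/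
theorem slash_eq (h : WeightOneEigen N ε f) (δ : Gamma0 N) :
    (f : ℍ → ℂ) ∣[(1 : ℤ)] (δ : SL(2, ℤ)) = ε (unitD N δ : ZMod N) • (f : ℍ → ℂ) := by
  obtain ⟨p, hp, hpN, hpa⟩ : ∃ p : ℕ, p.Prime ∧ ¬ p ∣ N ∧ (p : ZMod N) = (unitD N δ : ZMod N) := by
    obtain ⟨p, hpgt, hp, hpa⟩ := Nat.forall_exists_prime_gt_and_eq_mod (unitD N δ).isUnit N
    exact ⟨p, hp, fun hd => absurd (Nat.le_of_dvd (NeZero.pos N) hd) (not_le.2 hpgt), hpa⟩
  obtain ⟨g, hg⟩ := eq_mul_of_unitD_eq (H := ⊥) δ (deltaOf N (primeUnit hp hpN))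
    (Units.ext (by rw [unitD_deltaOf, coe_primeUnit, hpa]))
  rw [hg, SlashAction.slash_mul, slash_form1 f (GammaH_bot (N := N) ▸ g.2),
    slash_deltaOf_prime h hp hpN, hpa]

omit [NeZero N] in
theorem ne_zero (h : WeightOneEigen N ε f) : (f : ℍ → ℂ) ≠ 0 := fun h0 => by
  have h1 := h.one
  rw [qCoeff_eq_of_hasQ1 (c := fun _ => 0) (fun τ => by simp [h0]) 1] at h1
  exact zero_ne_one h1

theorem slash_neg_one (φ : ℍ → ℂ) : φ ∣[(1 : ℤ)] (-1 : SL(2, ℤ)) = -φ := by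
  funext τ
  rw [ModularForm.SL_slash_apply, ModularGroup.SL_neg_smul, one_smul]
  have : UpperHalfPlane.denom ((-1 : SL(2, ℤ)) : GL (Fin 2) ℝ) τ = -1 := by
    rw [ModularGroup.denom_apply]
    simp
  rw [this, Pi.neg_apply]
  norm_num

/-- `ε` is odd. -/
theorem eps_neg_one (h : WeightOneEigen N ε f) : ε (-1) = -1 := by
  have h0 : (-1 : SL(2, ℤ)) ∈ Gamma0 N := by simp [Gamma0_mem]
  have e := h.slash_eq ⟨-1, h0⟩
  have hd : (unitD N ⟨-1, h0⟩ : ZMod N) = -1 := by simp [coe_unitD]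
  rw [hd] at e
  change (f : ℍ → ℂ) ∣[(1 : ℤ)] (-1 : SL(2, ℤ)) = _ at e
  rw [slash_neg_one] at e
  obtain ⟨τ, hτ⟩ := Function.ne_iff.1 h.ne_zero
  have := congrFun e τ
  simp only [Pi.neg_apply, Pi.smul_apply, smul_eq_mul] at this
  exact mul_right_cancel₀ hτ (by rw [← this, neg_one_mul])

end WeightOneEigen

end Fermat.Agent.DeligneSerre
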