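import Fermat.Agent.DeligneSerre.Action

/-!
# Algebraic families without common zero

For a character `χ` there are finitely many functions with character `χ`, without common zero,
whose expansions at every cusp have finite orbit under all automorphisms of `ℂ`.
-/

set_option autoImplicit false

noncomputable section

open Filter Topology Function
open UpperHalfPlane hiding I
open scoped MatrixGroups Manifold ModularForm

namespace Fermat.Agent.DeligneSerre

open Fermat.Agent.Igusa (HasExp QS mem_QS)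
open Fermat.Agent.LevelM (sgnGamma sgnGamma1 ConjRel RootTwist qP_ne_zero)

local notation "qP" => Function.Periodic.qParam
local notation "Δf" => ModularForm.discriminant

variable {M n : ℕ} [NeZero M]

omit [NeZero M] in
theorem IsCharFun.periodic_at {χ : Chr M n} {f : ℍ → ℂ} (hf : IsCharFun χ.toHom f) (δ : SL(2, ℤ))
    (τ : ℍ) : f (δ • ((M : ℝ) +ᵥ τ)) = f (δ • τ) := by
  have hm : δ * ModularGroup.T ^ (M : ℤ) * δ⁻¹ ∈ sgnGamma1 M :=
    sgnGamma_le_sgnGamma1 M (LevelM.conj_T_pow_mem δ)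
  have h1 := χ.ellPar ⟨_, hm⟩ (by
    rw [show ((⟨_, hm⟩ : sgnGamma1 M) : SL(2, ℤ)) = δ * ModularGroup.T ^ (M : ℤ) * δ⁻¹ from rfl,
      Matrix.SpecialLinearGroup.coe_mul, Matrix.trace_mul_comm,
      ← Matrix.SpecialLinearGroup.coe_mul, ← mul_assoc, inv_mul_cancel, one_mul,
      ModularGroup.coe_T_zpow]
    simp [Matrix.trace_fin_two])
  have := hf.map_smul ⟨_, hm⟩ (δ • τ)
  rw [h1, Units.val_one, one_mul] at this
  rw [← this, show ((M : ℝ) +ᵥ τ) = (ModularGroup.T ^ (M : ℤ) : SL(2, ℤ)) • τ by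
    rw [modular_T_zpow_smul]; norm_cast, ← mul_smul, ← mul_smul]
  simp [mul_assoc]

theorem IsCharFun.exists_ser {χ : Chr M n} {f : ℍ → ℂ} (hf : IsCharFun χ.toHom f)
    (δ : SL(2, ℤ)) : ∃ S, HasExp M (fun τ => f (δ • τ)) S := by
  obtain ⟨m, hm⟩ := hf.bdd
  exact exists_hasExp (hf.mdiff_smul δ) (hf.periodic_at δ) (hm δ)

theorem coeff_eq_zero_of_bdd {h : ℕ} [NeZero h] {f : ℍ → ℂ} {S : LaurentSeries ℂ}
    (hS : HasExp h f S) {m : ℕ} (hb : IsBoundedAtImInfty (fun τ => Δf τ ^ m * f τ)) {i : ℤ}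
    (hi : i < -((m : ℤ) * h)) : S.coeff i = 0 := by
  by_contra hne
  have hS0 : S ≠ 0 := fun h0 => hne (by simp [h0])
  set o := S.order
  have ho : o < -((m : ℤ) * h) := (HahnSeries.order_le_of_coeff_ne_zero hne).trans_lt hi
  have hc : S.coeff o ≠ 0 := mt HahnSeries.coeff_order_eq_zero.mp hS0
  have h1 := LevelM.tendsto_shift hS (m := o) fun k hk => HahnSeries.coeff_eq_zero_of_lt_order hk
  have hΔ := LevelM.hasExp_expand (h := h) Igusa.hasExp_delta h (one_mul h)
  set D := ModularCurve.qExpand ℂ h (Igusa.deltaR ℂ) with hD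
  have hd1 : ∀ j : ℤ, j < 1 → (Igusa.deltaR ℂ).coeff j = 0 := fun j hj => by
    rw [Igusa.deltaR, HahnSeries.coeff_single_mul, one_mul]
    exact ModularCurve.ofPowerSeries_coeff_of_neg _ (by omega)
  have hlow : ∀ k < (h : ℤ), D.coeff k = 0 := fun k hk => by
    by_cases hd : (h : ℤ) ∣ k
    · obtain ⟨j, rfl⟩ := hd
      rw [hD, ModularCurve.qExpand_coeff_mul]
      refine hd1 j ?_
      by_contra hj
      push Not at hj
      nlinarith [(show (0 : ℤ) < h by exact_mod_cast NeZero.pos h)]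
    · exact ModularCurve.qExpand_coeff_of_not_dvd _ _ hd
  have h2 := LevelM.tendsto_shift hΔ hlow
  rw [show D.coeff (h : ℤ) = 1 by
    have := ModularCurve.qExpand_coeff_mul (N := h) (Igusa.deltaR ℂ) 1
    rw [mul_one] at this
    rw [hD, this, Igusa.deltaR, HahnSeries.coeff_single_mul, one_mul, sub_self,
      show (0 : ℤ) = ((0 : ℕ) : ℤ) from rfl, HahnSeries.ofPowerSeries_apply_coeff,
      PowerSeries.coeff_map, PowerSeries.coeff_zero_eq_constantCoeff,
      ModularCurve.constantCoeff_dedekindEtaUnit]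
    simp] at h2
  have h3 : Tendsto (fun τ : ℍ => qP (h : ℝ) τ ^ (-(m : ℤ) * h - o)) atImInfty (𝓝 0) := by
    have hh : (0 : ℝ) < h := by exact_mod_cast NeZero.pos h
    obtain ⟨k, hk⟩ := Int.eq_ofNat_of_zero_le (a := -(m : ℤ) * h - o) (by linarith)
    have hk1 : (0 : ℤ) < (k : ℤ) := by linarith
    rw [hk]
    simp only [zpow_natCast]
    have hk0 : k ≠ 0 := by omega
    have := (UpperHalfPlane.qParam_tendsto_atImInfty hh).pow k
    rwa [zero_pow hk0] at this
  have h4 : Tendsto (fun τ : ℍ => (Δf τ ^ m * f τ) * qP (h : ℝ) τ ^ (-(m : ℤ) * h - o))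
      atImInfty (𝓝 0) := by
    obtain ⟨A, B, hAB⟩ := isBoundedAtImInfty_iff.1 hb
    refine squeeze_zero_norm' (a := fun τ : ℍ =>
      A * ‖qP (h : ℝ) (τ : ℂ) ^ (-(m : ℤ) * h - o)‖) ?_ ?_
    · rw [atImInfty, eventually_comap]
      filter_upwards [eventually_ge_atTop B] with y hy τ hτ
      rw [norm_mul]
      exact mul_le_mul_of_nonneg_right (hAB τ (hτ ▸ hy)) (norm_nonneg _)
    · simpa using h3.norm.const_mul A
  have h5 := (h2.pow m).mul h1
  rw [one_pow, one_mul] at h5
  refine hc (tendsto_nhds_unique (h5.congr fun τ => ?_) h4)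
  rw [mul_pow, ← zpow_natCast (qP (h : ℝ) (τ : ℂ) ^ (-(h : ℤ))), ← zpow_mul,
    mul_mul_mul_comm, ← zpow_add₀ (qP_ne_zero τ)]
  congr 2
  ring

/-- Functions with character `χ` and poles of order at most `-k` at all cusps. -/
structure InW (χ : Chr M n) (k : ℤ) (f : ℍ → ℂ) : Prop where
  charFun : IsCharFun χ.toHom f
  ord : ∀ (δ : SL(2, ℤ)) (S : LaurentSeries ℂ), HasExp M (fun τ => f (δ • τ)) S →
    ∀ i < k, S.coeff i = 0

theorem IsCharFun.exists_inW {χ : Chr M n} {f : ℍ → ℂ} (hf : IsCharFun χ.toHom f) :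
    ∃ k, InW χ k f := by
  obtain ⟨m, hm⟩ := hf.bdd
  exact ⟨-((m : ℤ) * M), hf, fun δ S hS i hi => coeff_eq_zero_of_bdd hS (hm δ) hi⟩

omit [NeZero M] in
theorem InW.mono {χ : Chr M n} {k k' : ℤ} {f : ℍ → ℂ} (hf : InW χ k f) (h : k' ≤ k) :
    InW χ k' f :=
  ⟨hf.charFun, fun δ S hS i hi => hf.ord δ S hS i (hi.trans_le h)⟩

theorem InW.sub_smul {χ : Chr M n} {k : ℤ} {f g : ℍ → ℂ} (hf : InW χ k f) (hg : InW χ k g)
    (a : ℂ) : InW χ k (f + a • g) := by
  refine ⟨hf.charFun.add (hg.charFun.smul a), fun δ S hS i hi => ?_⟩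
  obtain ⟨Sf, hSf⟩ := hf.charFun.exists_ser δ
  obtain ⟨Sg, hSg⟩ := hg.charFun.exists_ser δ
  rw [hS.unique (hSf.add ((Igusa.hasExp_const M a).mul hSg)), HahnSeries.coeff_add,
    HahnSeries.coeff_single_mul, sub_zero, hf.ord δ Sf hSf i hi, hg.ord δ Sg hSg i hi]
  simp

variable [Fact (5 ≤ M)] [Fact n.Prime]

theorem exists_eq_C_mul_of_pow_eq {T U : LaurentSeries ℂ} (h : T ^ n = U ^ n) :
    ∃ a : ℂ, a ^ n = 1 ∧ T = HahnSeries.C a * U := by
  rcases eq_or_ne U 0 with rfl | hU
  · refine ⟨1, one_pow n, ?_⟩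
    rw [zero_pow n_pos.ne'] at h
    rw [eq_zero_of_pow_eq_zero h, mul_zero]
  · have hz := Complex.isPrimitiveRoot_exp n (n_pos (n := n)).ne'
    have hzC : IsPrimitiveRoot (HahnSeries.C (Complex.exp (2 * Real.pi * Complex.I / n)) :
        LaurentSeries ℂ) n :=
      hz.map_of_injective (f := (HahnSeries.C : ℂ →+* LaurentSeries ℂ)) HahnSeries.C_injective
    have : NeZero n := ⟨n_pos.ne'⟩
    obtain ⟨i, -, hi⟩ := hzC.eq_pow_of_pow_eq_one (ξ := T / U) (by
      rw [div_pow, h, div_self (pow_ne_zero n hU)])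
    refine ⟨Complex.exp (2 * Real.pi * Complex.I / n) ^ i, ?_, ?_⟩
    · rw [← pow_mul, mul_comm i n, pow_mul, hz.pow_eq_one, one_pow]
    · rw [map_pow, hi, div_mul_cancel₀ _ hU]

theorem root_ne_zero {a : ℂ} (ha : a ^ n = 1) : a ≠ 0 := fun h0 => by
  rw [h0, zero_pow n_pos.ne'] at ha
  exact zero_ne_one ha

omit [Fact (5 ≤ M)] in
/-- The expansions of a twisted root are the twisted expansions up to roots of unity. -/
theorem twist_series {χ χ' : Chr M n} {σ : ℂ →+* ℂ} {c : ℤ} {f H : ℍ → ℂ}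
    (_hf : IsCharFun χ.toHom f) (hH : IsCharFun χ'.toHom H)
    (ht : FunTwist M σ c (f ^ n) (H ^ n)) {δ δ' : SL(2, ℤ)} (hδ : ConjRel M c δ δ')
    {S : LaurentSeries ℂ} (hS : HasExp M (fun τ => f (δ • τ)) S) :
    ∃ a : ℂ, a ^ n = 1 ∧
      HasExp M (fun τ => H (δ' • τ)) (HahnSeries.C a * ModularCurve.coeffMap σ S) := by
  obtain ⟨T, hT⟩ := hH.exists_ser δ'
  obtain ⟨s, hs, hs'⟩ := ht δ δ' hδ
  have e1 := mem_QS.1 (pow_mem (show ((fun τ => f (δ • τ)), S) ∈ QS M from hS) n)
  have e2 := mem_QS.1 (pow_mem (show ((fun τ => H (δ' • τ)), T) ∈ QS M from hT) n)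
  simp only [Prod.pow_mk, Pi.pow_def] at e1 e2
  rw [hs.unique e1] at hs'
  have h3 := e2.unique hs'
  rw [map_pow] at h3
  obtain ⟨a, ha, rfl⟩ := exists_eq_C_mul_of_pow_eq h3
  exact ⟨a, ha, hT⟩

theorem InW.twist {χ : Chr M n} {k : ℤ} {σ : ℂ →+* ℂ} {f H : ℍ → ℂ} (hf : InW χ k f)
    (hH : IsCharFun (tw σ χ).toHom H) (ht : FunTwist M σ (rootExp M σ) (f ^ n) (H ^ n)) :
    InW (tw σ χ) k H := by
  refine ⟨hH, fun δ' T hT i hi => ?_⟩
  obtain ⟨δ, hδ⟩ := exists_conjRel_left (isCoprime_rootExp (M := M) σ) δ'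
  obtain ⟨S, hS⟩ := hf.charFun.exists_ser δ
  obtain ⟨a, -, h⟩ := twist_series hf.charFun hH ht hδ hS
  rw [hT.unique h, HahnSeries.C_apply, HahnSeries.coeff_single_mul, sub_zero,
    ModularCurve.coeffMap_coeff, hf.ord δ S hS i hi, map_zero, mul_zero]

omit [NeZero M] [Fact (5 ≤ M)] [Fact (Nat.Prime n)] in
theorem IsCharFun.ser_smul {χ : Chr M n} {f : ℍ → ℂ} (hf : IsCharFun χ.toHom f)
    (g : sgnGamma1 M) {δ : SL(2, ℤ)} {S : LaurentSeries ℂ}
    (hS : HasExp M (fun τ => f (δ • τ)) S) :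
    HasExp M (fun τ => f (((g : SL(2, ℤ)) * δ) • τ))
      (HahnSeries.C ((χ.toHom g : ℂˣ) : ℂ) * S) := by
  rw [HahnSeries.C_apply]
  convert (Igusa.hasExp_const M ((χ.toHom g : ℂˣ) : ℂ)).mul hS using 1
  funext τ
  rw [mul_smul, hf.map_smul]
  rfl

omit [Fact (5 ≤ M)] in
/-- The order at infinity is bounded. -/
theorem exists_order_le (χ : Chr M n) (k : ℤ) : ∃ B : ℤ, ∀ f, InW χ k f → f ≠ 0 →
    ∀ S, HasExp M f S → S.order ≤ B := by
  classical
  have : Fintype (SL(2, ℤ) ⧸ sgnGamma1 M) := Subgroup.fintypeQuotientOfFiniteIndex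
  set r := Fintype.card (SL(2, ℤ) ⧸ sgnGamma1 M) with hr
  refine ⟨-((r : ℤ) - 1) * k, fun f hf hf0 S hS => ?_⟩
  by_contra hB
  push Not at hB
  have hS0 : S ≠ 0 := fun h0 => hf0 (funext fun τ => by
    have := hS.2 τ
    simp only [h0, HahnSeries.coeff_zero, zero_mul] at this
    exact this.unique hasSum_zero)
  choose Sq hSq using fun q : SL(2, ℤ) ⧸ sgnGamma1 M => hf.charFun.exists_ser q.out⁻¹
  have hG := (hf.charFun.pow n).congr χ.pow_eq
  have hN : HasExp M (fullNorm (sgnGamma1 M) (f ^ n)) (∏ q, Sq q ^ n) := by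
    have h1 : ∀ q, ((fun τ => f (q.out⁻¹ • τ)) ^ n, Sq q ^ n) ∈ QS M := fun q =>
      pow_mem (show ((fun τ => f (q.out⁻¹ • τ)), Sq q) ∈ QS M from hSq q) n
    have h2 := mem_QS.1 (Subring.prod_mem (QS M) (t := Finset.univ) fun q _ => h1 q)
    rw [Prod.fst_prod, Prod.snd_prod] at h2
    exact h2
  have hne : ∀ q, Sq q ≠ 0 := fun q h0 => hf0 (funext fun τ => by
    have := (hSq q).2 (q.out • τ)
    simp only [h0, HahnSeries.coeff_zero, zero_mul, inv_smul_smul] at this
    exact this.unique hasSum_zero)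
  have hlow : ∀ q, k ≤ (Sq q).order := fun q => by
    by_contra hlt
    push Not at hlt
    exact hne q (HahnSeries.coeff_order_eq_zero.mp (hf.ord _ _ (hSq q) _ hlt))
  have hone : (Sq (Connected.one (sgnGamma1 M))).order = S.order := by
    obtain ⟨g, hg⟩ := QuotientGroup.mk_out_eq_mul (sgnGamma1 M) (1 : SL(2, ℤ))
    have h1 := hf.charFun.ser_smul g⁻¹ (δ := 1) (S := S) (by simpa using hS)
    rw [Subgroup.coe_inv, mul_one] at h1
    have h2 := hSq (Connected.one (sgnGamma1 M))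
    rw [show (Connected.one (sgnGamma1 M)).out = (1 : SL(2, ℤ)) * g from hg, one_mul] at h2
    rw [h2.unique h1, HahnSeries.order_mul (HahnSeries.C_ne_zero (Units.ne_zero _)) hS0,
      HahnSeries.order_C, zero_add]
  have hord : 0 < (∏ q, Sq q ^ n).order := by
    have h1 : (∏ q, Sq q ^ n).order = ∑ q, (n : ℤ) * (Sq q).order := by
      have : ∀ s : Finset (SL(2, ℤ) ⧸ sgnGamma1 M),
          (∏ q ∈ s, Sq q ^ n).order = ∑ q ∈ s, (n : ℤ) * (Sq q).order := by
        intro s
        induction s using Finset.induction_on with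
        | empty => simp
        | insert a s ha ih =>
          rw [Finset.prod_insert ha, Finset.sum_insert ha,
            HahnSeries.order_mul (pow_ne_zero n (hne a))
              (Finset.prod_ne_zero_iff.2 fun q _ => pow_ne_zero n (hne q)),
            HahnSeries.order_pow, ih, nsmul_eq_mul]
      exact this _
    rw [h1, ← Finset.add_sum_erase _ _ (Finset.mem_univ (Connected.one (sgnGamma1 M))), hone]
    have h2 : ((Finset.univ.erase (Connected.one (sgnGamma1 M))).card : ℤ) * ((n : ℤ) * k) ≤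
        ∑ q ∈ Finset.univ.erase (Connected.one (sgnGamma1 M)), (n : ℤ) * (Sq q).order := by
      rw [← nsmul_eq_mul]
      exact Finset.card_nsmul_le_sum _ _ _ fun q _ =>
        mul_le_mul_of_nonneg_left (hlow q) (by positivity)
    rw [Finset.card_erase_of_mem (Finset.mem_univ _), Finset.card_univ,
      Nat.cast_sub Fintype.card_pos] at h2
    have hn : (0 : ℤ) < n := by exact_mod_cast n_pos
    push_cast at h2
    nlinarith
  -- the norm is a constant vanishing at infinity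
  set N := fullNorm (sgnGamma1 M) (f ^ n) with hNdef
  have hlim : Tendsto N atImInfty (𝓝 0) := by
    have := LevelM.tendsto_shift hN (m := 0) fun i hi =>
      HahnSeries.coeff_eq_zero_of_lt_order (hi.trans hord)
    simpa [HahnSeries.coeff_eq_zero_of_lt_order hord] using this
  have hlev : MFCore.IsLevelOne 0 N := ⟨hN.1, fun γ => funext fun τ => by
      rw [ModularForm.SL_slash_apply, neg_zero, zpow_zero, mul_one, hNdef, fullNorm_smul hG],
    hlim.isBigO_one ℝ⟩
  obtain ⟨a, ha⟩ := ModularFormClass.levelOne_weight_zero_const hlev.toModularForm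
  have ha' : ∀ τ, N τ = a := fun τ => congrFun ha τ
  have ha0 : a = 0 := tendsto_nhds_unique (tendsto_const_nhds.congr fun τ => (ha' τ).symm) hlim
  have hprod : (∏ q, Sq q ^ n) = 0 := by
    refine HasExp.eq_zero (h := M) ?_
    rwa [show N = 0 from funext fun τ => by rw [ha' τ, ha0]; rfl] at hN
  exact Finset.prod_ne_zero_iff.2 (fun q _ => pow_ne_zero n (hne q)) hprod

/-- The possible orders at infinity. -/
def achieved (χ : Chr M n) (k : ℤ) : Set ℤ :=
  {o | ∃ f S, InW χ k f ∧ f ≠ 0 ∧ HasExp M f S ∧ S.order = o}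

omit [Fact (5 ≤ M)] in
theorem finite_achieved (χ : Chr M n) (k : ℤ) : (achieved χ k).Finite := by
  obtain ⟨B, hB⟩ := exists_order_le χ k
  refine (Set.finite_Icc k B).subset ?_
  rintro o ⟨f, S, hf, hf0, hS, rfl⟩
  refine ⟨?_, hB f hf hf0 S hS⟩
  by_contra hlt
  push Not at hlt
  have hS0 : S = 0 := HahnSeries.coeff_order_eq_zero.mp
    (hf.ord 1 S (by simpa using hS) _ hlt)
  exact hf0 (funext fun τ => by
    have := hS.2 τ
    simp only [hS0, HahnSeries.coeff_zero, zero_mul] at this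
    exact this.unique hasSum_zero)

theorem achieved_twist (σ : ℂ →+* ℂ) (χ : Chr M n) (k : ℤ) :
    achieved χ k ⊆ achieved (tw σ χ) k := by
  rintro o ⟨f, S, hf, hf0, hS, rfl⟩
  obtain ⟨H, hH, ht⟩ := tw_spec σ hf.charFun
  obtain ⟨a, ha, h⟩ := twist_series hf.charFun hH ht (ConjRel.one M _) (S := S) (by simpa using hS)
  simp only [one_smul] at h
  refine ⟨H, _, hf.twist hH ht, twist_ne_zero hf0 ht, h, ?_⟩
  have hS0 : S ≠ 0 := fun h0 => hf0 (funext fun τ => by
    have := hS.2 τ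
    simp only [h0, HahnSeries.coeff_zero, zero_mul] at this
    exact this.unique hasSum_zero)
  have hσS : (ModularCurve.coeffMap σ S).coeff S.order ≠ 0 := by
    rw [ModularCurve.coeffMap_coeff, map_ne_zero]
    exact mt HahnSeries.coeff_order_eq_zero.mp hS0
  refine le_antisymm (HahnSeries.order_le_of_coeff_ne_zero ?_) ?_
  · rw [HahnSeries.C_apply, HahnSeries.coeff_single_mul, sub_zero]
    exact mul_ne_zero (root_ne_zero ha) hσS
  · by_contra hlt
    push Not at hlt
    have hne : HahnSeries.C a * ModularCurve.coeffMap σ S ≠ 0 := fun h0 => hσS (by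
      rw [(mul_eq_zero.1 h0).resolve_left (HahnSeries.C_ne_zero (root_ne_zero ha))]; simp)
    refine mt HahnSeries.coeff_order_eq_zero.mp hne ?_
    rw [HahnSeries.C_apply] at hlt ⊢
    rw [HahnSeries.coeff_single_mul, sub_zero, ModularCurve.coeffMap_coeff,
      HahnSeries.coeff_eq_zero_of_lt_order hlt, map_zero, mul_zero]

theorem achieved_tw_eq (σ : ℂ ≃+* ℂ) (χ : Chr M n) (k : ℤ) :
    achieved (tw (σ : ℂ →+* ℂ) χ) k = achieved χ k := by
  refine Set.Subset.antisymm ?_ (achieved_twist _ χ k)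
  conv_rhs => rw [← tw_symm_apply σ χ]
  exact achieved_twist _ _ k

/-- Normalised with respect to the possible orders. -/
def IsRed (χ : Chr M n) (k o : ℤ) (f : ℍ → ℂ) : Prop :=
  InW χ k f ∧ ∃ S, HasExp M f S ∧ S.coeff o = 1 ∧ (∀ i < o, S.coeff i = 0) ∧
    ∀ o' ∈ achieved χ k, o < o' → S.coeff o' = 0

omit [Fact (5 ≤ M)] [Fact (Nat.Prime n)] in
theorem IsRed.unique {χ : Chr M n} {k o : ℤ} {f g : ℍ → ℂ} (hf : IsRed χ k o f)
    (hg : IsRed χ k o g) : f = g := by
  obtain ⟨hf, S, hS, hSo, hSl, hSa⟩ := hf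
  obtain ⟨hg, T, hT, hTo, hTl, hTa⟩ := hg
  by_contra hne
  have hd := hf.sub_smul hg (-1)
  have hd0 : f + (-1 : ℂ) • g ≠ 0 := fun h0 => hne (funext fun τ => by
    have := congrFun h0 τ
    simp only [Pi.add_apply, Pi.smul_apply, Pi.zero_apply, smul_eq_mul] at this
    linear_combination this)
  have hE : HasExp M (f + (-1 : ℂ) • g) (S + HahnSeries.C (-1) * T) :=
    hS.add ((Igusa.hasExp_const M (-1)).mul hT)
  set D := S + HahnSeries.C (-1 : ℂ) * T
  have hDc : ∀ i, D.coeff i = S.coeff i - T.coeff i := fun i => by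
    simp [D, HahnSeries.C_apply, sub_eq_add_neg]
  have hD0 : D ≠ 0 := fun h0 => hd0 (funext fun τ => by
    have := hE.2 τ
    simp only [h0, HahnSeries.coeff_zero, zero_mul] at this
    exact this.unique hasSum_zero)
  refine mt HahnSeries.coeff_order_eq_zero.mp hD0 ?_
  rcases lt_trichotomy D.order o with h | h | h
  · rw [hDc, hSl _ h, hTl _ h, sub_zero]
  · rw [h, hDc, hSo, hTo, sub_self]
  · have hmem : D.order ∈ achieved χ k := ⟨_, D, hd, hd0, hE, rfl⟩
    rw [hDc, hSa _ hmem h, hTa _ hmem h, sub_zero]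

omit [Fact (5 ≤ M)] in
theorem exists_isRed {χ : Chr M n} {k o : ℤ} (ho : o ∈ achieved χ k) : ∃ f, IsRed χ k o f := by
  obtain ⟨f, S, hf, hf0, hS, rfl⟩ := ho
  have hS0 : S ≠ 0 := fun h0 => hf0 (funext fun τ => by
    have := hS.2 τ
    simp only [h0, HahnSeries.coeff_zero, zero_mul] at this
    exact this.unique hasSum_zero)
  set o := S.order with ho
  have key : ∀ j : ℕ, ∃ g T, InW χ k g ∧ HasExp M g T ∧ T.coeff o = 1 ∧
      (∀ i < o, T.coeff i = 0) ∧ ∀ o' ∈ achieved χ k, o < o' → o' ≤ o + j → T.coeff o' = 0 := by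
    intro j
    induction j with
    | zero =>
      set a := (S.coeff o)⁻¹
      refine ⟨0 + a • f, _, InW.sub_smul ?_ hf a,
        (mem_QS.1 (zero_mem (QS M))).add ((Igusa.hasExp_const M a).mul hS), ?_, fun i hi => ?_,
        fun o' _ h1 h2 => absurd h1 (by simpa using h2)⟩
      · refine ⟨IsCharFun.zero, fun δ T hT i _ => ?_⟩
        rw [HasExp.eq_zero (show HasExp M 0 T from hT), HahnSeries.coeff_zero]
      · simp [a]
        exact inv_mul_cancel₀ (mt HahnSeries.coeff_order_eq_zero.mp hS0)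
      · simp [HahnSeries.coeff_eq_zero_of_lt_order hi]
    | succ j ih =>
      obtain ⟨g, T, hg, hT, h1, h2, h3⟩ := ih
      by_cases hm : o + (j + 1 : ℕ) ∈ achieved χ k
      · obtain ⟨u, U, hu, hu0, hU, hUo⟩ := hm
        have hU0 : U ≠ 0 := fun h0 => hu0 (funext fun τ => by
          have := hU.2 τ
          simp only [h0, HahnSeries.coeff_zero, zero_mul] at this
          exact this.unique hasSum_zero)
        set a := -(T.coeff U.order / U.coeff U.order)
        refine ⟨g + a • u, T + HahnSeries.C a * U, hg.sub_smul hu a,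
          hT.add ((Igusa.hasExp_const M a).mul hU), ?_, fun i hi => ?_, fun o' ho' h4 h5 => ?_⟩
        · simp [h1, HahnSeries.coeff_eq_zero_of_lt_order
            (show o < U.order by rw [hUo]; omega)]
        · simp [h2 i hi, HahnSeries.coeff_eq_zero_of_lt_order
            (show i < U.order by rw [hUo]; omega)]
        · rcases eq_or_lt_of_le h5 with h6 | h6
          · rw [h6, ← hUo]
            have := mt HahnSeries.coeff_order_eq_zero.mp hU0
            simp [a]
            field_simp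
            ring
          · simp [h3 o' ho' h4 (by omega), HahnSeries.coeff_eq_zero_of_lt_order
              (show o' < U.order by rw [hUo]; exact h6)]
      · refine ⟨g, T, hg, hT, h1, h2, fun o' ho' h4 h5 => ?_⟩
        rcases eq_or_lt_of_le h5 with h6 | h6
        · exact absurd (h6 ▸ ho') hm
        · exact h3 o' ho' h4 (by omega)
  obtain ⟨B, hB⟩ := (finite_achieved χ k).bddAbove
  obtain ⟨g, T, hg, hT, h1, h2, h3⟩ := key (B - o).toNat
  exact ⟨g, hg, T, hT, h1, h2, fun o' ho' h4 => h3 o' ho' h4 (by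
    have := hB ho'; omega)⟩

/-- Orbit of a series under the automorphisms of `ℂ`. -/
def orbitC (S : LaurentSeries ℂ) : Set (LaurentSeries ℂ) :=
  Set.range fun σ : ℂ ≃+* ℂ => ModularCurve.coeffMap (σ : ℂ →+* ℂ) S

theorem IsRed.finite_orbit {χ : Chr M n} {k o : ℤ} {f : ℍ → ℂ} (hf : IsRed χ k o f)
    {δ : SL(2, ℤ)} {S : LaurentSeries ℂ} (hS : HasExp M (fun τ => f (δ • τ)) S) :
    (orbitC S).Finite := by
  classical
  have : Fintype (SL(2, ℤ) ⧸ sgnGamma1 M) := Subgroup.fintypeQuotientOfFiniteIndex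
  have : NeZero n := ⟨n_pos.ne'⟩
  have hroots : {a : ℂ | a ^ n = 1}.Finite := by
    refine (Polynomial.nthRootsFinset n (1 : ℂ)).finite_toSet.subset fun a ha => ?_
    simpa [Polynomial.mem_nthRootsFinset n_pos] using ha
  let tgt : Chr M n × (SL(2, ℤ) ⧸ sgnGamma1 M) → Set (LaurentSeries ℂ) := fun p =>
    {U | ∃ (g : ℍ → ℂ) (a : ℂ), IsRed p.1 k o g ∧ a ^ n = 1 ∧
      ∃ V, HasExp M (fun τ => g (p.2.out⁻¹ • τ)) V ∧ U = HahnSeries.C a * V}
  have hfin : ∀ p, (tgt p).Finite := by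
    intro p
    by_cases hg : ∃ g, IsRed p.1 k o g
    · obtain ⟨g, hg⟩ := hg
      obtain ⟨V, hV⟩ := hg.1.charFun.exists_ser p.2.out⁻¹
      refine (hroots.image fun a => HahnSeries.C a * V).subset ?_
      rintro U ⟨g', a, hg', ha, V', hV', rfl⟩
      rw [hg'.unique hg] at hV'
      exact ⟨a, ha, by rw [hV'.unique hV]⟩
    · refine Set.Finite.subset Set.finite_empty ?_
      rintro U ⟨g', a, hg', -⟩
      exact hg ⟨g', hg'⟩
  have : Finite (Chr M n) := finite_chr
  refine (Set.finite_iUnion hfin).subset ?_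
  rintro _ ⟨σ, rfl⟩
  obtain ⟨hf, S₁, hS₁, hone, hlow, hach⟩ := hf
  obtain ⟨H, hH, ht⟩ := tw_spec (σ : ℂ →+* ℂ) hf.charFun
  obtain ⟨a, ha, hT⟩ := twist_series hf.charFun hH ht (ConjRel.one M _) (S := S₁)
    (by simpa using hS₁)
  simp only [one_smul] at hT
  have ha0 := root_ne_zero ha
  set H' : ℍ → ℂ := a⁻¹ • H
  have hH' : IsCharFun (tw (σ : ℂ →+* ℂ) χ).toHom H' := hH.smul _
  have ht' : FunTwist M (σ : ℂ →+* ℂ) (rootExp M σ) (f ^ n) (H' ^ n) := by
    rw [show H' ^ n = H ^ n by rw [smul_pow, inv_pow, ha, inv_one, one_smul]]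
    exact ht
  have hT' : HasExp M H' (ModularCurve.coeffMap (σ : ℂ →+* ℂ) S₁) := by
    convert (Igusa.hasExp_const M a⁻¹).mul hT using 1
    · rfl
    · rw [← HahnSeries.C_apply, ← mul_assoc, ← map_mul, inv_mul_cancel₀ ha0, map_one, one_mul]
  have hred : IsRed (tw (σ : ℂ →+* ℂ) χ) k o H' := by
    refine ⟨hf.twist hH' ht', _, hT', ?_, fun i hi => ?_, fun o' ho' h1 => ?_⟩
    · rw [ModularCurve.coeffMap_coeff, hone, map_one]
    · rw [ModularCurve.coeffMap_coeff, hlow i hi, map_zero]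
    · rw [achieved_tw_eq] at ho'
      rw [ModularCurve.coeffMap_coeff, hach o' ho' h1, map_zero]
  obtain ⟨δ', hδ'⟩ := LevelM.exists_conjRel (isCoprime_rootExp (M := M) (σ : ℂ →+* ℂ)) δ
  obtain ⟨b, hb, hU⟩ := twist_series hf.charFun hH' ht' hδ' hS
  set q : SL(2, ℤ) ⧸ sgnGamma1 M := QuotientGroup.mk δ'⁻¹ with hq
  have hgmem : δ' * q.out ∈ sgnGamma1 M := by
    have := QuotientGroup.eq.1 (QuotientGroup.out_eq' q).symm
    rwa [inv_inv] at this
  obtain ⟨V, hV⟩ := hH'.exists_ser q.out⁻¹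
  have e := hH'.ser_smul ⟨_, hgmem⟩ hV
  simp only [mul_inv_cancel_right] at e
  refine Set.mem_iUnion.2 ⟨(tw (σ : ℂ →+* ℂ) χ, q), H',
    b⁻¹ * (((tw (σ : ℂ →+* ℂ) χ).toHom ⟨_, hgmem⟩ : ℂˣ) : ℂ), hred, ?_, V, hV, ?_⟩
  · rw [mul_pow, inv_pow, hb, inv_one, one_mul, Chr.apply_pow]
  · rw [map_mul, mul_assoc, ← e.unique hU |>.symm, ← mul_assoc, ← map_mul,
      inv_mul_cancel₀ (root_ne_zero hb), map_one, one_mul]

omit [Fact (5 ≤ M)] [Fact (Nat.Prime n)] in
/-- A common bound for the poles of finitely many functions. -/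
theorem exists_inW_family {χ : Chr M n} {r : ℕ} {F : Fin r → ℍ → ℂ}
    (hF : ∀ i, IsCharFun χ.toHom (F i)) : ∃ k, ∀ i, InW χ k (F i) := by
  choose kk hkk using fun i => (hF i).exists_inW
  refine ⟨-(∑ i, |kk i|), fun i => (hkk i).mono ?_⟩
  have h1 : |kk i| ≤ ∑ j, |kk j| :=
    Finset.single_le_sum (f := fun j => |kk j|) (fun j _ => abs_nonneg _) (Finset.mem_univ i)
  have := neg_abs_le (kk i)
  linarith

/-- The functions with bounded poles are spanned by functions with algebraic expansions. -/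
theorem exists_algSpan (χ : Chr M n) (k : ℤ) : ∃ (r : ℕ) (f : Fin r → ℍ → ℂ),
    (∀ i, IsCharFun χ.toHom (f i)) ∧ (∀ i, f i ≠ 0) ∧
    (∀ i (δ : SL(2, ℤ)) S, HasExp M (fun τ => f i (δ • τ)) S → (orbitC S).Finite) ∧
    ∀ g, InW χ k g → g ∈ Submodule.span ℂ (Set.range f) := by
  classical
  have := (finite_achieved χ k).fintype
  choose f hf using fun o : achieved χ k => exists_isRed o.2
  set e := (Fintype.equivFin (achieved χ k)).symm
  refine ⟨_, fun i => f (e i), fun i => (hf _).1.charFun, fun i h0 => ?_,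
    fun i δ S hS => (hf _).finite_orbit hS, fun g hgW => ?_⟩
  · obtain ⟨-, S, hS, h1, -⟩ := hf (e i)
    change f (e i) = 0 at h0
    rw [h0] at hS
    rw [HasExp.eq_zero hS, HahnSeries.coeff_zero] at h1
    exact zero_ne_one h1
  · obtain ⟨B, hB⟩ := exists_order_le χ k
    set U := Submodule.span ℂ (Set.range fun i => f (e i))
    have key : ∀ (j : ℕ) (g : ℍ → ℂ) (T : LaurentSeries ℂ), InW χ k g → HasExp M g T →
        (∀ i ≤ B - j, T.coeff i = 0) → g ∈ U := by
      intro j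
      induction j with
      | zero =>
        intro g T hg hT h0
        by_cases hg0 : g = 0
        · rw [hg0]; exact U.zero_mem
        have hT0 : T = 0 := HahnSeries.coeff_order_eq_zero.mp
          (h0 _ (by simpa using hB g hg hg0 T hT))
        refine absurd (funext fun z => ?_) hg0
        have := hT.2 z
        simp only [hT0, HahnSeries.coeff_zero, zero_mul] at this
        exact this.unique hasSum_zero
      | succ j ih =>
        intro g T hg hT h0
        by_cases hm : T.coeff (B - j) = 0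
        · refine ih g T hg hT fun i hi => ?_
          rcases eq_or_lt_of_le hi with rfl | h
          · exact hm
          · exact h0 i (by push_cast; omega)
        · have hord : T.order = B - j := by
            refine le_antisymm (HahnSeries.order_le_of_coeff_ne_zero hm) ?_
            by_contra hlt
            push Not at hlt
            exact mt HahnSeries.coeff_order_eq_zero.mp
              (fun h' : T = 0 => hm (by simp [h'])) (h0 _ (by push_cast; omega))
          have hmem : B - (j : ℤ) ∈ achieved χ k := ⟨g, T, hg,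
            fun h' => hm (by rw [h'] at hT; rw [HasExp.eq_zero hT, HahnSeries.coeff_zero]),
            hT, hord⟩
          obtain ⟨hu, W, hW, hW1, hWl, -⟩ := hf ⟨_, hmem⟩
          have hfU : f ⟨_, hmem⟩ ∈ U :=
            Submodule.subset_span ⟨e.symm ⟨_, hmem⟩, by simp⟩
          have hrec := ih _ _ (hg.sub_smul hu (-T.coeff (B - j)))
            (hT.add ((Igusa.hasExp_const M _).mul hW)) fun i hi => by
              rcases eq_or_lt_of_le hi with rfl | h
              · rw [HahnSeries.coeff_add, HahnSeries.coeff_single_mul, sub_zero, hW1, mul_one,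
                  add_neg_cancel]
              · rw [HahnSeries.coeff_add, HahnSeries.coeff_single_mul, sub_zero,
                  h0 i (by push_cast; omega), hWl i h, mul_zero, add_zero]
          rwa [U.add_mem_iff_left (U.smul_mem _ hfU)] at hrec
    obtain ⟨T, hT⟩ := hgW.charFun.exists_ser 1
    refine key (B - k + 1).toNat g T hgW (by simpa using hT) fun l hl => hgW.ord 1 T hT l ?_
    omega

/-- **Algebraic families.** -/
theorem exists_algFam (χ : Chr M n) : ∃ (r : ℕ) (f : Fin r → ℍ → ℂ),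
    (∀ i, IsCharFun χ.toHom (f i)) ∧ (∀ i, f i ≠ 0) ∧ (∀ τ, ∃ i, f i τ ≠ 0) ∧
    ∀ i (δ : SL(2, ℤ)) S, HasExp M (fun τ => f i (δ • τ)) S → (orbitC S).Finite := by
  classical
  obtain ⟨r, F, F', hF, -, hsum⟩ := exists_unit_sum (χ := χ.toHom)
    (LevelM.neg_one_mem_sgnGamma1 M) (isFree_sgnGamma1 five_le_M) (χ.norm_apply n_pos) χ.ellPar
  obtain ⟨k, hk⟩ := exists_inW_family hF
  obtain ⟨r', f, hf, hf0, horb, hspan⟩ := exists_algSpan χ k
  refine ⟨r', f, hf, hf0, fun τ => ?_, horb⟩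
  by_contra hcon
  push Not at hcon
  have hF0 : ∀ i, F i τ = 0 := fun i => by
    obtain ⟨c, hc⟩ := (Submodule.mem_span_range_iff_exists_fun ℂ).1 (hspan _ (hk i))
    rw [← hc, Finset.sum_apply]
    exact Finset.sum_eq_zero fun a _ => by simp [hcon a]
  have h1 := congrFun hsum τ
  simp [Finset.sum_apply, hF0] at h1

end Fermat.Agent.DeligneSerre
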