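import Mathlib

/-!
# Eigenvectors modulo a prime, and Teichmüller characters inside `ℂ`

A character modulo `l` of a commutative ring of integral matrices has an eigenvector modulo `l`,
and the inverse Teichmüller character takes values in a finite ring inside `ℂ` over which a given
residue map extends.
-/

set_option autoImplicit false

noncomputable section

namespace Fermat.Agent.DeligneSerre

open Polynomial Matrix

/-- A character with values in `𝔽_l` of a commutative ring of integral matrices has an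
eigenvector modulo `l`. -/
theorem exists_mod_eigenvector {T : Type*} [CommRing T] {r l : ℕ} [Fact l.Prime]
    (Φ : T →+* Matrix (Fin r) (Fin r) ℤ) (hΦ : Function.Injective Φ) (χ : T →+* ZMod l) :
    ∃ v : Fin r → ZMod l, v ≠ 0 ∧
      ∀ t, (Φ t).map (Int.cast : ℤ → ZMod l) *ᵥ v = χ t • v := by
  classical
  set red : T →+* Matrix (Fin r) (Fin r) (ZMod l) :=
    (Int.castRingHom (ZMod l)).mapMatrix.comp Φ with hred
  have hker : ∀ t, red t = 0 → χ t = 0 := by
    intro t ht
    have h0 : (Φ t).charpoly.eval₂ (Int.castRingHom T) t = 0 := by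
      refine hΦ ?_
      rw [Polynomial.hom_eval₂, map_zero]
      have h := Matrix.aeval_self_charpoly (Φ t)
      rw [aeval_def] at h
      rw [show Φ.comp (Int.castRingHom T) = algebraMap ℤ (Matrix (Fin r) (Fin r) ℤ) from
        RingHom.ext_int _ _]
      exact h
    have h1 := congrArg χ h0
    rw [Polynomial.hom_eval₂, map_zero,
      show χ.comp (Int.castRingHom T) = Int.castRingHom (ZMod l) from RingHom.ext_int _ _,
      ← eval_map, ← Matrix.charpoly_map,
      show (Φ t).map (Int.castRingHom (ZMod l)) = red t from rfl, ht, Matrix.charpoly_zero] at h1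
    simp at h1
    exact h1.1
  set B := red.range with hB
  have hred' : ∀ t, red t ∈ B := fun t => ⟨t, rfl⟩
  choose pre hpre using fun b : B => b.2
  have hwd : ∀ (b : B) (t : T), red t = b.1 → χ t = χ (pre b) := fun b t ht => by
    rw [← sub_eq_zero, ← map_sub]
    exact hker _ (by rw [map_sub, ht, hpre, sub_self])
  set χ' : B → ZMod l := fun b => χ (pre b) with hχ'
  let P : Finset B := Finset.univ.filter fun b => χ' b ≠ 0
  let e : T := ∏ b ∈ P, pre b
  have hne : χ e ≠ 0 := by
    rw [map_prod]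
    exact Finset.prod_ne_zero_iff.2 fun b hb => (Finset.mem_filter.1 hb).2
  have hnil : ∀ t, χ t = 0 → ∃ i : ℕ, red (t ^ i * e) = 0 := by
    intro t ht
    obtain ⟨i, j, hij, hne'⟩ : ∃ i j : ℕ, i < j ∧ red t ^ i = red t ^ j := by
      obtain ⟨a, b, hab, h⟩ := Finite.exists_ne_map_eq_of_infinite (fun n : ℕ => red t ^ n)
      rcases lt_or_gt_of_ne hab with h' | h'
      · exact ⟨a, b, h', h⟩
      · exact ⟨b, a, h', h.symm⟩
    refine ⟨i, ?_⟩
    set b : B := ⟨red (1 - t ^ (j - i)), hred' _⟩ with hb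
    have hbP : b ∈ P := by
      refine Finset.mem_filter.2 ⟨Finset.mem_univ _, ?_⟩
      rw [hχ']
      show χ (pre b) ≠ 0
      rw [← hwd b _ rfl, map_sub, map_one, map_pow, ht, zero_pow (by omega), sub_zero]
      exact one_ne_zero
    have hsplit : e = pre b * ∏ b' ∈ P.erase b, pre b' := (Finset.mul_prod_erase P pre hbP).symm
    rw [map_mul, map_pow, hsplit, map_mul, ← mul_assoc, hpre b]
    show red t ^ i * red (1 - t ^ (j - i)) * _ = 0
    rw [map_sub, map_one, map_pow, mul_sub, mul_one, ← pow_add,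
      Nat.add_sub_cancel' hij.le, ← hne', sub_self, zero_mul]
  have key : ∀ s : Finset B, (∀ b ∈ s, χ' b = 0) →
      ∃ y : Fin r → ZMod l, red e *ᵥ y ≠ 0 ∧ ∀ b ∈ s, b.1 *ᵥ (red e *ᵥ y) = 0 := by
    intro s hs
    induction s using Finset.induction_on with
    | empty =>
      have he0 : red e ≠ 0 := fun h0 => hne (hker e h0)
      obtain ⟨i, j, hij⟩ : ∃ i j, red e i j ≠ 0 := by
        by_contra hc
        push Not at hc
        exact he0 (Matrix.ext hc)
      refine ⟨Pi.single j 1, fun h0 => hij ?_, fun b hb => absurd hb (Finset.notMem_empty b)⟩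
      simpa [Matrix.mulVec_single] using congrFun h0 i
    | insert b s hbs ih =>
      obtain ⟨y, hy0, hy⟩ := ih fun c hc => hs c (Finset.mem_insert_of_mem hc)
      obtain ⟨i, hi⟩ := hnil (pre b) (hs b (Finset.mem_insert_self _ _))
      have hex : ∃ k : ℕ, red (pre b) ^ k *ᵥ (red e *ᵥ y) = 0 :=
        ⟨i, by rw [Matrix.mulVec_mulVec, ← map_pow, ← map_mul, hi, Matrix.zero_mulVec]⟩
      have hk0 : Nat.find hex ≠ 0 := fun h0 => hy0 (by
        have h := Nat.find_spec hex
        rwa [h0, pow_zero, Matrix.one_mulVec] at h)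
      obtain ⟨k, hk⟩ := Nat.exists_eq_succ_of_ne_zero hk0
      have hcomm : red (pre b) ^ k *ᵥ (red e *ᵥ y) = red e *ᵥ (red (pre b) ^ k *ᵥ y) := by
        simp only [Matrix.mulVec_mulVec, ← map_pow, ← map_mul, mul_comm]
      refine ⟨red (pre b) ^ k *ᵥ y, ?_, ?_⟩
      · rw [← hcomm]
        exact Nat.find_min hex (by omega)
      · intro c hc
        rw [← hcomm]
        rcases Finset.mem_insert.1 hc with rfl | hc
        · rw [← hpre c, Matrix.mulVec_mulVec, ← pow_succ']
          have h := Nat.find_spec hex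
          rwa [hk] at h
        · rw [Matrix.mulVec_mulVec, ← hpre c, ← map_pow, ← map_mul, mul_comm, map_mul,
            ← Matrix.mulVec_mulVec, hpre c, hy c hc, Matrix.mulVec_zero]
  obtain ⟨y, hy0, hy⟩ := key (Finset.univ.filter fun b => χ' b = 0) fun b hb =>
    (Finset.mem_filter.1 hb).2
  refine ⟨red e *ᵥ y, hy0, fun t => ?_⟩
  set u : T := t - ((χ t).val : T) with hu
  have hu0 : χ u = 0 := by rw [hu, map_sub, map_natCast, ZMod.natCast_zmod_val, sub_self]
  have h := hy ⟨red u, hred' u⟩ (Finset.mem_filter.2 ⟨Finset.mem_univ _, by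
    rw [hχ']; exact (hwd ⟨red u, hred' u⟩ u rfl).symm.trans hu0⟩)
  change red u *ᵥ _ = 0 at h
  rw [hu, map_sub, map_natCast, Matrix.sub_mulVec, sub_eq_zero, Matrix.natCast_mulVec] at h
  rwa [ZMod.natCast_zmod_val] at h

/-- An element of a field of characteristic `l` fixed by `x ↦ x ^ l` lies in `𝔽_l`. -/
theorem exists_cast_eq_of_pow_eq {K : Type*} [Field K] {l : ℕ} [Fact l.Prime]
    (j : ZMod l →+* K) {y : K} (hy : y ^ l = y) : ∃ z, j z = y := by
  classical
  have hne : (X ^ l - X : K[X]) ≠ 0 :=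
    (FiniteField.X_pow_card_sub_X_ne_zero K (Fact.out : l.Prime).one_lt)
  have hsub : (Finset.univ.image j) ⊆ (X ^ l - X : K[X]).roots.toFinset := fun x hx => by
    obtain ⟨z, -, rfl⟩ := Finset.mem_image.1 hx
    rw [Multiset.mem_toFinset, mem_roots hne]
    simp [← map_pow]
  have hcard : (X ^ l - X : K[X]).roots.toFinset.card ≤ (Finset.univ.image j).card := by
    rw [Finset.card_image_of_injective _ j.injective, Finset.card_univ, ZMod.card]
    exact (Multiset.toFinset_card_le _).trans ((card_roots' _).trans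
      (FiniteField.X_pow_card_sub_X_natDegree_eq K (Fact.out : l.Prime).one_lt).le)
  have : y ∈ Finset.univ.image j := by
    rw [Finset.eq_of_subset_of_card_le hsub hcard, Multiset.mem_toFinset, mem_roots hne]
    simp [hy]
  simpa using this

/-- **Teichmüller**: a finite ring containing `R` and the values of `ω⁻¹`. -/
theorem exists_teichmuller (R : Subalgebra ℤ ℂ) [Module.Finite ℤ R] {l : ℕ} [Fact l.Prime]
    (hl2 : l ≠ 2) (π : R →+* ZMod l) :
    ∃ (A : Subalgebra ℤ ℂ) (hRA : R ≤ A) (ν : A →+* ZMod l) (χ : DirichletCharacter ℂ l),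
      Module.Finite ℤ A ∧ (∀ x : R, ν ⟨x, hRA x.2⟩ = π x) ∧ χ (-1) = -1 ∧
      ∃ hχ : ∀ a, χ a ∈ A, ∀ a, ν ⟨χ a, hχ a⟩ = a⁻¹ := by
  classical
  have hlp : l.Prime := Fact.out
  set n := l - 1 with hn
  have hn0 : n ≠ 0 := by have := hlp.two_le; omega
  set ζ : ℂ := Complex.exp (2 * Real.pi * Complex.I / n) with hζdef
  have hζ : IsPrimitiveRoot ζ n := Complex.isPrimitiveRoot_exp n hn0
  obtain ⟨s, hs⟩ := (Module.Finite.iff_fg (N := Subalgebra.toSubmodule R)).1
    (inferInstanceAs (Module.Finite ℤ R))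
  set A : Subalgebra ℤ ℂ := Algebra.adjoin ℤ (insert ζ (s : Set ℂ)) with hA
  have hRA : R ≤ A := fun x hx => by
    have hx' : x ∈ Subalgebra.toSubmodule R := hx
    rw [← hs] at hx'
    exact Algebra.span_le_adjoin ℤ _ (Submodule.span_mono (Set.subset_insert _ _) hx')
  have hint : ∀ x ∈ (insert ζ (s : Set ℂ)), IsIntegral ℤ x := by
    rintro x (rfl | hx)
    · exact hζ.isIntegral (Nat.pos_of_ne_zero hn0)
    · have hxR : x ∈ Subalgebra.toSubmodule R := hs ▸ Submodule.subset_span hx
      exact (Algebra.IsIntegral.isIntegral (R := ℤ) (⟨x, hxR⟩ : R)).map R.val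
  have hAfin : Module.Finite ℤ A :=
    Module.Finite.iff_fg.2 (fg_adjoin_of_finite ((Finset.finite_toSet s).insert ζ) hint)
  set incl : R →+* A := (Subalgebra.inclusion hRA).toRingHom with hincl
  have : (RingHom.ker π).IsMaximal :=
    RingHom.ker_isMaximal_of_surjective π (ZMod.ringHom_surjective π)
  let : Algebra R A := incl.toAlgebra
  have : IsScalarTower ℤ R A := IsScalarTower.of_algebraMap_eq' (RingHom.ext_int _ _)
  have : Algebra.IsIntegral R A := ⟨fun x => ((Algebra.IsIntegral.isIntegral (R := ℤ) x)).tower_top⟩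
  have hinj : Function.Injective (algebraMap R A) := Subalgebra.inclusion_injective hRA
  obtain ⟨P, hPmax, hP⟩ := Ideal.exists_ideal_over_maximal_of_isIntegral (S := A)
    (RingHom.ker π) (by rw [(RingHom.injective_iff_ker_eq_bot _).1 hinj]; exact bot_le)
  let := Ideal.Quotient.field P
  set ρ : A →+* A ⧸ P := Ideal.Quotient.mk P with hρ
  have hRP : ∀ x : R, π x = 0 → ρ (incl x) = 0 := fun x hx => by
    rw [hρ, Ideal.Quotient.eq_zero_iff_mem]
    have hx' : x ∈ P.comap (algebraMap R A) := hP ▸ hx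
    exact hx'
  have hl0 : ((l : ℕ) : A ⧸ P) = 0 := by
    have := hRP (l : R) (by rw [map_natCast, ZMod.natCast_self])
    rwa [map_natCast, map_natCast] at this
  have : CharP (A ⧸ P) l :=
    ringChar.of_eq (CharP.ringChar_of_prime_eq_zero hlp hl0)
  set j : ZMod l →+* A ⧸ P := ZMod.castHom (dvd_refl l) _ with hj
  have hjR : ∀ x : R, ρ (incl x) = j (π x) := fun x => by
    have h := hRP (x - ((π x).val : R))
      (by rw [map_sub, map_natCast, ZMod.natCast_zmod_val, sub_self])
    rw [map_sub, map_sub, map_natCast, map_natCast, sub_eq_zero] at h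
    rw [h, ← map_natCast j, ZMod.natCast_zmod_val]
  have hjsurj : ∀ x : A, ∃ z, j z = ρ x := by
    rintro ⟨x, hx⟩
    induction hx using Algebra.adjoin_induction with
    | mem y hy =>
      rcases hy with rfl | hy
      · refine exists_cast_eq_of_pow_eq j ?_
        have h1 : (ρ ⟨ζ, Algebra.subset_adjoin (Set.mem_insert _ _)⟩) ^ n = 1 := by
          rw [← map_pow]
          exact (congrArg ρ (Subtype.ext hζ.pow_eq_one)).trans (map_one ρ)
        rw [show l = n + 1 by omega, pow_succ, h1, one_mul]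
      · have hyR : y ∈ Subalgebra.toSubmodule R := hs ▸ Submodule.subset_span hy
        exact ⟨π ⟨y, hyR⟩, (hjR ⟨y, hyR⟩).symm⟩
    | algebraMap z => exact ⟨(z : ZMod l), by
        rw [map_intCast, show (⟨algebraMap ℤ ℂ z, _⟩ : A) = ((z : ℤ) : A) from
          Subtype.ext (by simp),
          map_intCast]⟩
    | add x y hx hy ihx ihy =>
      obtain ⟨a, ha⟩ := ihx
      obtain ⟨b, hb⟩ := ihy
      exact ⟨a + b, by rw [map_add, ha, hb, ← map_add]; rfl⟩
    | mul x y hx hy ihx ihy =>
      obtain ⟨a, ha⟩ := ihx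
      obtain ⟨b, hb⟩ := ihy
      exact ⟨a * b, by rw [map_mul, ha, hb, ← map_mul]; rfl⟩
  let eq : ZMod l ≃+* A ⧸ P := RingEquiv.ofBijective j ⟨j.injective, fun x => by
    obtain ⟨y, rfl⟩ := Ideal.Quotient.mk_surjective x
    exact hjsurj y⟩
  set ν : A →+* ZMod l := eq.symm.toRingHom.comp ρ with hν
  have hνπ : ∀ x : R, ν ⟨x, hRA x.2⟩ = π x := fun x =>
    (RingEquiv.symm_apply_eq eq).2 (hjR x)
  set z : A := ⟨ζ, Algebra.subset_adjoin (Set.mem_insert _ _)⟩ with hz
  have hzP : IsPrimitiveRoot z n :=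
    IsPrimitiveRoot.of_map_of_injective (f := A.val) hζ Subtype.val_injective
  have hnl : NeZero ((n : ℕ) : ZMod l) := ⟨fun h0 => by
    rw [ZMod.natCast_eq_zero_iff] at h0
    exact absurd (Nat.le_of_dvd (by omega) h0) (by omega)⟩
  have hg : IsPrimitiveRoot (ν z) n := by
    rw [← Polynomial.isRoot_cyclotomic_iff, ← map_cyclotomic n ν]
    exact (hzP.isRoot_cyclotomic (Nat.pos_of_ne_zero hn0)).map
  set g : (ZMod l)ˣ := (hg.isUnit hn0).unit with hgdef
  have hgval : (g : ZMod l) = ν z := rfl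
  have hgord : orderOf g = n := by
    rw [← orderOf_units, hgval]; exact hg.eq_orderOf.symm
  have hgen : ∀ x : (ZMod l)ˣ, x ∈ Subgroup.zpowers g := fun x => by
    have : Subgroup.zpowers g = ⊤ := Subgroup.eq_top_of_card_eq _ (by
      rw [Nat.card_zpowers, hgord, Nat.card_eq_fintype_card, ZMod.card_units])
    rw [this]; trivial
  set zu : ℂˣ := (hζ.isUnit hn0).unit with hzu
  have hzuord : orderOf zu⁻¹ = n := by
    rw [orderOf_inv, ← orderOf_units]; exact hζ.eq_orderOf.symm
  set ω : (ZMod l)ˣ →* ℂˣ := monoidHomOfForallMemZpowers hgen (g' := zu⁻¹) (by rw [hzuord, hgord])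
    with hω
  have hωg : ω g = zu⁻¹ := monoidHomOfForallMemZpowers_apply_gen ..
  have hpow : ∀ u : (ZMod l)ˣ, ∃ k : ℕ, u = g ^ k ∧ (ω u : ℂ) = (ζ ^ (n - 1)) ^ k := by
    intro u
    obtain ⟨k, rfl⟩ := (Submonoid.mem_powers_iff _ _).1
      ((isOfFinOrder_of_finite g).mem_powers_iff_mem_zpowers.2 (hgen u))
    refine ⟨k, rfl, ?_⟩
    rw [map_pow, hωg, Units.val_pow_eq_pow_val, Units.val_inv_eq_inv_val]
    congr 1
    refine inv_eq_of_mul_eq_one_right ?_
    show ζ * ζ ^ (n - 1) = 1
    rw [← pow_succ', Nat.sub_add_cancel (Nat.pos_of_ne_zero hn0), hζ.pow_eq_one]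
  set χ : DirichletCharacter ℂ l := MulChar.ofUnitHom ω with hχdef
  have hcoe : ∀ u : (ZMod l)ˣ, χ (u : ZMod l) = (ω u : ℂ) := fun u => MulChar.ofUnitHom_coe ω u
  have hmem : ∀ a, χ a ∈ A := by
    intro a
    rcases eq_or_ne a 0 with rfl | ha
    · rw [MulChar.map_zero]; exact A.zero_mem
    · obtain ⟨k, -, hk⟩ := hpow (Units.mk0 a ha)
      rw [← Units.val_mk0 ha, hcoe, hk]
      exact pow_mem (pow_mem z.2 _) _
  have hνχ : ∀ a, ν ⟨χ a, hmem a⟩ = a⁻¹ := by
    intro a
    rcases eq_or_ne a 0 with rfl | ha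
    · rw [show (⟨χ 0, hmem 0⟩ : A) = 0 from Subtype.ext (MulChar.map_zero χ), map_zero,
        _root_.inv_zero]
    · obtain ⟨k, hk1, hk⟩ := hpow (Units.mk0 a ha)
      have e : (⟨χ a, hmem a⟩ : A) = (z ^ (n - 1)) ^ k := Subtype.ext (by
        rw [← hcoe] at hk
        simpa using hk)
      rw [e, map_pow, map_pow, ← Units.val_mk0 ha, hk1, Units.val_pow_eq_pow_val, hgval, ← inv_pow]
      congr 1
      refine (inv_eq_of_mul_eq_one_right ?_).symm
      rw [← pow_succ', Nat.sub_add_cancel (Nat.pos_of_ne_zero hn0), hg.pow_eq_one]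
  refine ⟨A, hRA, ν, χ, hAfin, hνπ, ?_, hmem, hνχ⟩
  have hsq : χ (-1) * χ (-1) = 1 := by rw [← map_mul, neg_one_mul, neg_neg, map_one]
  rcases mul_self_eq_one_iff.1 hsq with h1 | h1
  · exfalso
    have := hνχ (-1)
    rw [show (⟨χ (-1), hmem _⟩ : A) = 1 from Subtype.ext h1, map_one, inv_neg, inv_one] at this
    have h2 : ((2 : ℕ) : ZMod l) = 0 := by push_cast; linear_combination this
    rw [ZMod.natCast_eq_zero_iff] at h2
    exact hl2 ((Nat.prime_dvd_prime_iff_eq hlp Nat.prime_two).1 h2)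
  · exact h1

end Fermat.Agent.DeligneSerre
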