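import Fermat.Agent.DeligneSerre.Weight
import Fermat.Agent.DeligneSerre.ModEigen
import Mathlib.RingTheory.Nakayama
import Mathlib.LinearAlgebra.Dual.Lemmas

/-!
# The eigenclass modulo a large prime

`f · E_l`, with `E_l ≡ 1` the Eisenstein series of character `ω⁻¹`, gives a character of the weight
two Hecke ring of level `N l` with values in `𝔽_l`, hence an eigenclass in `H¹(Γ_H(N l), 𝔽_l)`.
-/

set_option autoImplicit false

noncomputable section

namespace Fermat.Agent.DeligneSerre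

open UpperHalfPlane CongruenceSubgroup Fermat.Agent.GammaH
open Fermat.Agent.MFCore (IsQ qExp)
open ModularFormClass (qCoeff)
open scoped MatrixGroups ModularForm Manifold

/-- A semilinear functional which does not vanish on a generating sequence. -/
theorem exists_functional (A : Subalgebra ℤ ℂ) [Module.Finite ℤ A] {l : ℕ} [Fact l.Prime]
    (ν : A →+* ZMod l) (c : ℕ → ℂ) (h1 : c 1 = 1) (s : Finset ℂ)
    (hs : ∀ n, c n ∈ Submodule.span ℤ (s : Set ℂ)) :
    ∃ (M : Submodule A ℂ) (φ : ℂ → ZMod l), (∀ n, c n ∈ M) ∧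
      (∀ x ∈ M, ∀ y ∈ M, φ (x + y) = φ x + φ y) ∧
      (∀ (a : A), ∀ x ∈ M, φ ((a : ℂ) * x) = ν a * φ x) ∧ φ 0 = 0 ∧ ∃ n, φ (c n) ≠ 0 := by
  classical
  have : IsNoetherianRing A := IsNoetherianRing.of_finite ℤ A
  set M : Submodule A ℂ := Submodule.span A (Set.range c) with hM
  have hmem : ∀ n, c n ∈ M := fun n => Submodule.subset_span ⟨n, rfl⟩
  have hle : M ≤ Submodule.span A (s : Set ℂ) := by
    rw [hM, Submodule.span_le]
    rintro _ ⟨n, rfl⟩
    exact Submodule.span_le_restrictScalars ℤ A (s : Set ℂ) (hs n)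
  have : Module.Finite A (Submodule.span A (s : Set ℂ)) :=
    Module.Finite.span_of_finite A s.finite_toSet
  have : Module.Finite A M :=
    Module.Finite.of_injective (Submodule.inclusion hle) (Submodule.inclusion_injective hle)
  set P : Ideal A := RingHom.ker ν with hP
  have hsurj : Function.Surjective ν := ZMod.ringHom_surjective ν
  have : P.IsMaximal := RingHom.ker_isMaximal_of_surjective ν hsurj
  let := Ideal.Quotient.field P
  have hne : (⊤ : Submodule A M) ≠ P • ⊤ := by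
    intro htop
    obtain ⟨r, hr, hr0⟩ := Submodule.exists_sub_one_mem_and_smul_eq_zero_of_fg_of_le_smul P ⊤
      Module.Finite.fg_top htop.le
    have h0 := congrArg Subtype.val (hr0 ⟨1, h1 ▸ hmem 1⟩ trivial)
    simp only [SetLike.val_smul, ZeroMemClass.coe_zero, Subalgebra.smul_def, smul_eq_mul,
      mul_one] at h0
    have hr' : r = 0 := Subtype.ext h0
    rw [hr', zero_sub, neg_mem_iff, hP, RingHom.mem_ker, map_one] at hr
    exact one_ne_zero hr
  obtain ⟨m, hm⟩ : ∃ m : M, m ∉ P • (⊤ : Submodule A M) := by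
    by_contra hc
    push Not at hc
    exact hne (eq_top_iff.2 fun m _ => hc m).symm
  obtain ⟨d, hd⟩ := Module.Projective.exists_dual_ne_zero (A ⧸ P)
    (x := Submodule.Quotient.mk (p := P • (⊤ : Submodule A M)) m)
    (by rwa [Ne, Submodule.Quotient.mk_eq_zero])
  let e : A ⧸ P →+* ZMod l := Ideal.Quotient.lift P ν fun a ha => ha
  have he : Function.Injective e := (e : A ⧸ P →+* ZMod l).injective
  let φ : ℂ → ZMod l := fun x =>
    if hx : x ∈ M then e (d (Submodule.Quotient.mk ⟨x, hx⟩)) else 0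
  have hφ : ∀ (x : ℂ) (hx : x ∈ M), φ x = e (d (Submodule.Quotient.mk ⟨x, hx⟩)) := fun x hx =>
    dif_pos hx
  have hadd : ∀ x ∈ M, ∀ y ∈ M, φ (x + y) = φ x + φ y := fun x hx y hy => by
    rw [hφ _ hx, hφ _ hy, hφ _ (M.add_mem hx hy), ← e.map_add, ← d.map_add,
      ← Submodule.Quotient.mk_add]
    rfl
  have hsmul : ∀ (a : A), ∀ x ∈ M, φ ((a : ℂ) * x) = ν a * φ x := fun a x hx => by
    have hax : (a : ℂ) * x ∈ M := M.smul_mem a hx
    rw [hφ _ hx, hφ _ hax,
      show (Submodule.Quotient.mk ⟨(a : ℂ) * x, hax⟩ : M ⧸ P • (⊤ : Submodule A M)) =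
        (Ideal.Quotient.mk P a) • Submodule.Quotient.mk ⟨x, hx⟩ from rfl,
      d.map_smul, smul_eq_mul, e.map_mul]
    rfl
  refine ⟨M, φ, hmem, hadd, hsmul, ?_, ?_⟩
  · simpa using hsmul 0 0 M.zero_mem
  · by_contra hc
    push Not at hc
    have hzero : ∀ x ∈ M, φ x = 0 := by
      intro x hx
      induction hx using Submodule.span_induction with
      | mem x hx => obtain ⟨n, rfl⟩ := hx; exact hc n
      | zero => simpa using hsmul 0 0 M.zero_mem
      | add x y hx hy ihx ihy => rw [hadd x hx y hy, ihx, ihy, add_zero]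
      | smul a x hx ih =>
        rw [Subalgebra.smul_def, smul_eq_mul, hsmul a x hx, ih, mul_zero]
    apply hd
    have h0 := hzero m.1 m.2
    rw [hφ _ m.2, ← e.map_zero] at h0
    exact he h0

namespace WeightOneEigen

variable {N : ℕ} [NeZero N] {ε : DirichletCharacter ℂ N} {f : CuspForm (Gamma1 N) 1}

/-- **The eigenclass modulo `l`.** -/
theorem exists_eigenClass (h : WeightOneEigen N ε f) (R : Subalgebra ℤ ℂ)
    [Module.Finite ℤ R] (hε : ∀ a : ZMod N, ε a ∈ R)
    (hap : ∀ p : ℕ, p.Prime → ¬ p ∣ N → qCoeff f p ∈ R)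
    (l : ℕ) [hl : Fact l.Prime] [NeZero (N * l)] (hl2 : l ≠ 2) (π : R →+* ZMod l) :
    ∃ w : H1 (N * l) (Subgroup.zpowers (-1 : (ZMod (N * l))ˣ)) (ZMod l) (ZMod l), w ≠ 0 ∧
      (∀ a : (ZMod (N * l))ˣ,
        diamondH (ZMod l) (ZMod l) a w =
          (π ⟨ε (ZMod.castHom (dvd_mul_right N l) (ZMod N) (a : ZMod (N * l))), hε _⟩ *
            (ZMod.castHom (dvd_mul_left l N) (ZMod l) (a : ZMod (N * l)))⁻¹) • w) ∧
      ∀ (p : ℕ) (hp : p.Prime) (hpM : ¬ p ∣ N * l),
        heckeTH (ZMod l) (ZMod l) hp hpM w =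
          π ⟨qCoeff f p, hap p hp fun h => hpM (h.trans (dvd_mul_right N l))⟩ • w := by
  classical
  obtain ⟨A, hRA, ν, χ, hAfin, hνπ, hodd, hχA, hνχ⟩ := exists_teichmuller R hl2 π
  obtain ⟨s, hs⟩ := h.exists_coeff_span
  obtain ⟨M, φ, hfM, hadd, hsmul, hφ0, n₀, hn₀⟩ :=
    exists_functional A ν (fun n => qCoeff f n) h.one s hs
  set H := negH (N * l) with hH
  have hneg : (-1 : (ZMod (N * l))ˣ) ∈ H := neg_one_mem_negH _
  obtain ⟨G, -, hGexp, hGd⟩ := h.exists_prodForm (ℓ := l) hodd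
  -- coefficients of `E`
  have hEA : ∀ j, eisCoeff χ j ∈ A := by
    intro j
    rw [eisCoeff]
    split_ifs
    · exact A.neg_mem (A.sum_mem fun a _ => A.mul_mem (A.natCast_mem _) (hχA a))
    · exact A.mul_mem (A.mul_mem (A.natCast_mem 2) (A.natCast_mem l))
        (A.sum_mem fun d _ => hχA _)
  have hνE : ∀ j, ν ⟨eisCoeff χ j, hEA j⟩ = if j = 0 then 1 else 0 := by
    intro j
    split_ifs with hj
    · have e : (⟨eisCoeff χ j, hEA j⟩ : A) = -∑ a : ZMod l, (a.val : A) * ⟨χ a, hχA a⟩ :=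
        Subtype.ext (by simp [eisCoeff, hj, -ZMod.natCast_val])
      rw [e, map_neg, map_sum]
      have ht : ∀ a : ZMod l, ν ((a.val : A) * ⟨χ a, hχA a⟩) = 1 - if a = 0 then 1 else 0 := by
        intro a
        rw [map_mul, map_natCast, hνχ, ZMod.natCast_zmod_val]
        split_ifs with ha
        · simp [ha]
        · rw [mul_inv_cancel₀ ha, sub_zero]
      rw [Finset.sum_congr rfl fun a _ => ht a, Finset.sum_sub_distrib]
      simp
    · have e : (⟨eisCoeff χ j, hEA j⟩ : A) =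
          ((2 : ℕ) : A) * (l : A) * ∑ d ∈ j.divisors, ⟨χ d, hχA _⟩ := Subtype.ext (by
        simp [eisCoeff, hj]
        exact Or.inl (Or.inl (map_ofNat A.val 2).symm))
      rw [e, map_mul, map_mul, map_natCast, map_natCast, ZMod.natCast_self, mul_zero, zero_mul]
  -- coefficients of `G`
  have hGM : ∀ n, qCoeff ⇑G n ∈ M ∧ φ (qCoeff ⇑G n) = φ (qCoeff f n) := by
    intro n
    have e : qCoeff ⇑G n =
      ∑ x ∈ Finset.HasAntidiagonal.antidiagonal n, eisCoeff χ x.2 * qCoeff f x.1 := by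
      show (qExp (G : ℍ → ℂ)).coeff n = _
      rw [hGexp, PowerSeries.coeff_mul]
      exact Finset.sum_congr rfl fun x _ => by rw [PowerSeries.coeff_mk, mul_comm]; rfl
    have hterm : ∀ x : ℕ × ℕ, eisCoeff χ x.2 * qCoeff f x.1 ∈ M ∧
        φ (eisCoeff χ x.2 * qCoeff f x.1) = if x.2 = 0 then φ (qCoeff f x.1) else 0 := fun x => by
      refine ⟨M.smul_mem ⟨_, hEA x.2⟩ (hfM x.1), ?_⟩
      rw [hsmul ⟨_, hEA x.2⟩ _ (hfM x.1), hνE]
      split_ifs <;> simp
    have hsum : ∀ S : Finset (ℕ × ℕ), (∑ x ∈ S, eisCoeff χ x.2 * qCoeff f x.1) ∈ M ∧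
        φ (∑ x ∈ S, eisCoeff χ x.2 * qCoeff f x.1) =
          ∑ x ∈ S, if x.2 = 0 then φ (qCoeff f x.1) else 0 := by
      intro S
      induction S using Finset.induction_on with
      | empty => simp [hφ0]
      | insert x S hx ih =>
        rw [Finset.sum_insert hx, Finset.sum_insert hx]
        exact ⟨M.add_mem (hterm x).1 ih.1, by rw [hadd _ (hterm x).1 _ ih.1, (hterm x).2, ih.2]⟩
    rw [e]
    refine ⟨(hsum _).1, (hsum _).2.trans ?_⟩
    rw [Finset.sum_eq_single (n, 0)]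
    · simp
    · intro x hx hne
      rw [if_neg]
      intro h0
      exact hne (Prod.ext
        (by simp [Finset.HasAntidiagonal.mem_antidiagonal, h0] at hx; exact hx) h0)
    · simp
  -- the character of the diamond operators
  have hψA : ∀ a : ZMod (N * l), ε (ZMod.castHom (dvd_mul_right N l) (ZMod N) a) *
      χ (ZMod.castHom (dvd_mul_left l N) (ZMod l) a) ∈ A :=
    fun a => A.mul_mem (hRA (hε _)) (hχA _)
  set ψ : ZMod (N * l) → A := fun a => ⟨_, hψA a⟩ with hψ
  have hνψ : ∀ a : ZMod (N * l), ν (ψ a) =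
      π ⟨ε (ZMod.castHom (dvd_mul_right N l) (ZMod N) a), hε _⟩ *
        (ZMod.castHom (dvd_mul_left l N) (ZMod l) a)⁻¹ := by
    intro a
    rw [show ψ a = (⟨_, hRA (hε (ZMod.castHom (dvd_mul_right N l) (ZMod N) a))⟩ : A) *
      ⟨_, hχA (ZMod.castHom (dvd_mul_left l N) (ZMod l) a)⟩ from Subtype.ext rfl, map_mul, hνχ]
    rw [← hνπ]
  -- forms with the character and coefficients in `M`, and their congruences
  let X : S2 (N * l) H → Prop := fun g =>
    (∀ a : (ZMod (N * l))ˣ, diamond a g = ((ψ (a : ZMod (N * l)) : A) : ℂ) • g) ∧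
      ∀ n, qCoeff ⇑g n ∈ M
  let Cg : S2 (N * l) H → ZMod l → Prop := fun g c => ∀ n, φ (qCoeff ⇑g n) = c * φ (qCoeff f n)
  let Ok : Module.End ℂ (S2 (N * l) H) → Prop := fun t => ∃ c : ZMod l,
    ∀ g, X g → X (t g) ∧ ∀ c₀, Cg g c₀ → Cg (t g) (c * c₀)
  have hXsmul : ∀ (a : A) (g : S2 (N * l) H), X g →
      X ((a : ℂ) • g) ∧ ∀ c₀, Cg g c₀ → Cg ((a : ℂ) • g) (ν a * c₀) := by
    intro a g hg
    refine ⟨⟨fun b => by rw [map_smul, hg.1 b, smul_comm], fun n => ?_⟩, fun c₀ hc n => ?_⟩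
    · rw [qCoeff_smul]; exact M.smul_mem a (hg.2 n)
    · rw [qCoeff_smul, hsmul a _ (hg.2 n), hc n, mul_assoc]
  let Bad : Set ℕ := {q | q ∣ N * l}
  let Bsub : Subalgebra ℤ (Module.End ℂ (S2 (N * l) H)) :=
    { carrier := {t | Ok t}
      mul_mem' := fun {a b} ⟨c, hc⟩ ⟨c', hc'⟩ => ⟨c * c', fun g hg =>
        ⟨(hc _ (hc' g hg).1).1, fun c₀ h₀ => by
          rw [mul_assoc]; exact (hc _ (hc' g hg).1).2 _ ((hc' g hg).2 c₀ h₀)⟩⟩
      add_mem' := fun {a b} ⟨c, hc⟩ ⟨c', hc'⟩ => ⟨c + c', fun g hg => by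
        obtain ⟨x1, y1⟩ := hc g hg
        obtain ⟨x2, y2⟩ := hc' g hg
        refine ⟨⟨fun d => ?_, fun n => ?_⟩, fun c₀ h₀ n => ?_⟩
        · rw [LinearMap.add_apply, map_add, x1.1 d, x2.1 d, smul_add]
        · rw [LinearMap.add_apply, qCoeff_add]; exact M.add_mem (x1.2 n) (x2.2 n)
        · rw [LinearMap.add_apply, qCoeff_add, hadd _ (x1.2 n) _ (x2.2 n), y1 c₀ h₀ n, y2 c₀ h₀ n,
            add_mul, add_mul]⟩
      algebraMap_mem' := fun z => ⟨(z : ZMod l), fun g hg => by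
        have e : (algebraMap ℤ (Module.End ℂ (S2 (N * l) H)) z) g = (((z : A)) : ℂ) • g := by
          rw [Algebra.algebraMap_eq_smul_one, LinearMap.smul_apply, Module.End.one_apply,
            ← Int.cast_smul_eq_zsmul ℂ]
          simp
        rw [e, ← map_intCast ν z]
        exact hXsmul _ g hg⟩ }
  have hdiamond : ∀ a : (ZMod (N * l))ˣ, ∀ g, X g →
      X (diamond a g) ∧ ∀ c₀, Cg g c₀ → Cg (diamond a g) (ν (ψ (a : ZMod (N * l))) * c₀) := by
    intro a g hg
    rw [hg.1 a]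
    exact hXsmul _ g hg
  have hhecke : ∀ (q : ℕ) (hq : q.Prime) (hqM : ¬ q ∣ N * l), ∀ g, X g →
      X (heckeT hq hqM g) ∧ ∀ c₀, Cg g c₀ → Cg (heckeT hq hqM g)
        (π ⟨qCoeff f q, hap q hq fun h => hqM (h.trans (dvd_mul_right N l))⟩ * c₀) := by
    intro q hq hqM g hg
    have hqN : ¬ q ∣ N := fun h => hqM (h.trans (dvd_mul_right N l))
    set u : A := ψ ((primeUnit hq hqM : (ZMod (N * l))ˣ) : ZMod (N * l)) with hu
    have hcf : ∀ n, qCoeff ⇑(heckeT hq hqM g) n = qCoeff ⇑g (n * q) +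
        if q ∣ n then (((q : A) * u : A) : ℂ) * qCoeff ⇑g (n / q) else 0 := by
      intro n
      rw [GammaH.qCoeff_heckeT, hg.1, qCoeff_smul, ← hu]
      push_cast
      simp [mul_assoc]
    have hM2 : ∀ n, (if q ∣ n then (((q : A) * u : A) : ℂ) * qCoeff ⇑g (n / q) else 0) ∈ M :=
      fun n => by
        split_ifs
        · exact M.smul_mem _ (hg.2 _)
        · exact M.zero_mem
    refine ⟨⟨fun b => ?_, fun n => ?_⟩, fun c₀ hc n => ?_⟩
    · rw [← map_smul, ← hg.1 b]
      exact LinearMap.congr_fun (commute_diamond_heckeT hq hqM b) g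
    · rw [hcf]; exact M.add_mem (hg.2 _) (hM2 n)
    · have hνu : ν ((q : A) * u) = π ⟨ε (q : ZMod N), hε _⟩ := by
        have hq0 : ((q : ℕ) : ZMod l) ≠ 0 := by
          rw [Ne, ZMod.natCast_eq_zero_iff]
          intro hd
          exact hqM (((Nat.prime_dvd_prime_iff_eq hl.out hq).1 hd) ▸ dvd_mul_left l N)
        rw [map_mul, map_natCast, hu, hνψ]
        simp only [coe_primeUnit, map_natCast]
        rw [mul_left_comm, mul_inv_cancel₀ hq0, mul_one]
      have hfrel : qCoeff f (n * q) + (if q ∣ n then ε (q : ZMod N) * qCoeff f (n / q) else 0) =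
          qCoeff f q * qCoeff f n := by
        rw [← h.rel q hq hqN n, mul_comm n q, mul_ite, mul_zero]
      have hM3 : (if q ∣ n then ε (q : ZMod N) * qCoeff f (n / q) else 0) ∈ M := by
        split_ifs
        · exact M.smul_mem (⟨_, hRA (hε _)⟩ : A) (hfM _)
        · exact M.zero_mem
      have h2 := congrArg φ hfrel
      rw [hadd _ (hfM _) _ hM3, hsmul ⟨_, hRA (hap q hq hqN)⟩ _ (hfM n),
        hνπ ⟨_, hap q hq hqN⟩] at h2
      rw [hcf, hadd _ (hg.2 _) _ (hM2 n), hc, mul_comm _ c₀, mul_assoc, ← h2, mul_add]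
      congr 1
      by_cases hd : q ∣ n
      · rw [if_pos hd, if_pos hd, hsmul _ _ (hg.2 _), hc, hνu,
          hsmul ⟨_, hRA (hε _)⟩ _ (hfM _), hνπ ⟨_, hε (q : ZMod N)⟩]
        ring
      · rw [if_neg hd, if_neg hd, hφ0, mul_zero]
  have hle : heckeRing (N * l) H Bad ≤ Bsub := Algebra.adjoin_le <| by
    rintro t ((⟨a, rfl⟩ | ⟨q, hq, hqM, -, rfl⟩) | ⟨q, hqM, -, hqS, rfl⟩)
    · exact ⟨_, hdiamond a⟩
    · exact ⟨_, hhecke q hq hqM⟩
    · exact absurd hqM hqS
  have hXG : X G := ⟨hGd, fun n => (hGM n).1⟩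
  have hCG : Cg G 1 := fun n => by rw [one_mul]; exact (hGM n).2
  choose c hc using fun t : heckeRing (N * l) H Bad => hle t.2
  have huniq : ∀ t : heckeRing (N * l) H Bad, ∀ c', Cg (t.1 G) c' → c t = c' := fun t c' h' => by
    have e := ((hc t G hXG).2 1 hCG n₀).symm.trans (h' n₀)
    rw [mul_one] at e
    exact mul_right_cancel₀ hn₀ e
  let κ : heckeRing (N * l) H Bad →+* ZMod l :=
    { toFun := c
      map_one' := huniq 1 1 (by simpa using hCG)
      map_mul' := fun a b => huniq _ _ (by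
        have h1 := (hc b G hXG).2 1 hCG
        rw [mul_one] at h1
        simpa using (hc a _ (hc b G hXG).1).2 _ h1)
      map_zero' := huniq 0 0 (fun n => by
        rw [ZeroMemClass.coe_zero, LinearMap.zero_apply, ← qLin_apply, map_zero, hφ0, zero_mul])
      map_add' := fun a b => huniq _ _ (fun n => by
        rw [AddMemClass.coe_add, LinearMap.add_apply, qCoeff_add,
          hadd _ ((hc a G hXG).1.2 n) _ ((hc b G hXG).1.2 n), (hc a G hXG).2 1 hCG n,
          (hc b G hXG).2 1 hCG n, mul_one, mul_one, add_mul]) }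
  obtain ⟨v, hv0, hv⟩ := exists_mod_eigenvector (matrixH (S := Bad) hneg)
    (matrixH_injective hneg) κ
  refine ⟨coordH hneg (ZMod l) (ZMod l) v, by simpa using hv0, fun a => ?_, fun p hp hpM => ?_⟩
  · have hk : c (diamondR a) = ν (ψ (a : ZMod (N * l))) := huniq _ _ (by
      simpa using (hdiamond a G hXG).2 1 hCG)
    rw [← homAction_diamond (S := Bad) hneg, homAction_coordH, ← hνψ, ← hk, ← map_smul]
    congr 1
    rw [show c (diamondR a) = κ (diamondR a) from rfl, ← hv]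
    funext i
    simp [intAct_apply, Matrix.mulVec, dotProduct]
  · have hpS : p ∉ Bad := hpM
    have hk : c (heckeTR hp hpM hpS) =
        π ⟨qCoeff f p, hap p hp fun h => hpM (h.trans (dvd_mul_right N l))⟩ := huniq _ _ (by
      simpa using (hhecke p hp hpM G hXG).2 1 hCG)
    rw [← homAction_heckeT (S := Bad) hneg (ZMod l) (ZMod l) hp hpM hpS, homAction_coordH, ← hk,
      ← map_smul]
    congr 1
    rw [show c (heckeTR hp hpM hpS) = κ (heckeTR hp hpM hpS) from rfl, ← hv]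
    funext i
    simp [intAct_apply, Matrix.mulVec, dotProduct]

end WeightOneEigen

end Fermat.Agent.DeligneSerre
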