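import Fermat.Agent.LevelM.Forms
import Fermat.Agent.Newform.Expansion
import Mathlib.Analysis.SpecialFunctions.Complex.CircleAddChar
import Mathlib.NumberTheory.DirichletCharacter.GaussSum

/-!
# The weight one Eisenstein series of an odd character of prime conductor

`eisChar χ` has expansion `-∑ a χ(a) + 2ℓ ∑_n (∑_{d ∣ n} χ d) qⁿ` and character `χ` on `Γ₀(ℓ)`.
-/

set_option autoImplicit false

noncomputable section

namespace Fermat.Agent.DeligneSerre

open UpperHalfPlane CongruenceSubgroup Fermat.Agent.LevelM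
open Fermat.Agent.Newform (HasQ)
open scoped MatrixGroups ModularForm Manifold

variable {ℓ : ℕ} [Fact ℓ.Prime] (χ : DirichletCharacter ℂ ℓ)

/-- The vector `(0, b/ℓ)`. -/
def cuspVec (b : ZMod ℓ) : Fin 2 → ℚ := vec ℓ 0 (b.val : ℤ)

theorem adm_cuspVec {b : ZMod ℓ} (hb : b ≠ 0) : Adm (cuspVec b) := by
  have : NeZero ℓ := ⟨(Fact.out : ℓ.Prime).ne_zero⟩
  intro h
  obtain ⟨a, ha⟩ := h 1
  simp only [cuspVec, vec, Matrix.cons_val_one, Matrix.cons_val_zero, Int.cast_natCast] at ha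
  rw [div_eq_iff (Nat.cast_ne_zero.2 (NeZero.ne ℓ))] at ha
  have : ((b.val : ℤ) : ZMod ℓ) = ((a * ℓ : ℤ) : ZMod ℓ) := congrArg _ (by exact_mod_cast ha)
  simp at this
  exact hb this

/-- The Gauss sum used for the normalisation. -/
def eisGauss : ℂ := gaussSum χ⁻¹ (ZMod.stdAddChar (N := ℓ))

/-- The Eisenstein series. -/
def eisChar : ℍ → ℂ :=
  (-(ℓ : ℂ) / eisGauss χ) • ∑ b : ZMod ℓ, χ⁻¹ b • zv (cuspVec b)

/-- Its coefficients. -/
def eisCoeff (n : ℕ) : ℂ :=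
  if n = 0 then -∑ a : ZMod ℓ, (a.val : ℂ) * χ a else 2 * (ℓ : ℂ) * ∑ d ∈ n.divisors, χ d

variable {χ}

theorem term_cuspVec_eq (b : ZMod ℓ) :
    χ⁻¹ b • zv (cuspVec b) = if b = 0 then 0 else χ⁻¹ b • zv (cuspVec b) := by
  split_ifs with h
  · rw [h, MulChar.map_zero, zero_smul]
  · rfl

theorem eisChar_slash {δ : SL(2, ℤ)} (hδ : δ ∈ Gamma0 ℓ) :
    eisChar χ ∣[(1 : ℤ)] δ = χ (δ 1 1 : ZMod ℓ) • eisChar χ := by
  have hc : ((δ 1 0 : ℤ) : ZMod ℓ) = 0 := Gamma0_mem.1 hδ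
  set d : ZMod ℓ := ((δ 1 1 : ℤ) : ZMod ℓ) with hd
  have hd0 : d ≠ 0 := by
    intro h0
    have hdet := congrArg (Int.cast : ℤ → ZMod ℓ) δ.det_coe
    rw [Matrix.det_fin_two] at hdet
    push_cast at hdet
    rw [← hd, h0, hc, mul_zero, mul_zero, sub_zero] at hdet
    exact zero_ne_one hdet
  have key : ∀ b : ZMod ℓ, b ≠ 0 →
      zv (cuspVec b) ∣[(1 : ℤ)] δ = zv (cuspVec (b * d)) := by
    intro b hb
    have : NeZero ℓ := ⟨(Fact.out : ℓ.Prime).ne_zero⟩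
    obtain ⟨t0, ht0⟩ : (ℓ : ℤ) ∣ (b.val : ℤ) * δ 1 0 := by
      rw [← ZMod.intCast_zmod_eq_zero_iff_dvd]; push_cast; rw [hc, mul_zero]
    obtain ⟨t1, ht1⟩ : (ℓ : ℤ) ∣ (b.val : ℤ) * δ 1 1 - ((b * d).val : ℤ) := by
      rw [← ZMod.intCast_zmod_eq_zero_iff_dvd]
      push_cast
      rw [ZMod.natCast_zmod_val, ZMod.natCast_zmod_val, ← hd, sub_self]
    rw [zv_slash (adm_cuspVec hb), ← zv_add_int (adm_cuspVec (mul_ne_zero hb hd0)) ![t0, t1]]
    congr 1
    funext k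
    have hℓ : (ℓ : ℚ) ≠ 0 := Nat.cast_ne_zero.2 (NeZero.ne ℓ)
    have h0 : ((b.val : ℕ) : ℚ) * (δ 1 0 : ℤ) = (ℓ : ℚ) * t0 := by exact_mod_cast ht0
    have h1 : ((b.val : ℕ) : ℚ) * (δ 1 1 : ℤ) - ((b * d).val : ℕ) = (ℓ : ℚ) * t1 := by
      exact_mod_cast ht1
    fin_cases k <;> simp [vmul_apply, cuspVec, vec, -ZMod.natCast_val] <;> field_simp
    · linear_combination h0
    · linear_combination h1
  have hterm : ∀ b : ZMod ℓ, (χ⁻¹ b • zv (cuspVec b)) ∣[(1 : ℤ)] δ =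
      χ d • (χ⁻¹ (b * d) • zv (cuspVec (b * d))) := by
    intro b
    rw [ModularForm.SL_smul_slash, smul_smul]
    rcases eq_or_ne b 0 with rfl | hb
    · rw [zero_mul, MulChar.map_zero, mul_zero, zero_smul, zero_smul]
    · rw [key b hb]
      congr 1
      rw [MulChar.inv_apply', MulChar.inv_apply', ← map_mul]
      congr 1
      field_simp
  rw [eisChar, ModularForm.SL_smul_slash, SlashAction.sum_slash,
    Finset.sum_congr rfl fun b _ => hterm b, ← Finset.smul_sum,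
    Fintype.sum_equiv (Equiv.mulRight₀ d hd0) (fun b => χ⁻¹ (b * d) • zv (cuspVec (b * d)))
      (fun b => χ⁻¹ b • zv (cuspVec b)) (fun b => rfl), smul_comm]

theorem mdifferentiable_eisChar : MDiff (eisChar χ) := by
  rw [eisChar]
  refine MDifferentiable.const_smul _ ?_
  refine Finset.sum_induction _ (fun F : ℍ → ℂ => MDiff F) (fun _ _ h h' => h.add h')
    mdifferentiable_const fun b _ => ?_
  rw [term_cuspVec_eq]
  split_ifs with hb
  · exact mdifferentiable_const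
  · exact (mdifferentiable_zv (adm_cuspVec hb)).const_smul _

theorem isBoundedAtImInfty_eisChar_slash (γ : SL(2, ℤ)) :
    IsBoundedAtImInfty (eisChar χ ∣[(1 : ℤ)] γ) := by
  rw [eisChar, ModularForm.SL_smul_slash, SlashAction.sum_slash]
  refine Filter.BoundedAtFilter.smul _ ?_
  refine Finset.sum_induction _ (fun F : ℍ → ℂ => IsBoundedAtImInfty F) (fun _ _ h h' => h.add h')
    (Filter.const_boundedAtFilter _ 0) fun b _ => ?_
  rw [term_cuspVec_eq]
  split_ifs with hb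
  · rw [SlashAction.zero_slash]; exact Filter.const_boundedAtFilter _ 0
  · rw [ModularForm.SL_smul_slash, zv_slash (adm_cuspVec hb)]
    exact (isBoundedAtImInfty_zv ((adm_cuspVec hb).vmul γ)).smul _

section Expansion

variable (hodd : χ (-1) = -1)
include hodd

theorem char_ne_one : χ ≠ 1 := fun h => by
  rw [h, MulChar.one_apply isUnit_one.neg] at hodd
  norm_num at hodd

theorem inv_char_ne_one : χ⁻¹ ≠ 1 := fun h => char_ne_one hodd (inv_eq_one.1 h)

theorem eisGauss_ne_zero : eisGauss χ ≠ 0 := by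
  have : NeZero ℓ := ⟨(Fact.out : ℓ.Prime).ne_zero⟩
  exact gaussSum_ne_zero_of_nontrivial (by simp [NeZero.ne ℓ]) (inv_char_ne_one hodd)
    (ZMod.isPrimitive_stdAddChar ℓ)

theorem sum_inv_char_mul (m : ZMod ℓ) :
    ∑ b : ZMod ℓ, χ⁻¹ b * ZMod.stdAddChar (m * b) = χ m * eisGauss χ := by
  have : NeZero ℓ := ⟨(Fact.out : ℓ.Prime).ne_zero⟩
  rcases eq_or_ne m 0 with rfl | hm
  · simp only [zero_mul, AddChar.map_zero_eq_one, mul_one,
      MulChar.sum_eq_zero_of_ne_one (inv_char_ne_one hodd), MulChar.map_zero]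
  · have := gaussSum_mulShift_eq χ⁻¹ (ZMod.stdAddChar (N := ℓ)) (Units.mk0 m hm)
    rw [inv_inv] at this
    exact this

theorem const_eisChar :
    ∑ b : ZMod ℓ, χ⁻¹ b * constTerm ℓ 0 (ZMod.stdAddChar b) =
      (∑ a : ZMod ℓ, (a.val : ℂ) * χ a) * eisGauss χ / ℓ := by
  have : NeZero ℓ := ⟨(Fact.out : ℓ.Prime).ne_zero⟩
  have hℓ : (ℓ : ℂ) ≠ 0 := Nat.cast_ne_zero.2 (NeZero.ne ℓ)
  have hinv : ∀ b : ZMod ℓ, b ≠ 0 →
      (∑ a : ZMod ℓ, (a.val : ℂ) * ZMod.stdAddChar (a * b)) *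
        (1 - ZMod.stdAddChar b) = -(ℓ : ℂ) := by
    intro b hb
    have hsum : ∑ a : ZMod ℓ, ZMod.stdAddChar (a * b) = 0 := by
      rw [AddChar.sum_mulShift b (ZMod.isPrimitive_stdAddChar ℓ), if_neg hb, Nat.cast_zero]
    have hstep : (∑ a : ZMod ℓ, (a.val : ℂ) * ZMod.stdAddChar (a * b)) * ZMod.stdAddChar b
        = ∑ a : ZMod ℓ, ((a - 1).val : ℂ) * ZMod.stdAddChar (a * b) := by
      rw [Finset.sum_mul]
      refine Fintype.sum_equiv (Equiv.addRight 1) _ _ fun a => ?_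
      simp only [Equiv.coe_addRight, add_sub_cancel_right]
      rw [mul_assoc, ← AddChar.map_add_eq_mul, add_mul, one_mul]
    rw [mul_sub, mul_one, hstep, ← Finset.sum_sub_distrib]
    have : ∀ a : ZMod ℓ, (a.val : ℂ) * ZMod.stdAddChar (a * b) -
        ((a - 1).val : ℂ) * ZMod.stdAddChar (a * b) =
        ZMod.stdAddChar (a * b) - (if a = 0 then (ℓ : ℂ) else 0) := by
      intro a
      have : Fact (1 < ℓ) := ⟨(Fact.out : ℓ.Prime).one_lt⟩
      rcases eq_or_ne a 0 with rfl | ha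
      · have h1 : ((0 : ZMod ℓ) - 1).val = ℓ - 1 := by
          rw [zero_sub, ZMod.neg_val, if_neg one_ne_zero, ZMod.val_one]
        rw [h1, if_pos rfl, Nat.cast_sub (Fact.out : ℓ.Prime).one_le]
        simp
      · have h1 : (a - 1).val = a.val - 1 := by
          rw [ZMod.val_sub
            (by rw [ZMod.val_one]; exact Nat.one_le_iff_ne_zero.2 (by simpa using ha)),
            ZMod.val_one]
        rw [h1, if_neg ha, Nat.cast_sub (Nat.one_le_iff_ne_zero.2 (by simpa using ha))]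
        push_cast
        ring
    rw [Finset.sum_congr rfl fun a _ => this a, Finset.sum_sub_distrib, hsum]
    simp
  have hterm : ∀ b : ZMod ℓ, χ⁻¹ b * constTerm ℓ 0 (ZMod.stdAddChar b) = χ⁻¹ b * (1 / 2) +
      (∑ a : ZMod ℓ, (a.val : ℂ) * (χ⁻¹ b * ZMod.stdAddChar (a * b))) / ℓ := by
    intro b
    rcases eq_or_ne b 0 with rfl | hb
    · simp only [MulChar.map_zero, zero_mul, mul_zero, Finset.sum_const_zero, zero_div, add_zero]
    rw [constTerm, if_pos rfl]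
    have hne : (1 : ℂ) - ZMod.stdAddChar b ≠ 0 := fun h0 => by
      have := hinv b hb
      rw [h0, mul_zero, eq_comm, neg_eq_zero] at this
      exact hℓ this
    simp only [mul_left_comm _ (χ⁻¹ b), ← Finset.mul_sum]
    have e : (∑ a : ZMod ℓ, (a.val : ℂ) * ZMod.stdAddChar (a * b)) =
        -(ℓ : ℂ) / (1 - ZMod.stdAddChar b) := eq_div_of_mul_eq hne (hinv b hb)
    rw [e]
    field_simp
    ring
  rw [Finset.sum_congr rfl fun b _ => hterm b, Finset.sum_add_distrib, ← Finset.sum_mul,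
    MulChar.sum_eq_zero_of_ne_one (inv_char_ne_one hodd), zero_mul, zero_add, ← Finset.sum_div,
    Finset.sum_comm]
  simp only [← Finset.mul_sum, sum_inv_char_mul hodd]
  rw [Finset.sum_mul]
  simp only [mul_assoc]

theorem sum_zCoeff (N : ℕ) :
    (-(ℓ : ℂ) / eisGauss χ) * ∑ b : ZMod ℓ, χ⁻¹ b * zCoeff ℓ 0 (ZMod.stdAddChar b) N =
      if ℓ ∣ N then eisCoeff χ (N / ℓ) else 0 := by
  have : NeZero ℓ := ⟨(Fact.out : ℓ.Prime).ne_zero⟩
  have hG := eisGauss_ne_zero hodd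
  have hℓ : (ℓ : ℂ) ≠ 0 := Nat.cast_ne_zero.2 (NeZero.ne ℓ)
  rcases Nat.eq_zero_or_pos N with rfl | hN
  · simp only [zCoeff, if_true, const_eisChar hodd, dvd_zero, Nat.zero_div, eisCoeff]
    field_simp
  have e : ∑ b : ZMod ℓ, χ⁻¹ b * zCoeff ℓ 0 (ZMod.stdAddChar b) N =
      ∑ i ∈ N.divisors, if ℓ ∣ N / i then -2 * χ (i : ZMod ℓ) * eisGauss χ else 0 := by
    simp only [zCoeff, if_neg hN.ne', zCoeffPos, if_pos, Nat.sub_zero, tailCoeff,
      ← Finset.sum_sub_distrib, Finset.mul_sum]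
    rw [Finset.sum_comm, ← Nat.sum_divisorsAntidiagonal'
      (fun a b => if ℓ ∣ a then -2 * χ (b : ZMod ℓ) * eisGauss χ else 0)]
    refine Finset.sum_congr rfl fun x _ => ?_
    by_cases hx : ℓ ∣ x.1
    · simp only [hx, if_true, ZMod.natCast_self, (ZMod.natCast_eq_zero_iff x.1 ℓ).2 hx]
      have e1 : ∀ b : ZMod ℓ, (ZMod.stdAddChar b)⁻¹ ^ x.2 = ZMod.stdAddChar (-(x.2 : ZMod ℓ) * b) :=
        fun b => by
          rw [← AddChar.map_neg_eq_inv, ← AddChar.map_nsmul_eq_pow, nsmul_eq_mul]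
          congr 1
          ring
      have e2 : ∀ b : ZMod ℓ, ZMod.stdAddChar b ^ x.2 = ZMod.stdAddChar ((x.2 : ZMod ℓ) * b) :=
        fun b => by rw [← AddChar.map_nsmul_eq_pow, nsmul_eq_mul]
      simp only [e1, e2, mul_sub, Finset.sum_sub_distrib, sum_inv_char_mul hodd]
      rw [← neg_one_mul (x.2 : ZMod ℓ), map_mul, hodd]
      ring
    · have : (x.1 : ZMod ℓ) ≠ 0 := fun h0 => hx ((ZMod.natCast_eq_zero_iff x.1 ℓ).1 h0)
      simp [hx, this]
  rw [e, Finset.mul_sum]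
  by_cases hd : ℓ ∣ N
  · obtain ⟨n, rfl⟩ := hd
    have hn : 0 < n := Nat.pos_of_mul_pos_left hN
    rw [if_pos (dvd_mul_right ℓ n), Nat.mul_div_cancel_left _ (NeZero.pos ℓ), eisCoeff,
      if_neg hn.ne', Finset.mul_sum]
    symm
    refine Finset.sum_subset_zero_on_sdiff (Nat.divisors_subset_of_dvd hN.ne' (dvd_mul_left n ℓ))
      (fun i hi => ?_) (fun i hi => ?_)
    · rw [Finset.mem_sdiff, Nat.mem_divisors, Nat.mem_divisors] at hi
      rw [if_neg, mul_zero]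
      intro h
      refine hi.2 ⟨?_, hn.ne'⟩
      have := Nat.mul_dvd_of_dvd_div hi.1.1 h
      rw [mul_comm i ℓ] at this
      exact Nat.dvd_of_mul_dvd_mul_left (NeZero.pos ℓ) this
    · rw [if_pos (by
        obtain ⟨⟨c, rfl⟩, -⟩ := Nat.mem_divisors.1 hi
        rw [mul_left_comm, Nat.mul_div_cancel_left _ (Nat.pos_of_mul_pos_right hn)]
        exact dvd_mul_right ℓ c)]
      field_simp
  · rw [if_neg hd]
    refine Finset.sum_eq_zero fun i hi => ?_
    rw [if_neg, mul_zero]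
    exact fun h => hd (h.trans (Nat.div_dvd_of_dvd (Nat.mem_divisors.1 hi).1))

/-- **Expansion.** -/
theorem hasQ_eisChar : HasQ (eisChar χ) (eisCoeff χ) := by
  have : NeZero ℓ := ⟨(Fact.out : ℓ.Prime).ne_zero⟩
  intro τ
  have hb : ∀ b : ZMod ℓ, HasSum (fun N => χ⁻¹ b * zCoeff ℓ 0 (ZMod.stdAddChar b) N * qM ℓ τ ^ N)
      (χ⁻¹ b * zv (cuspVec b) τ) := by
    intro b
    rcases eq_or_ne b 0 with rfl | hb
    · simp only [MulChar.map_zero, zero_mul]
      exact hasSum_zero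
    have hz : ex (((b.val : ℤ) : ℂ) / ℓ) = ZMod.stdAddChar b := by
      conv_rhs => rw [← ZMod.natCast_zmod_val b, ← Int.cast_natCast, ZMod.stdAddChar_coe]
      rw [ex]
      congr 1
      ring
    have h := (hasSum_zv (M := ℓ) (i := 0) (j := (b.val : ℤ)) (NeZero.pos ℓ)
      (Or.inr fun hd => hb
        (by simpa using (ZMod.intCast_zmod_eq_zero_iff_dvd ((b.val : ℕ) : ℤ) ℓ).2 hd)) τ).mul_left
      (χ⁻¹ b)
    rw [hz] at h
    exact h.congr_fun fun N => mul_assoc _ _ _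
  have hsum := (hasSum_sum fun b (_ : b ∈ Finset.univ) => hb b).mul_left (-(ℓ : ℂ) / eisGauss χ)
  have hval : eisChar χ τ = (-(ℓ : ℂ) / eisGauss χ) * ∑ b : ZMod ℓ, χ⁻¹ b * zv (cuspVec b) τ := by
    simp [eisChar, Finset.sum_apply]
  rw [hval]
  have hcoef : ∀ N, (-(ℓ : ℂ) / eisGauss χ) * ∑ b : ZMod ℓ, χ⁻¹ b *
      zCoeff ℓ 0 (ZMod.stdAddChar b) N * qM ℓ τ ^ N =
      (if ℓ ∣ N then eisCoeff χ (N / ℓ) else 0) * qM ℓ τ ^ N := by
    intro N
    rw [← Finset.sum_mul, ← mul_assoc, sum_zCoeff hodd]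
  simp only [hcoef] at hsum
  have hinj : Function.Injective fun n : ℕ => ℓ * n := fun a b hab =>
    Nat.eq_of_mul_eq_mul_left (NeZero.pos ℓ) hab
  rw [← hinj.hasSum_iff fun N hN => by
    rw [if_neg, zero_mul]; rintro ⟨n, rfl⟩; exact hN ⟨n, rfl⟩] at hsum
  refine hsum.congr_fun fun n => ?_
  have hq : qM ℓ τ ^ (ℓ * n) = Function.Periodic.qParam 1 (τ : ℂ) ^ n := by
    rw [pow_mul, qM, ex, ← Complex.exp_nat_mul, Function.Periodic.qParam]
    congr 2
    have : (ℓ : ℂ) ≠ 0 := Nat.cast_ne_zero.2 (NeZero.ne ℓ)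
    push_cast
    field_simp
  simp [hq, Nat.mul_div_cancel_left _ (NeZero.pos ℓ)]

end Expansion

end Fermat.Agent.DeligneSerre
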