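import Fermat.Agent.DeligneSerre.CharUnit
import Fermat.Agent.LevelM.Twist

/-!
# Field automorphisms act on modular functions of level `±Γ(L)`

`FunTwist L σ c g g'`: the expansions of `g' ∘ γ'` are those of `g ∘ γ` with `σ` applied, whenever
`γ' ≡ D⁻¹ γ D (mod L)`.
-/

set_option autoImplicit false

noncomputable section

open Complex Filter Topology Function
open UpperHalfPlane hiding I
open scoped MatrixGroups Manifold ModularForm

namespace Fermat.Agent.DeligneSerre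

open Fermat.Agent.Igusa (HasExp QS mem_QS)
open Fermat.Agent.LevelM (sgnGamma liftHom TwistL ConjRel RootTwist IsFormOn)

local notation "Δf" => ModularForm.discriminant

/-- Modular functions of level `±Γ(L)`, holomorphic on `ℍ`. -/
abbrev IsFunOn (L : ℕ) (g : ℍ → ℂ) : Prop := IsCharFun (1 : sgnGamma L →* ℂˣ) g

/-- Compatible expansions at all cusps. -/
def FunTwist (L : ℕ) (σ : ℂ →+* ℂ) (c : ℤ) (g g' : ℍ → ℂ) : Prop :=
  ∀ γ γ' : SL(2, ℤ), ConjRel L c γ γ' → ∃ s : LaurentSeries ℂ,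
    HasExp L (fun τ => g (γ • τ)) s ∧
      HasExp L (fun τ => g' (γ' • τ)) (ModularCurve.coeffMap σ s)

variable {L : ℕ} [NeZero L] {σ : ℂ →+* ℂ} {c : ℤ}

omit [NeZero L] in
theorem hasExp_fun_unique {f g : ℍ → ℂ} {s : LaurentSeries ℂ} (hf : HasExp L f s)
    (hg : HasExp L g s) : f = g :=
  funext fun τ => (hf.2 τ).unique (hg.2 τ)

theorem IsCharFun.restrict {Γ Γ' : Subgroup SL(2, ℤ)} {χ : Γ →* ℂˣ} {f : ℍ → ℂ}
    (hf : IsCharFun χ f) (hle : Γ' ≤ Γ) : IsCharFun (χ.comp (Subgroup.inclusion hle)) f :=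
  ⟨hf.holo, fun γ τ => hf.map_smul (Subgroup.inclusion hle γ) τ, hf.bdd⟩

theorem discriminant_pow_slash (m : ℕ) (f : ℍ → ℂ) (γ : SL(2, ℤ)) :
    (fun τ => Δf τ ^ m * f τ) ∣[((12 * m : ℕ) : ℤ)] γ = fun τ => Δf τ ^ m * f (γ • τ) := by
  funext τ
  rw [ModularForm.SL_slash_apply]
  show Δf (γ • τ) ^ m * f (γ • τ) * _ = _
  rw [Igusa.discriminant_smul, mul_pow, ← pow_mul, zpow_neg, zpow_natCast]
  have := UpperHalfPlane.denom_ne_zero (γ : GL (Fin 2) ℝ) τ
  field_simp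

theorem hasExp_of_isQ_lift {f : ℍ → ℂ} (hf : MFCore.IsQ (liftHom L f)) (hd : MDiff f) :
    HasExp L f (HahnSeries.ofPowerSeries ℤ ℂ (MFCore.qExp (liftHom L f))) := by
  refine Igusa.hasExp_ofPowerSeries hd fun τ => ?_
  have h := UpperHalfPlane.hasSum_qExpansion one_pos (by simpa using hf.periodic) hf.holo hf.bdd
    ((ModularForm.heckeDiagMatrix L)⁻¹ • τ)
  rw [LevelM.liftHom_apply, MFCore.lift, smul_inv_smul] at h
  refine h.congr_fun fun n => ?_
  rw [smul_eq_mul, ← LevelM.qM_diag (L := L), smul_inv_smul, LevelM.qP_eq_qM]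
  rfl

omit [NeZero L] in
theorem IsFunOn.periodic {g : ℍ → ℂ} (hg : IsFunOn L g) (γ : SL(2, ℤ)) (τ : ℍ) :
    g (γ • ((L : ℝ) +ᵥ τ)) = g (γ • τ) := by
  have h : (L : ℝ) +ᵥ τ = (ModularGroup.T ^ (L : ℤ) : SL(2, ℤ)) • τ := by
    rw [modular_T_zpow_smul]; norm_cast
  rw [h, ← mul_smul, show γ * ModularGroup.T ^ (L : ℤ)
    = (γ * ModularGroup.T ^ (L : ℤ) * γ⁻¹) * γ by group, mul_smul]
  exact (hg.inv) _ (LevelM.conj_T_pow_mem γ) _

theorem IsFunOn.exists_hasExp {g : ℍ → ℂ} (hg : IsFunOn L g) (γ : SL(2, ℤ)) :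
    ∃ s, HasExp L (fun τ => g (γ • τ)) s := by
  obtain ⟨m, hm⟩ := hg.bdd
  exact DeligneSerre.exists_hasExp (hg.mdiff_smul γ) (hg.periodic γ) (hm γ)

theorem coeffMap_expand_deltaInv (σ : ℂ →+* ℂ) (m : ℕ) :
    ModularCurve.coeffMap σ (ModularCurve.qExpand ℂ L (Igusa.deltaInvR ℂ) ^ m)
      = ModularCurve.qExpand ℂ L (Igusa.deltaInvR ℂ) ^ m := by
  rw [map_pow, ModularCurve.coeffMap_qExpand, Igusa.coeffMap_deltaInvR]

/-- **Existence of the twist.** -/
theorem exists_funTwist (hL : 3 ≤ L) (hc : IsCoprime c (L : ℤ)) (hσ : RootTwist L σ c)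
    {g : ℍ → ℂ} (hg : IsFunOn L g) : ∃ g', IsFunOn L g' ∧ FunTwist L σ c g g' := by
  obtain ⟨m, hm⟩ := hg.bdd
  set F : ℍ → ℂ := fun τ => Δf τ ^ m * g τ with hF
  have hFform : IsFormOn (sgnGamma L) ((12 * m : ℕ) : ℤ) F := by
    refine ⟨(Igusa.hasExp_delta.1.pow m).mul hg.holo, fun γ hγ => ?_, fun γ => ?_⟩
    · rw [hF, discriminant_pow_slash]
      funext τ
      rw [hg.inv γ hγ]
    · rw [hF, discriminant_pow_slash]
      exact hm γ
  obtain ⟨F', hF', htw⟩ := LevelM.exists_twist_formOn hL hc hσ hFform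
  have hi : MDiff fun τ => ((Δf τ)⁻¹) ^ m := Igusa.hasExp_deltaInv.1.pow m
  set g' : ℍ → ℂ := fun τ => ((Δf τ)⁻¹) ^ m * F' τ with hg'
  have hsl : ∀ γ, F' ∣[((12 * m : ℕ) : ℤ)] γ = fun τ => Δf τ ^ m * g' (γ • τ) := fun γ => by
    rw [← discriminant_pow_slash]
    congr 1
    funext τ
    have := ModularForm.discriminant_ne_zero τ
    simp only [hg', inv_pow]
    field_simp
  refine ⟨g', ⟨hi.mul hF'.holo, fun γ τ => ?_, ⟨m, fun δ => by rw [← hsl δ]; exact hF'.bdd δ⟩⟩,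
    fun γ γ' hγ => ?_⟩
  · have h1 := congrFun ((hsl γ).symm.trans (hF'.slash _ γ.2)) τ
    have h2 : F' τ = Δf τ ^ m * g' τ := by
      have := congrFun (hsl 1) τ
      rwa [SlashAction.slash_one, one_smul] at this
    rw [h2] at h1
    simpa using mul_left_cancel₀ (pow_ne_zero m (ModularForm.discriminant_ne_zero τ)) h1
  · obtain ⟨hQ, hQ', hq⟩ := htw γ γ' hγ
    have hinv := LevelM.hasExp_expand (h := L) Igusa.hasExp_deltaInv L (one_mul L)
    have e1 := (mem_QS.1 (pow_mem (show ((fun τ => (Δf τ)⁻¹), _) ∈ QS L from hinv) m)).mul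
      (hasExp_of_isQ_lift hQ (MFCore.mdiff_slash_SL hFform.holo γ))
    have e2 := (mem_QS.1 (pow_mem (show ((fun τ => (Δf τ)⁻¹), _) ∈ QS L from hinv) m)).mul
      (hasExp_of_isQ_lift hQ' (MFCore.mdiff_slash_SL hF'.holo γ'))
    simp only [Prod.pow_fst, Prod.pow_snd] at e1 e2
    refine ⟨ModularCurve.qExpand ℂ L (Igusa.deltaInvR ℂ) ^ m *
      HahnSeries.ofPowerSeries ℤ ℂ (MFCore.qExp (liftHom L (F ∣[((12 * m : ℕ) : ℤ)] γ))), ?_, ?_⟩
    · convert e1 using 1
      funext τ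
      have := ModularForm.discriminant_ne_zero τ
      simp only [hF, discriminant_pow_slash, Pi.mul_apply, Pi.pow_apply, inv_pow]
      field_simp
    · rw [map_mul, coeffMap_expand_deltaInv, ModularCurve.coeffMap_ofPowerSeries, ← hq]
      convert e2 using 1
      funext τ
      have := ModularForm.discriminant_ne_zero τ
      simp only [hsl, Pi.mul_apply, Pi.pow_apply, inv_pow]
      field_simp

namespace FunTwist

variable {f g f' g' h : ℍ → ℂ}

theorem right_unique (hg : FunTwist L σ c f g) (hh : FunTwist L σ c f h) : g = h := by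
  obtain ⟨s, hs, hs'⟩ := hg 1 1 (ConjRel.one L c)
  obtain ⟨t, ht, ht'⟩ := hh 1 1 (ConjRel.one L c)
  rw [← hs.unique ht] at ht'
  have := hasExp_fun_unique hs' ht'
  simpa using this

omit [NeZero L] in
theorem const (a : ℂ) : FunTwist L σ c (fun _ => a) (fun _ => σ a) := fun γ γ' _ =>
  ⟨_, Igusa.hasExp_const L a, by rw [ModularCurve.coeffMap_single]; exact Igusa.hasExp_const L _⟩

omit [NeZero L] in
theorem one : FunTwist L σ c 1 1 := by
  have := const (L := L) (σ := σ) (c := c) 1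
  rw [map_one] at this
  exact this

omit [NeZero L] in
theorem add (hg : FunTwist L σ c f g) (hh : FunTwist L σ c f' g') :
    FunTwist L σ c (f + f') (g + g') := fun γ γ' hγ => by
  obtain ⟨s, hs, hs'⟩ := hg γ γ' hγ
  obtain ⟨t, ht, ht'⟩ := hh γ γ' hγ
  exact ⟨s + t, hs.add ht, by rw [map_add]; exact hs'.add ht'⟩

omit [NeZero L] in
theorem mul (hg : FunTwist L σ c f g) (hh : FunTwist L σ c f' g') :
    FunTwist L σ c (f * f') (g * g') := fun γ γ' hγ => by
  obtain ⟨s, hs, hs'⟩ := hg γ γ' hγ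
  obtain ⟨t, ht, ht'⟩ := hh γ γ' hγ
  exact ⟨s * t, hs.mul ht, by rw [map_mul]; exact hs'.mul ht'⟩

omit [NeZero L] in
theorem pow (hg : FunTwist L σ c f g) (n : ℕ) : FunTwist L σ c (f ^ n) (g ^ n) := by
  induction n with
  | zero => simpa using one (L := L) (σ := σ) (c := c)
  | succ n ih => rw [pow_succ, pow_succ]; exact ih.mul hg

omit [NeZero L] in
theorem sum {ι : Type*} (s : Finset ι) {F G : ι → ℍ → ℂ}
    (hs : ∀ i ∈ s, FunTwist L σ c (F i) (G i)) : FunTwist L σ c (∑ i ∈ s, F i) (∑ i ∈ s, G i) := by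
  classical
  induction s using Finset.induction_on with
  | empty =>
    have := const (L := L) (σ := σ) (c := c) 0
    simp only [map_zero] at this
    simpa [Pi.zero_def] using this
  | insert a s ha ih =>
    rw [Finset.sum_insert ha, Finset.sum_insert ha]
    exact (hs a (Finset.mem_insert_self a s)).add
      (ih fun i hi => hs i (Finset.mem_insert_of_mem hi))

omit [NeZero L] in
theorem comp (hg : FunTwist L σ c f g) {δ δ' : SL(2, ℤ)} (hδ : ConjRel L c δ δ') :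
    FunTwist L σ c (fun τ => f (δ • τ)) (fun τ => g (δ' • τ)) := fun γ γ' hγ => by
  obtain ⟨s, hs, hs'⟩ := hg (δ * γ) (δ' * γ') (hδ.mul hγ)
  exact ⟨s, by simpa [mul_smul] using hs, by simpa [mul_smul] using hs'⟩

/-- Twists inherit invariance. -/
theorem map_smul (hg : FunTwist L σ c f g) {δ δ' : SL(2, ℤ)} (hδ : ConjRel L c δ δ') {a : ℂ}
    (ha : ∀ τ, f (δ • τ) = a * f τ) (τ : ℍ) : g (δ' • τ) = σ a * g τ :=
  congrFun ((hg.comp hδ).right_unique
    (show FunTwist L σ c (fun τ => f (δ • τ)) (fun τ => σ a * g τ) by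
      rw [show (fun τ => f (δ • τ)) = fun τ => a * f τ from funext ha]
      exact (const a).mul hg)) τ

end FunTwist

omit [NeZero L] in
theorem conjRel_symm {c' : ℤ} (hcc : ((c * c' : ℤ) : ZMod L) = 1) {δ δ' : SL(2, ℤ)}
    (h : ConjRel L c' δ' δ) : ConjRel L c δ δ' := by
  obtain ⟨h00, h01, h10, h11⟩ := h
  push_cast at hcc
  refine ⟨h00.symm, ?_, ?_, h11.symm⟩
  · linear_combination (-(c : ZMod L)) * h01 - (δ' 0 1 : ZMod L) * hcc
  · linear_combination (-(c : ZMod L)) * h10 + (δ 1 0 : ZMod L) * hcc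

/-- Every element is related to some element on the left. -/
theorem exists_conjRel_left (hc : IsCoprime c (L : ℤ)) (δ' : SL(2, ℤ)) :
    ∃ δ, ConjRel L c δ δ' := by
  obtain ⟨u, w, huw⟩ := hc
  obtain ⟨δ, hδ⟩ := LevelM.exists_conjRel (L := L) (c := u) ⟨c, w, by linear_combination huw⟩ δ'
  refine ⟨δ, conjRel_symm ?_ hδ⟩
  have := congrArg (fun x : ℤ => (x : ZMod L)) huw
  push_cast at this ⊢
  rw [ZMod.natCast_self, mul_zero, add_zero] at this
  linear_combination this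

end Fermat.Agent.DeligneSerre
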