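import Fermat.Agent.DeligneSerre.Echelon
import Fermat.Agent.LevelOne.AutC
import Fermat.Agent.Gal.Places
import Fermat.Prelude.Def_GaloisRep_Residual

/-!
# The Galois action on `H¹`

Extending Galois elements to automorphisms of `ℂ` gives an action of the absolute Galois group of
`ℚ` on characters, hence a representation `rhoH` on `H¹` of finite level.
-/

set_option autoImplicit false

noncomputable section

open Function Polynomial
open UpperHalfPlane hiding I
open scoped MatrixGroups Manifold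

namespace Fermat.Agent.DeligneSerre

open Fermat.Agent.Igusa (HasExp QS mem_QS)
open Fermat.Agent.LevelM (RootTwist ex ConjRel)
open Fermat.Agent.GammaH (H1)

/-- The algebraic closure of `ℚ`. -/
local notation "ℚbar" => AlgebraicClosure ℚ
local notation "Γℚ" => (AlgebraicClosure ℚ ≃ₐ[ℚ] AlgebraicClosure ℚ)

/-- A fixed embedding. -/
def eQ : ℚbar →+* ℂ := (IsAlgClosed.lift : ℚbar →ₐ[ℚ] ℂ).toRingHom

theorem eQ_injective : Function.Injective eQ := eQ.injective

theorem exists_eQ_eq {z : ℂ} (hz : IsAlgebraic ℚ z) : ∃ x, eQ x = z := by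
  set P := minpoly ℚ z
  have hint := hz.isIntegral
  have hsplit : (P.map (algebraMap ℚ ℚbar)).Splits := IsAlgClosed.splits _
  have hroots : (P.map (algebraMap ℚ ℂ)).roots = (P.map (algebraMap ℚ ℚbar)).roots.map eQ := by
    rw [show algebraMap ℚ ℂ = eQ.comp (algebraMap ℚ ℚbar) from Subsingleton.elim _ _,
      ← Polynomial.map_map, hsplit.roots_map]
  have hz' : z ∈ (P.map (algebraMap ℚ ℂ)).roots := by
    rw [Polynomial.mem_roots ((minpoly.monic hint).map _).ne_zero, Polynomial.IsRoot.def,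
      Polynomial.eval_map, ← Polynomial.aeval_def]
    exact minpoly.aeval ℚ z
  rw [hroots, Multiset.mem_map] at hz'
  obtain ⟨x, -, hx⟩ := hz'
  exact ⟨x, hx⟩

theorem countable_qbar : Countable ℚbar := Cardinal.mk_le_aleph0_iff.mp
  ((Algebra.IsAlgebraic.cardinalMk_le_max ℚ ℚbar).trans (by simp))

theorem exists_liftC (g : Γℚ) : ∃ σ : ℂ ≃+* ℂ, ∀ x, σ (eQ x) = eQ (g x) := by
  have := countable_qbar
  exact LevelOne.exists_ringEquiv_complex_extending eQ (eQ.comp (g : ℚbar →+* ℚbar))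

/-- An extension of `g` to `ℂ`. -/
def liftC (g : Γℚ) : ℂ ≃+* ℂ := (exists_liftC g).choose

theorem liftC_apply (g : Γℚ) (x : ℚbar) : liftC g (eQ x) = eQ (g x) :=
  (exists_liftC g).choose_spec x

theorem isAlgebraic_of_finite_orbit {z : ℂ}
    (h : (Set.range fun σ : ℂ ≃+* ℂ => σ z).Finite) : IsAlgebraic ℚ z := by
  classical
  set s := h.toFinset
  set P : ℂ[X] := ∏ w ∈ s, (X - C w)
  have hfix : ∀ σ : ℂ ≃+* ℂ, P.map (σ : ℂ →+* ℂ) = P := by
    intro σ
    rw [Polynomial.map_prod]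
    simp only [Polynomial.map_sub, Polynomial.map_X, Polynomial.map_C]
    refine Finset.prod_equiv σ.toEquiv (fun w => ?_) fun w _ => rfl
    simp only [s, Set.Finite.mem_toFinset, Set.mem_range]
    constructor
    · rintro ⟨τ, rfl⟩
      exact ⟨τ.trans σ, rfl⟩
    · rintro ⟨τ, hτ⟩
      exact ⟨τ.trans σ.symm, σ.injective (by simpa using hτ)⟩
  have hrat : ∀ i, ∃ r : ℚ, (r : ℂ) = P.coeff i := fun i =>
    LevelOne.exists_rat_eq_of_forall_ringEquiv_fixed fun σ => by
      conv_rhs => rw [← hfix σ]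
      rw [Polynomial.coeff_map]
      rfl
  have hlift : P ∈ Polynomial.lifts (algebraMap ℚ ℂ) :=
    (Polynomial.lifts_iff_coeff_lifts P).2 fun i => by
      obtain ⟨r, hr⟩ := hrat i
      exact ⟨r, hr⟩
  obtain ⟨Q, hQ⟩ := (Polynomial.mem_lifts P).1 hlift
  refine ⟨Q, fun h0 => ?_, ?_⟩
  · have : P = 0 := by rw [← hQ, h0, Polynomial.map_zero]
    exact Finset.prod_ne_zero_iff.2 (fun w _ => X_sub_C_ne_zero w) this
  · rw [Polynomial.aeval_def, ← Polynomial.eval_map, hQ, Polynomial.eval_prod]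
    refine Finset.prod_eq_zero (i := z) ?_ (by simp)
    simpa [s] using ⟨RingEquiv.refl ℂ, rfl⟩

theorem coeffMap_eQ_injective :
    Function.Injective (ModularCurve.coeffMap eQ : LaurentSeries ℚbar → LaurentSeries ℂ) := by
  intro s t h
  ext k
  exact eQ.injective (by simpa using congrArg (fun x : LaurentSeries ℂ => x.coeff k) h)

theorem exists_qbar_series {S : LaurentSeries ℂ} (h : (orbitC S).Finite) :
    ∃ s : LaurentSeries ℚbar, ModularCurve.coeffMap eQ s = S := by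
  have halg : ∀ k, ∃ x, eQ x = S.coeff k := fun k => exists_eQ_eq <| isAlgebraic_of_finite_orbit <|
    (h.image fun T : LaurentSeries ℂ => T.coeff k).subset (by
      rintro _ ⟨σ, rfl⟩
      exact ⟨_, ⟨σ, rfl⟩, by simp⟩)
  choose x hx using halg
  refine ⟨⟨x, S.isPWO_support.mono fun k hk => ?_⟩, ?_⟩
  · rw [HahnSeries.mem_support, ← hx k]
    exact fun h0 => hk (eQ.injective (h0.trans (map_zero eQ).symm))
  · ext k
    simpa using hx k

/-- A series over `ℚbar` with finite orbit in `ℂ` has finite Galois orbit. -/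
theorem finite_orbit_qbar {s : LaurentSeries ℚbar}
    (h : (orbitC (ModularCurve.coeffMap eQ s)).Finite) :
    (Set.range fun g : Γℚ => ModularCurve.coeffMap (g : ℚbar →+* ℚbar) s).Finite := by
  refine Set.Finite.of_finite_image (f := ModularCurve.coeffMap eQ) (h.subset ?_)
    coeffMap_eQ_injective.injOn
  rintro _ ⟨_, ⟨g, rfl⟩, rfl⟩
  refine ⟨liftC g, ?_⟩
  ext k
  simp [liftC_apply]

theorem exists_field_fixing {s : LaurentSeries ℚbar}
    (h : (orbitC (ModularCurve.coeffMap eQ s)).Finite) :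
    ∃ F : IntermediateField ℚ ℚbar, FiniteDimensional ℚ F ∧
      ∀ g : Γℚ, (∀ x ∈ F, g x = x) → ModularCurve.coeffMap (g : ℚbar →+* ℚbar) s = s := by
  classical
  set O' := (finite_orbit_qbar h).toFinset
  have hsep : ∀ t : LaurentSeries ℚbar, ∃ i : ℤ, t ≠ s → t.coeff i ≠ s.coeff i := by
    intro t
    by_cases ht : t = s
    · exact ⟨0, fun h' => absurd ht h'⟩
    · obtain ⟨i, hi⟩ : ∃ i, t.coeff i ≠ s.coeff i := by
        by_contra hc
        push Not at hc
        exact ht (HahnSeries.ext (funext hc))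
      exact ⟨i, fun _ => hi⟩
  choose i hi using hsep
  set B : Finset ℚbar := O'.image fun t => s.coeff (i t)
  refine ⟨IntermediateField.adjoin ℚ (B : Set ℚbar), ?_, fun g hg => ?_⟩
  · exact IntermediateField.finiteDimensional_adjoin fun x _ =>
      (Algebra.IsAlgebraic.isAlgebraic x).isIntegral
  · by_contra hne
    refine hi _ hne ?_
    rw [ModularCurve.coeffMap_coeff]
    refine hg _ (IntermediateField.subset_adjoin _ _ ?_)
    simp only [B, O', Finset.coe_image, Set.Finite.coe_toFinset]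
    exact ⟨_, ⟨g, rfl⟩, rfl⟩

variable {M n : ℕ} [NeZero M] [Fact (5 ≤ M)] [Fact n.Prime]

omit [Fact (5 ≤ M)] in
theorem isAlgebraic_ex (b : ℤ) : IsAlgebraic ℚ (ex ((b : ℂ) / M)) := by
  have h : ex ((b : ℂ) / M) ^ M = 1 := by
    rw [ex, ← Complex.exp_nat_mul, Complex.exp_eq_one_iff]
    refine ⟨b, ?_⟩
    have : (M : ℂ) ≠ 0 := Nat.cast_ne_zero.2 (NeZero.ne M)
    field_simp
  exact IsAlgebraic.of_pow (NeZero.pos M) (h ▸ isAlgebraic_one)

theorem tw_eq_of_series {σ τ : ℂ →+* ℂ} {χ : Chr M n} {f : ℍ → ℂ} (hf : IsCharFun χ.toHom f)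
    (hf0 : f ≠ 0) {S : LaurentSeries ℂ} (hS : HasExp M f S)
    (hroot : ∀ b : ℤ, σ (ex ((b : ℂ) / M)) = τ (ex ((b : ℂ) / M)))
    (hS' : ModularCurve.coeffMap σ S = ModularCurve.coeffMap τ S) : tw σ χ = tw τ χ := by
  have hτ : RootTwist M τ (rootExp M σ) := fun b => by
    rw [← hroot b]
    exact rootTwist_rootExp σ b
  obtain ⟨H, hH, ht⟩ := tw_spec σ hf
  obtain ⟨H', hH', ht'⟩ := tw_spec τ hf
  obtain ⟨s, hs, hs'⟩ := ht 1 1 (ConjRel.one M _)
  obtain ⟨t, ht1, ht2⟩ := ht' 1 1 (ConjRel.one M _)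
  simp only [one_smul] at hs hs' ht1 ht2
  have e := mem_QS.1 (pow_mem (show (f, S) ∈ QS M from hS) n)
  simp only [Prod.pow_mk] at e
  rw [hs.unique e, map_pow, hS', ← map_pow] at hs'
  rw [ht1.unique e] at ht2
  exact chr_eq_of_pow_eq hH hH' (twist_ne_zero hf0 ht') (hasExp_fun_unique hs' ht2)

theorem tw_eq_of_agree {σ τ : ℂ →+* ℂ} (h : ∀ x, σ (eQ x) = τ (eQ x)) (χ : Chr M n) :
    tw σ χ = tw τ χ := by
  obtain ⟨r, f, hf, hf0, hcz, horb⟩ := exists_algFam χ
  obtain ⟨i, -⟩ := hcz UpperHalfPlane.I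
  obtain ⟨S, hS⟩ := (hf i).exists_ser 1
  obtain ⟨s, hs⟩ := exists_qbar_series (horb i 1 S hS)
  refine tw_eq_of_series (hf i) (hf0 i) (S := S) (by simpa using hS) (fun b => ?_) ?_
  · obtain ⟨x, hx⟩ := exists_eQ_eq (isAlgebraic_ex (M := M) b)
    rw [← hx, h x]
  · rw [← hs]
    ext k
    simp [h]

/-- The action on characters. -/
def twQ (g : Γℚ) (χ : Chr M n) : Chr M n := tw (liftC g : ℂ →+* ℂ) χ

theorem twQ_eq {g : Γℚ} {σ : ℂ →+* ℂ} (h : ∀ x, σ (eQ x) = eQ (g x)) (χ : Chr M n) :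
    twQ g χ = tw σ χ :=
  tw_eq_of_agree (fun x => by rw [h x, RingEquiv.coe_toRingHom, liftC_apply]) χ

theorem twQ_one (χ : Chr M n) : twQ 1 χ = χ :=
  (twQ_eq (σ := RingHom.id ℂ) (fun x => by simp) χ).trans (tw_id χ)

/-- The action on characters is multiplicative in the Galois element. -/
theorem twQ_mul (g h : Γℚ) (χ : Chr M n) : twQ (g * h) χ = twQ g (twQ h χ) := by
  rw [twQ_eq (σ := (liftC g : ℂ →+* ℂ).comp (liftC h : ℂ →+* ℂ)) (fun x => by
    simp [liftC_apply, AlgEquiv.mul_apply]) χ, tw_comp]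
  rfl

theorem twQ_mul_chr (g : Γℚ) (χ ψ : Chr M n) : twQ g (χ * ψ) = twQ g χ * twQ g ψ := tw_mul _ χ ψ

/-- The action on characters factors through a finite extension of `ℚ`. -/
theorem exists_field_twQ : ∃ L : IntermediateField ℚ ℚbar, FiniteDimensional ℚ L ∧
    ∀ g : Γℚ, (∀ x ∈ L, g x = x) → ∀ χ : Chr M n, twQ g χ = χ := by
  have : NeZero n := ⟨n_pos.ne'⟩
  have : Finite (Chr M n) := finite_chr
  choose r f hf hf0 hcz horb using fun χ : Chr M n => exists_algFam χ
  choose i hi using fun χ => hcz χ UpperHalfPlane.I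
  choose S hS using fun χ => (hf χ (i χ)).exists_ser 1
  choose s hs using fun χ => exists_qbar_series (horb χ (i χ) 1 (S χ) (hS χ))
  choose F hFfin hF using fun χ => exists_field_fixing (s := s χ)
    (by rw [hs χ]; exact horb χ (i χ) 1 (S χ) (hS χ))
  choose z hz using fun b : Fin M => exists_eQ_eq (isAlgebraic_ex (M := M) (b : ℤ))
  have : ∀ χ, FiniteDimensional ℚ (F χ) := hFfin
  have : FiniteDimensional ℚ (IntermediateField.adjoin ℚ (Set.range z)) :=
    IntermediateField.finiteDimensional_adjoin fun x _ =>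
      (Algebra.IsAlgebraic.isAlgebraic x).isIntegral
  refine ⟨(⨆ χ, F χ) ⊔ IntermediateField.adjoin ℚ (Set.range z), inferInstance, fun g hg χ => ?_⟩
  refine (tw_eq_of_series (σ := (liftC g : ℂ →+* ℂ)) (τ := RingHom.id ℂ) (hf χ (i χ)) (hf0 χ (i χ))
    (S := S χ) (by simpa using hS χ) (fun b => ?_) ?_).trans (tw_id χ)
  · have hb : ex ((b : ℂ) / M) = ex ((((b : ZMod M).val : ℤ) : ℂ) / M) := by
      obtain ⟨k, hk⟩ : (M : ℤ) ∣ b - ((b : ZMod M).val : ℤ) := by
        rw [← ZMod.intCast_zmod_eq_zero_iff_dvd]; simp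
      rw [ex, ex, Complex.exp_eq_exp_iff_exists_int]
      refine ⟨k, ?_⟩
      have hM : (M : ℂ) ≠ 0 := Nat.cast_ne_zero.2 (NeZero.ne M)
      have hk' : (b : ℂ) - (((b : ZMod M).val : ℤ) : ℂ) = M * k := by exact_mod_cast hk
      field_simp
      linear_combination hk'
    rw [hb, show (((b : ZMod M).val : ℤ) : ℂ) = (((⟨_, ZMod.val_lt (b : ZMod M)⟩ : Fin M) : ℕ) : ℤ)
      from rfl, ← hz, RingHom.id_apply, RingEquiv.coe_toRingHom, liftC_apply, hg]
    exact le_sup_right (a := ⨆ χ, F χ) (IntermediateField.subset_adjoin _ _ ⟨_, rfl⟩)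
  · rw [← hs χ]
    ext k
    have := congrArg (fun t : LaurentSeries ℚbar => t.coeff k)
      (hF χ g fun x hx => hg x (le_sup_left (b := IntermediateField.adjoin ℚ (Set.range z))
        (le_iSup F χ hx)))
    simp only [ModularCurve.coeffMap_coeff] at this
    simp only [ModularCurve.coeffMap_coeff, RingEquiv.coe_toRingHom, RingHom.id_apply, liftC_apply]
    exact congrArg eQ this

/-- The Galois action on classes, as a function. -/
def rhoFun (g : Γℚ) (φ : H1 M (pmOne M) (ZMod n) (ZMod n)) : H1 M (pmOne M) (ZMod n) (ZMod n) :=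
  haveI : NeZero n := ⟨n_pos.ne'⟩
  (chrEquiv M n).symm (twQ g (chrOf φ))

theorem chrOf_rhoFun [NeZero n] (g : Γℚ) (φ : H1 M (pmOne M) (ZMod n) (ZMod n)) :
    chrOf (rhoFun g φ) = twQ g (chrOf φ) :=
  (chrEquiv M n).apply_symm_apply _

/-- The Galois action on classes. -/
def rhoH (M n : ℕ) [NeZero M] [Fact (5 ≤ M)] [Fact n.Prime] :
    Γℚ →* Module.End (ZMod n) (H1 M (pmOne M) (ZMod n) (ZMod n)) :=
  haveI : NeZero n := ⟨n_pos.ne'⟩
  { toFun := fun g => AddMonoidHom.toZModLinearMap n (AddMonoidHom.mk' (rhoFun g) fun φ ψ =>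
      chrOf_injective (by rw [chrOf_rhoFun, chrOf_add, chrOf_add, chrOf_rhoFun, chrOf_rhoFun,
        twQ_mul_chr]))
    map_one' := LinearMap.ext fun φ => chrOf_injective (by
      show chrOf (rhoFun 1 φ) = chrOf φ
      rw [chrOf_rhoFun, twQ_one])
    map_mul' := fun g h => LinearMap.ext fun φ => chrOf_injective (by
      show chrOf (rhoFun (g * h) φ) = chrOf (rhoFun g (rhoFun h φ))
      rw [chrOf_rhoFun, chrOf_rhoFun, chrOf_rhoFun, twQ_mul]) }

theorem chrOf_rhoH [NeZero n] (g : Γℚ) (φ : H1 M (pmOne M) (ZMod n) (ZMod n)) :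
    chrOf (rhoH M n g φ) = twQ g (chrOf φ) := chrOf_rhoFun g φ

/-- **The Galois representation on classes has finite level.** -/
theorem rhoH_finiteLevel : GaloisFactorsThroughFiniteLevel (rhoH M n) := by
  have : NeZero n := ⟨n_pos.ne'⟩
  obtain ⟨L, hL, h⟩ := exists_field_twQ (M := M) (n := n)
  exact ⟨L, hL, fun g hg => LinearMap.ext fun φ => chrOf_injective (by
    rw [chrOf_rhoH, h g hg]; rfl)⟩

end Fermat.Agent.DeligneSerre
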