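import Fermat.Agent.DeligneSerre.GaloisAction
import Fermat.Agent.GammaH.Hecke
import Fermat.Agent.Kummer.IntComp

/-!
# Diamond and Hecke operators on characters; commutation with the Galois action

`chrD` and `chrT` are the diamond and Hecke operators read on characters; `T_p` is realised on
functions by the product over the Hecke representatives. Both commute with `rhoH`.
-/

set_option autoImplicit false

noncomputable section

open Filter Topology Function
open UpperHalfPlane hiding I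
open scoped MatrixGroups Manifold ModularForm OnePoint

namespace Fermat.Agent.DeligneSerre

open Fermat.Agent.Igusa (HasExp QS mem_QS affine twist)
open Fermat.Agent.LevelM (sgnGamma sgnGamma1 ConjRel RootTwist ex qP_ne_zero)
open Fermat.Agent.GammaH (GammaH H1 diamondH heckeTH deltaOf repT unitD)
open Fermat.Agent.Periods (toGLR)
open ModularForm (heckeMatrix heckeDiagMatrix)
open CongruenceSubgroup (Gamma0)

local notation "qP" => Function.Periodic.qParam
local notation "Δf" => ModularForm.discriminant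
local notation "Γℚ" => (AlgebraicClosure ℚ ≃ₐ[ℚ] AlgebraicClosure ℚ)

/-- An expansion at infinity bounds the poles. -/
theorem bdd_of_hasExp {h : ℕ} [NeZero h] {f : ℍ → ℂ} {S : LaurentSeries ℂ} (hS : HasExp h f S)
    {m : ℕ} (hm : 0 ≤ (m : ℤ) * h + S.order) :
    IsBoundedAtImInfty (fun τ => Δf τ ^ m * f τ) := by
  have hΔ := LevelM.hasExp_expand (h := h) Igusa.hasExp_delta h (one_mul h)
  set D := ModularCurve.qExpand ℂ h (Igusa.deltaR ℂ) with hD
  have hlow : ∀ k < (h : ℤ), D.coeff k = 0 := fun k hk => by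
    by_cases hd : (h : ℤ) ∣ k
    · obtain ⟨j, rfl⟩ := hd
      rw [hD, ModularCurve.qExpand_coeff_mul, Igusa.deltaR, HahnSeries.coeff_single_mul, one_mul]
      refine ModularCurve.ofPowerSeries_coeff_of_neg _ ?_
      by_contra hj
      push Not at hj
      nlinarith [(show (0 : ℤ) < h by exact_mod_cast NeZero.pos h)]
    · exact ModularCurve.qExpand_coeff_of_not_dvd _ _ hd
  have h1 := LevelM.tendsto_shift hΔ hlow
  have h2 := LevelM.tendsto_shift hS (m := S.order)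
    fun k hk => HahnSeries.coeff_eq_zero_of_lt_order hk
  obtain ⟨k, hk⟩ := Int.eq_ofNat_of_zero_le hm
  have hh : (0 : ℝ) < h := by exact_mod_cast NeZero.pos h
  have h3 := ((h1.pow m).mul h2).mul ((UpperHalfPlane.qParam_tendsto_atImInfty hh).pow k)
  refine ((h3.congr fun τ => ?_).isBigO_one ℝ : IsBoundedAtImInfty _)
  rw [mul_pow, ← zpow_natCast (qP (h : ℝ) (τ : ℂ) ^ (-(h : ℤ))), ← zpow_mul,
    ← zpow_natCast (qP (h : ℝ) (τ : ℂ)) k, ← hk, mul_mul_mul_comm, ← zpow_add₀ (qP_ne_zero τ),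
    mul_assoc, ← zpow_add₀ (qP_ne_zero τ),
    show -(h : ℤ) * m + -S.order + ((m : ℤ) * h + S.order) = 0 by ring, zpow_zero, mul_one]

variable {M n : ℕ} [NeZero M] [Fact (5 ≤ M)] [Fact n.Prime]

omit [Fact (5 ≤ M)] [Fact (Nat.Prime n)] in
theorem hasExp_smul_intMat {χ : Chr M n} {f : ℍ → ℂ} (hf : IsCharFun χ.toHom f)
    (α : GL (Fin 2) ℝ) {A : Matrix (Fin 2) (Fin 2) ℤ}
    (hα : (α : Matrix (Fin 2) (Fin 2) ℝ) = A.map (Int.cast : ℤ → ℝ)) {p : ℕ} [NeZero p]
    (hA : A.det = p) : ∃ T, HasExp (p * M) (fun τ => f (α • τ)) T := by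
  have hApos : 0 < A.det := by rw [hA]; exact_mod_cast NeZero.pos p
  obtain ⟨γ, a, b, d, ha, hd, had, hAeq⟩ := Kummer.MeroH.exists_sl_mul_upper A hApos
  lift a to ℕ using ha.le
  lift d to ℕ using hd.le
  have : NeZero a := ⟨by omega⟩
  have : NeZero d := ⟨by omega⟩
  have had' : a * d = p := by exact_mod_cast had.trans hA
  obtain ⟨S, hS⟩ := hf.exists_ser γ
  have hact : ∀ τ : ℍ, α • τ = γ • affine a b d τ := by
    intro τ
    have hdet : 0 < α.det.val := by
      rw [Matrix.GeneralLinearGroup.val_det_apply, hα]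
      rw [← Int.cast_det]
      exact_mod_cast hApos
    apply UpperHalfPlane.ext
    rw [UpperHalfPlane.coe_smul_of_det_pos hdet, Kummer.Poincare.coe_smul_apply,
      Igusa.coe_affine]
    simp only [UpperHalfPlane.num, UpperHalfPlane.denom, hα]
    rw [hAeq]
    have hd0 : (d : ℂ) ≠ 0 := Nat.cast_ne_zero.2 (NeZero.ne d)
    simp [Matrix.mul_apply, Fin.sum_univ_two]
    rw [mul_div_assoc', mul_div_assoc', div_add' _ _ _ hd0, div_add' _ _ _ hd0,
      div_div_div_cancel_right₀ hd0]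
    congr 1 <;> ring
  set c : ℂˣ := Units.mk0 (Complex.exp (2 * Real.pi * Complex.I * b / (d * M)))
    (Complex.exp_ne_zero _)
  have : NeZero (a * a) := ⟨mul_ne_zero (NeZero.ne a) (NeZero.ne a)⟩
  have h := hS.comp_affine a b d (H := p * M) (a * a) c fun τ => by
    simp only [Function.Periodic.qParam, c, Units.val_mk0, ← Complex.exp_nat_mul,
      ← Complex.exp_add, Igusa.coe_affine, ← had', Nat.cast_mul]
    congr 1
    have h1 : (a : ℂ) ≠ 0 := Nat.cast_ne_zero.2 (NeZero.ne a)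
    have h2 : (d : ℂ) ≠ 0 := Nat.cast_ne_zero.2 (NeZero.ne d)
    have h3 : (M : ℂ) ≠ 0 := Nat.cast_ne_zero.2 (NeZero.ne M)
    push_cast
    field_simp
    ring
  exact ⟨_, by rw [show (fun τ => f (α • τ)) = (fun τ => f (γ • τ)) ∘ affine a b d from
    funext fun τ => by rw [Function.comp_apply, hact τ]]; exact h⟩

/-! ## Diamond operators -/

variable [NeZero n]

/-- The diamond operator on characters. -/
def chrD (u : (ZMod M)ˣ) (χ : Chr M n) : Chr M n :=
  chrOf (diamondH (ZMod n) (ZMod n) u ((chrEquiv M n).symm χ))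

omit [Fact (5 ≤ M)] in
theorem chrOf_diamondH (u : (ZMod M)ˣ) (φ : H1 M (pmOne M) (ZMod n) (ZMod n)) :
    chrOf (diamondH (ZMod n) (ZMod n) u φ) = chrD u (chrOf φ) := by
  rw [chrD, show chrOf φ = chrEquiv M n φ from rfl, Equiv.symm_apply_apply]

omit [NeZero M] [Fact (5 ≤ M)] in
theorem conj_mem (δ : Gamma0 M) (γ : sgnGamma1 M) :
    (δ : SL(2, ℤ)) * γ * (δ : SL(2, ℤ))⁻¹ ∈ sgnGamma1 M :=
  mem_gammaH_iff.1 (GammaH.conj_mem_GammaH δ.2 (mem_gammaH_iff.2 γ.2))

omit [Fact (5 ≤ M)] in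
theorem chrD_apply (u : (ZMod M)ˣ) (χ : Chr M n) (γ : sgnGamma1 M) :
    (chrD u χ).toHom γ = χ.toHom ⟨_, conj_mem (deltaOf M u) γ⟩ := by
  obtain ⟨φ, rfl⟩ := (chrEquiv M n).surjective χ
  rw [chrD, Equiv.symm_apply_apply, show (chrEquiv M n φ) = chrOf φ from rfl, chrOf_apply,
    chrOf_apply]
  congr 2
  rw [diamondH, GammaH.coe_transferPE,
    Periods.IsCosetFamily.transfer_apply_of_eq _ _ _ id
      (fun _ => ⟨_, GammaH.conj_mem_GammaH (deltaOf M u).2 (mem_gammaH_iff.2 γ.2)⟩) (fun _ => by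
        simp only [toGLR, ← map_mul]
        congr 1
        simp)]
  simp

omit [Fact (5 ≤ M)] in
theorem IsCharFun.comp_gamma0 {χ : Chr M n} {f : ℍ → ℂ} (hf : IsCharFun χ.toHom f)
    (δ : Gamma0 M) :
    IsCharFun (chrD (unitD M δ) χ).toHom (fun τ => f ((δ : SL(2, ℤ)) • τ)) := by
  have key : ∀ u, IsCharFun (chrD u χ).toHom (fun τ => f ((deltaOf M u : SL(2, ℤ)) • τ)) := by
    intro u
    refine ⟨hf.mdiff_smul _, fun γ τ => ?_, ?_⟩
    · rw [chrD_apply, ← hf.map_smul ⟨_, conj_mem (deltaOf M u) γ⟩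
        ((deltaOf M u : SL(2, ℤ)) • τ), ← mul_smul, ← mul_smul, inv_mul_cancel_right]
    · obtain ⟨m, hm⟩ := hf.bdd
      exact ⟨m, fun δ₁ => by simpa [mul_smul] using hm ((deltaOf M u : SL(2, ℤ)) * δ₁)⟩
  obtain ⟨g, hg⟩ := GammaH.eq_mul_of_unitD_eq (H := pmOne M) δ (deltaOf M (unitD M δ))
    (GammaH.unitD_deltaOf _).symm
  convert (key (unitD M δ)).smul (((χ.toHom ⟨(g : SL(2, ℤ)), mem_gammaH_iff.1 g.2⟩ : ℂˣ) : ℂ))
    using 1
  funext τ
  rw [Pi.smul_apply, smul_eq_mul, hg, mul_smul]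
  exact hf.map_smul ⟨(g : SL(2, ℤ)), mem_gammaH_iff.1 g.2⟩ _

omit [Fact (5 ≤ M)] in
theorem unitD_eq_of_conjRel {c : ℤ} {δ δ' : SL(2, ℤ)} (hc : IsCoprime c (M : ℤ))
    (h : ConjRel M c δ δ') (hδ : δ ∈ Gamma0 M) :
    ∃ hδ' : δ' ∈ Gamma0 M, unitD M ⟨δ', hδ'⟩ = unitD M ⟨δ, hδ⟩ := by
  obtain ⟨-, -, h10, h11⟩ := h
  have hu : IsUnit (c : ZMod M) := by
    obtain ⟨u, w, huw⟩ := hc
    have := congrArg (fun x : ℤ => (x : ZMod M)) huw
    push_cast at this
    rw [ZMod.natCast_self, mul_zero, add_zero] at this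
    exact IsUnit.of_mul_eq_one_right _ this
  rw [CongruenceSubgroup.Gamma0_mem] at hδ
  rw [hδ, IsUnit.mul_right_eq_zero hu] at h10
  exact ⟨CongruenceSubgroup.Gamma0_mem.2 h10, Units.ext h11⟩

theorem twQ_chrD (g : Γℚ) (u : (ZMod M)ˣ) (χ : Chr M n) :
    twQ g (chrD u χ) = chrD u (twQ g χ) := by
  obtain ⟨f, hf, hf0⟩ := exists_ne_zero_charFun χ
  obtain ⟨H, hH, ht⟩ := tw_spec (liftC g : ℂ →+* ℂ) hf
  obtain ⟨δ', hδ'⟩ := LevelM.exists_conjRel (isCoprime_rootExp (M := M) (liftC g : ℂ →+* ℂ))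
    (deltaOf M u : SL(2, ℤ))
  obtain ⟨hmem, hu⟩ := unitD_eq_of_conjRel (isCoprime_rootExp _) hδ' (deltaOf M u).2
  have h1 := hf.comp_gamma0 (deltaOf M u)
  have h2 := hH.comp_gamma0 ⟨δ', hmem⟩
  rw [GammaH.unitD_deltaOf] at h1
  rw [hu, show (⟨_, (deltaOf M u).2⟩ : Gamma0 M) = deltaOf M u from rfl,
    GammaH.unitD_deltaOf] at h2
  refine (tw_unique h1 (fun h0 => hf0 (funext fun τ => ?_)) (rootTwist_rootExp _) h2 ?_).symm
  · simpa using congrFun h0 ((deltaOf M u : SL(2, ℤ))⁻¹ • τ)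
  · exact ht.comp hδ'

/-- **The Galois action commutes with the diamond operators.** -/
theorem commute_diamondH (g : Γℚ) (u : (ZMod M)ˣ) :
    Commute (rhoH M n g) (diamondH (ZMod n) (ZMod n) u) :=
  LinearMap.ext fun φ => chrOf_injective (by
    rw [Module.End.mul_apply, Module.End.mul_apply, chrOf_rhoH, chrOf_diamondH, chrOf_diamondH,
      chrOf_rhoH, twQ_chrD])

/-! ## Hecke operators -/

variable {p : ℕ} (hp : p.Prime) (hpM : ¬ p ∣ M)

/-- `T_p` on characters. -/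
def chrT (χ : Chr M n) : Chr M n :=
  chrOf (heckeTH (ZMod n) (ZMod n) hp hpM ((chrEquiv M n).symm χ))

omit [Fact (5 ≤ M)] in
theorem chrOf_heckeTH (φ : H1 M (pmOne M) (ZMod n) (ZMod n)) :
    chrOf (heckeTH (ZMod n) (ZMod n) hp hpM φ) = chrT hp hpM (chrOf φ) := by
  rw [chrT, show chrOf φ = chrEquiv M n φ from rfl, Equiv.symm_apply_apply]

/-- The product of `f` over the Hecke representatives. -/
def heckeProd (f : ℍ → ℂ) (τ : ℍ) : ℂ :=
  haveI : NeZero p := ⟨hp.ne_zero⟩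
  ∏ x : OnePoint (ZMod p), f (repT (N := M) hp hpM x • τ)

omit [Fact (5 ≤ M)] in
theorem det_repT [NeZero p] (x : OnePoint (ZMod p)) :
    ((repT (N := M) hp hpM x : GL (Fin 2) ℝ) : Matrix (Fin 2) (Fin 2) ℝ).det = p := by
  rw [repT, Units.val_mul, Matrix.det_mul]
  have h1 : ((toGLR (GammaH.corrT (N := M) hp hpM x : SL(2, ℤ)) : GL (Fin 2) ℝ) :
      Matrix (Fin 2) (Fin 2) ℝ).det = 1 := by
    show (((GammaH.corrT (N := M) hp hpM x : SL(2, ℤ)) : Matrix (Fin 2) (Fin 2) ℤ).map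
      (Int.cast : ℤ → ℝ)).det = 1
    rw [← Int.cast_det, (GammaH.corrT (N := M) hp hpM x : SL(2, ℤ)).2, Int.cast_one]
  rw [h1, one_mul]
  induction x using OnePoint.rec with
  | infty =>
    show ((heckeDiagMatrix p : GL (Fin 2) ℝ) : Matrix (Fin 2) (Fin 2) ℝ).det = _
    rw [ModularForm.val_heckeDiagMatrix hp.ne_zero]
    simp [Matrix.det_fin_two]
  | coe j =>
    show ((heckeMatrix p j.val : GL (Fin 2) ℝ) : Matrix (Fin 2) (Fin 2) ℝ).det = _
    rw [ModularForm.val_heckeMatrix hp.ne_zero]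
    simp [Matrix.det_fin_two]

omit [Fact (5 ≤ M)] in
theorem exists_repT_int [NeZero p] (x : OnePoint (ZMod p)) (δ : SL(2, ℤ)) :
    ∃ A : Matrix (Fin 2) (Fin 2) ℤ, A.det = p ∧
      ((repT (N := M) hp hpM x * toGLR δ : GL (Fin 2) ℝ) : Matrix (Fin 2) (Fin 2) ℝ)
        = A.map (Int.cast : ℤ → ℝ) := by
  obtain ⟨A, hA, -, -⟩ := GammaH.exists_int_repT (N := M) hp hpM x
  refine ⟨A * δ, ?_, ?_⟩
  · rw [Matrix.det_mul, δ.2, mul_one]
    have h := det_repT (M := M) hp hpM x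
    rw [hA] at h
    change (A.map (Int.cast : ℤ → ℝ)).det = _ at h
    rw [← Int.cast_det] at h
    exact_mod_cast h
  · rw [Units.val_mul, hA]
    ext i j
    simp [toGLR, Matrix.mul_apply]

omit [Fact (5 ≤ M)] in
theorem heckeProd_smul {χ : Chr M n} {f : ℍ → ℂ} (hf : IsCharFun χ.toHom f) (γ : sgnGamma1 M)
    (τ : ℍ) : heckeProd hp hpM f ((γ : SL(2, ℤ)) • τ)
      = (((chrT hp hpM χ).toHom γ : ℂˣ) : ℂ) * heckeProd hp hpM f τ := by
  have : NeZero p := ⟨hp.ne_zero⟩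
  obtain ⟨φ, rfl⟩ := (chrEquiv M n).surjective χ
  set hF := GammaH.isCosetFamily_T (H := pmOne M) hp hpM
  set g : GammaH M (pmOne M) := ⟨(γ : SL(2, ℤ)), mem_gammaH_iff.2 γ.2⟩
  have e : ((chrT hp hpM (chrEquiv M n φ)).toHom γ : ℂˣ) =
      ∏ x, (chrOf φ).toHom ⟨(hF.cocycle g x : SL(2, ℤ)), mem_gammaH_iff.1 (hF.cocycle g x).2⟩ := by
    rw [chrT, Equiv.symm_apply_apply, chrOf_apply]
    simp only [chrOf_apply]
    rw [← map_prod, ← ofAdd_sum]
    rfl
  rw [e, Units.coe_prod]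
  simp only [heckeProd]
  rw [← Equiv.prod_comp (hF.perm g) (fun x => f (repT (N := M) hp hpM x • τ)),
    ← Finset.prod_mul_distrib]
  refine Finset.prod_congr rfl fun x _ => ?_
  have h1 := congrArg (· • τ) (hF.mul_eq g x)
  simp only [mul_smul] at h1
  exact ((congrArg f h1).trans
    (hf.map_smul ⟨(hF.cocycle g x : SL(2, ℤ)), mem_gammaH_iff.1 (hF.cocycle g x).2⟩ _))

omit [Fact (5 ≤ M)] in
theorem IsCharFun.heckeProd_isCharFun {χ : Chr M n} {f : ℍ → ℂ} (hf : IsCharFun χ.toHom f) :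
    IsCharFun (chrT hp hpM χ).toHom (heckeProd hp hpM f) := by
  classical
  have : NeZero p := ⟨hp.ne_zero⟩
  refine ⟨?_, fun γ τ => heckeProd_smul hp hpM hf γ τ, ?_⟩
  · have : heckeProd (M := M) hp hpM f
        = ∏ x : OnePoint (ZMod p), fun τ => f (repT (N := M) hp hpM x • τ) :=
      funext fun τ => by rw [Finset.prod_apply]; rfl
    rw [this]
    refine MDifferentiable.prod fun x _ => hf.holo.comp (mdifferentiable_smul ?_)
    rw [Matrix.GeneralLinearGroup.val_det_apply, det_repT]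
    exact_mod_cast hp.pos
  · have : Fintype (SL(2, ℤ) ⧸ sgnGamma1 M) := Subgroup.fintypeQuotientOfFiniteIndex
    have hser : ∀ δ : SL(2, ℤ), ∃ T,
        HasExp (p * M) (fun τ => heckeProd (M := M) hp hpM f (δ • τ)) T := by
      intro δ
      choose A hAd hA using fun x => exists_repT_int (M := M) hp hpM x δ
      choose T hT using fun x => hasExp_smul_intMat hf _ (hA x) (hAd x)
      refine ⟨∏ x, T x, ?_⟩
      have h2 := mem_QS.1 (Subring.prod_mem (QS (p * M)) (t := Finset.univ) fun x _ =>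
        (show ((fun τ => f ((repT (N := M) hp hpM x * toGLR δ) • τ)), T x) ∈ QS (p * M)
          from hT x))
      rw [Prod.fst_prod, Prod.snd_prod] at h2
      convert h2 using 1
      funext τ
      rw [Finset.prod_apply]
      simp only [heckeProd, mul_smul]
      rfl
    choose T hT using fun q : SL(2, ℤ) ⧸ sgnGamma1 M => hser q.out⁻¹
    refine ⟨∑ q, ((T q).order).natAbs, fun δ => ?_⟩
    set q : SL(2, ℤ) ⧸ sgnGamma1 M := QuotientGroup.mk δ⁻¹ with hq
    have hmem : δ * q.out ∈ sgnGamma1 M := by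
      have := QuotientGroup.eq.1 (QuotientGroup.out_eq' q).symm
      rwa [inv_inv] at this
    have hm : (0 : ℤ) ≤ ((∑ q, ((T q).order).natAbs : ℕ) : ℤ) * ((p * M : ℕ) : ℤ)
        + (T q).order := by
      have h1 : ((T q).order).natAbs ≤ ∑ q, ((T q).order).natAbs :=
        Finset.single_le_sum (f := fun q => ((T q).order).natAbs) (fun _ _ => Nat.zero_le _)
          (Finset.mem_univ q)
      have h2 : (1 : ℤ) ≤ ((p * M : ℕ) : ℤ) := by exact_mod_cast NeZero.pos (p * M)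
      have h3 : -(T q).order ≤ ((∑ q, ((T q).order).natAbs : ℕ) : ℤ) := by omega
      nlinarith [Int.natCast_nonneg (∑ q, ((T q).order).natAbs)]
    have hb := (bdd_of_hasExp (hT q) hm).const_mul_left
      (((chrT hp hpM χ).toHom ⟨_, hmem⟩ : ℂˣ) : ℂ)
    refine hb.congr' (Eventually.of_forall fun τ => ?_) EventuallyEq.rfl
    dsimp only
    rw [show δ • τ = (δ * q.out) • q.out⁻¹ • τ by rw [← mul_smul, mul_inv_cancel_right],
      heckeProd_smul hp hpM hf ⟨_, hmem⟩]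
    ring

omit [Fact (5 ≤ M)] in
theorem heckeProd_pow {f : ℍ → ℂ} (k : ℕ) :
    heckeProd (M := M) hp hpM (f ^ k) = heckeProd (M := M) hp hpM f ^ k := by
  funext τ
  simp [heckeProd, Finset.prod_pow]

omit [Fact (5 ≤ M)] in
theorem heckeProd_ne_zero {f : ℍ → ℂ} (hf : MDiff f) (hf0 : f ≠ 0) :
    heckeProd (M := M) hp hpM f ≠ 0 := by
  have : NeZero p := ⟨hp.ne_zero⟩
  have : heckeProd (M := M) hp hpM f
      = ∏ x : OnePoint (ZMod p), fun τ => f (repT (N := M) hp hpM x • τ) :=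
    funext fun τ => by rw [Finset.prod_apply]; rfl
  have hm : ∀ x ∈ (Finset.univ : Finset (OnePoint (ZMod p))),
      MDiff (fun τ => f (repT (N := M) hp hpM x • τ)) := fun x _ =>
        hf.comp (mdifferentiable_smul (by
    rw [Matrix.GeneralLinearGroup.val_det_apply, det_repT]; exact_mod_cast hp.pos))
  rw [this, Ne, UpperHalfPlane.prod_eq_zero_iff hm]
  rintro ⟨x, -, hx⟩
  refine hf0 (funext fun τ => ?_)
  simpa using congrFun hx ((repT (N := M) hp hpM x)⁻¹ • τ)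

omit [Fact (5 ≤ M)] in
theorem repT_coe_smul [NeZero p] (j : ZMod p) (τ : ℍ) :
    repT (N := M) hp hpM (j : OnePoint (ZMod p)) • τ = affine 1 (j.val : ℤ) p τ := by
  apply UpperHalfPlane.ext
  have hv := ModularForm.val_heckeMatrix hp.ne_zero (j := j.val)
  rw [GammaH.repT_coe, UpperHalfPlane.coe_smul_of_det_pos (by
    rw [Matrix.GeneralLinearGroup.val_det_apply, hv]
    simp [Matrix.det_fin_two]
    exact hp.pos), Igusa.coe_affine]
  simp only [UpperHalfPlane.num, UpperHalfPlane.denom, hv]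
  simp [-ZMod.natCast_val]

omit [Fact (5 ≤ M)] in
theorem repT_infty_smul [NeZero p] (τ : ℍ) :
    repT (N := M) hp hpM ∞ • τ
      = (deltaOf M (GammaH.primeUnit hp hpM) : SL(2, ℤ)) • affine p 0 1 τ := by
  have hv := ModularForm.val_heckeDiagMatrix hp.ne_zero
  have e : heckeDiagMatrix p • τ = affine p 0 1 τ := by
    apply UpperHalfPlane.ext
    rw [UpperHalfPlane.coe_smul_of_det_pos (by
      rw [Matrix.GeneralLinearGroup.val_det_apply, hv]
      simp [Matrix.det_fin_two]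
      exact hp.pos), Igusa.coe_affine]
    simp only [UpperHalfPlane.num, UpperHalfPlane.denom, hv]
    simp
  rw [GammaH.repT_infty, mul_smul, e]
  rfl

omit [Fact (5 ≤ M)] in
theorem heckeProd_eq [NeZero p] (f : ℍ → ℂ) (τ : ℍ) :
    heckeProd (M := M) hp hpM f τ =
      f ((deltaOf M (GammaH.primeUnit hp hpM) : SL(2, ℤ)) • affine p 0 1 τ) *
        ∏ j : ZMod p, f (affine 1 (j.val : ℤ) p τ) := by
  show ∏ x : OnePoint (ZMod p), f (repT (N := M) hp hpM x • τ) = _
  rw [← repT_infty_smul hp hpM τ]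
  refine (Fintype.prod_option _).trans ?_
  exact congrArg₂ (· * ·) rfl (Finset.prod_congr rfl fun j _ =>
    congrArg f (repT_coe_smul hp hpM j τ))

omit [Fact (5 ≤ M)] in
theorem twist_heckeProd {σ : ℂ →+* ℂ} {G G' : ℍ → ℂ}
    (_hG : IsCharFun (1 : sgnGamma1 M →* ℂˣ) G) (hG' : IsCharFun (1 : sgnGamma1 M →* ℂˣ) G')
    (ht : FunTwist M σ (rootExp M σ) G G') {T : ℍ → ℂ}
    (hT : FunTwist M σ (rootExp M σ) (heckeProd (M := M) hp hpM G) T) :
    T = heckeProd (M := M) hp hpM G' := by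
  classical
  have : NeZero p := ⟨hp.ne_zero⟩
  have : NeZero (p * p) := ⟨mul_ne_zero hp.ne_zero hp.ne_zero⟩
  set h := p * M with hh
  obtain ⟨c, hc, hσ⟩ := LevelM.exists_rootTwist h σ
  have hσM : RootTwist M σ c := fun b => by
    have e : ∀ x : ℤ, ex ((x : ℂ) / M) = ex (((p * x : ℤ) : ℂ) / h) := fun x => by
      rw [hh]; push_cast
      rw [mul_div_mul_left _ _ (Nat.cast_ne_zero.2 hp.ne_zero)]
    rw [e b, hσ, e (c * b), mul_left_comm]
  have hcM : IsCoprime c (M : ℤ) := by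
    rw [hh] at hc; push_cast at hc
    exact hc.of_mul_right_right
  have hcp : IsCoprime c (p : ℤ) := by
    rw [hh] at hc; push_cast at hc
    exact hc.of_mul_right_left
  have hrel := RootTwist.cast_eq (rootTwist_rootExp (M := M) σ) hσM
  have ht' := ht.congr_exp hrel
  have hT' := hT.congr_exp hrel
  set δ := (deltaOf M (GammaH.primeUnit hp hpM) : SL(2, ℤ)) with hδ
  obtain ⟨δ', hδ'⟩ := LevelM.exists_conjRel (L := M) hcM δ
  have hG'δ : ∀ τ, G' (δ' • τ) = G' (δ • τ) := by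
    obtain ⟨hmem, hu⟩ := unitD_eq_of_conjRel hcM hδ' (deltaOf M (GammaH.primeUnit hp hpM)).2
    obtain ⟨g, hg⟩ := GammaH.eq_mul_of_unitD_eq (H := pmOne M) ⟨δ', hmem⟩ _ hu
    intro τ
    rw [show δ' = (g : SL(2, ℤ)) * δ from hg, mul_smul]
    exact hG'.inv _ (mem_gammaH_iff.1 g.2) _
  -- the factor at infinity
  obtain ⟨s, hs, hs'⟩ := ht' δ δ' hδ'
  have hqI : ∀ τ : ℍ, qP (M : ℝ) (affine p 0 1 τ : ℂ)
      = ((1 : ℂˣ) : ℂ) * qP (h : ℝ) τ ^ (p * p) := fun τ => by
    simp only [Function.Periodic.qParam, Igusa.coe_affine, Units.val_one, one_mul,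
      ← Complex.exp_nat_mul, hh]
    congr 1
    have h3 : (M : ℂ) ≠ 0 := Nat.cast_ne_zero.2 (NeZero.ne M)
    have h4 : (p : ℂ) ≠ 0 := Nat.cast_ne_zero.2 hp.ne_zero
    push_cast
    field_simp
    ring
  have eI := hs.comp_affine p 0 1 (H := h) (p * p) 1 hqI
  have eI' := hs'.comp_affine p 0 1 (H := h) (p * p) 1 hqI
  -- the other factors
  obtain ⟨u, hu, hu'⟩ := ht' 1 1 (ConjRel.one M c)
  simp only [one_smul] at hu hu'
  set z : ℤ → ℂˣ := fun j => Units.mk0 (ex ((j : ℂ) / h)) (Complex.exp_ne_zero _)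
  have hqj : ∀ (j : ℤ) (τ : ℍ), qP (M : ℝ) (affine 1 j p τ : ℂ)
      = (z j : ℂ) * qP (h : ℝ) τ ^ 1 := fun j τ => by
    simp only [Function.Periodic.qParam, Igusa.coe_affine, z, Units.val_mk0, ex, pow_one,
      ← Complex.exp_add, hh]
    congr 1
    have h3 : (M : ℂ) ≠ 0 := Nat.cast_ne_zero.2 (NeZero.ne M)
    have h4 : (p : ℂ) ≠ 0 := Nat.cast_ne_zero.2 hp.ne_zero
    push_cast
    field_simp
    ring
  have ej := fun j : ℤ => hu.comp_affine 1 j p (H := h) 1 (z j) (hqj j)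
  have ej' := fun j : ℤ => hu'.comp_affine 1 j p (H := h) 1 (z j) (hqj j)
  have hz : ∀ j, Units.map (σ : ℂ →* ℂ) (z j) = z (c * j) := fun j => Units.ext (hσ j)
  have hperm : ∀ τ : ℍ, ∏ j : ZMod p, G' (affine 1 (c * (j.val : ℤ)) p τ)
      = ∏ j : ZMod p, G' (affine 1 (j.val : ℤ) p τ) := by
    intro τ
    have hu : IsUnit (c : ZMod p) := by
      obtain ⟨x, y, hxy⟩ := hcp
      have := congrArg (fun x : ℤ => (x : ZMod p)) hxy
      push_cast at this
      rw [ZMod.natCast_self, mul_zero, add_zero] at this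
      exact IsUnit.of_mul_eq_one_right _ this
    refine Fintype.prod_bijective (fun j : ZMod p => (c : ZMod p) * j)
      (IsUnit.isUnit_iff_mulLeft_bijective.1 hu) _ _ fun j => ?_
    obtain ⟨t, ht⟩ : (p : ℤ) ∣ c * (j.val : ℤ) - (((c : ZMod p) * j).val : ℤ) := by
      rw [← ZMod.intCast_zmod_eq_zero_iff_dvd]; simp
    have e : affine 1 (c * (j.val : ℤ)) p τ
        = (ModularGroup.T ^ t : SL(2, ℤ)) • affine 1 (((c : ZMod p) * j).val : ℤ) p τ := by
      rw [modular_T_zpow_smul]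
      apply UpperHalfPlane.ext
      rw [UpperHalfPlane.coe_vadd, Igusa.coe_affine, Igusa.coe_affine]
      have h4 : (p : ℂ) ≠ 0 := Nat.cast_ne_zero.2 hp.ne_zero
      have ht' : (c : ℂ) * (j.val : ℂ) - ((((c : ZMod p) * j).val : ℕ) : ℂ) = p * t := by
        exact_mod_cast ht
      push_cast
      field_simp
      linear_combination ht'
    rw [e]
    refine hG'.inv _ ?_ _
    exact mem_sgnGamma1_iff_zmod.2 (Or.inl (by simp [ModularGroup.coe_T_zpow]))
  -- assemble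
  set P := (ModularCurve.qExpand ℂ (p * p) (twist 1 s)) *
    ∏ j : ZMod p, ModularCurve.qExpand ℂ 1 (twist (z (j.val : ℤ)) u) with hP
  have hNG : HasExp h (heckeProd (M := M) hp hpM G) P := by
    have h2 := mem_QS.1 (Subring.prod_mem (QS h) (t := Finset.univ) fun (j : ZMod p) _ =>
      (show (_, _) ∈ QS h from ej (j.val : ℤ)))
    rw [Prod.fst_prod, Prod.snd_prod] at h2
    convert eI.mul h2 using 1
    funext τ
    rw [heckeProd_eq, Pi.mul_apply, Finset.prod_apply]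
    rfl
  have hNG' : HasExp h (heckeProd (M := M) hp hpM G') (ModularCurve.coeffMap σ P) := by
    have h2 := mem_QS.1 (Subring.prod_mem (QS h) (t := Finset.univ) fun (j : ZMod p) _ =>
      (show (_, _) ∈ QS h from ej' (c * (j.val : ℤ))))
    rw [Prod.fst_prod, Prod.snd_prod] at h2
    convert eI'.mul h2 using 1
    · funext τ
      rw [heckeProd_eq, Pi.mul_apply, Finset.prod_apply]
      simp only [Function.comp_apply]
      rw [hperm, hG'δ]
    · rw [hP, map_mul, map_prod, ModularCurve.coeffMap_qExpand, Igusa.coeffMap_twist, map_one]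
      refine congrArg _ (Finset.prod_congr rfl fun j _ => ?_)
      rw [ModularCurve.coeffMap_qExpand, Igusa.coeffMap_twist, hz]
  obtain ⟨t, ht1, ht2⟩ := hT' 1 1 (ConjRel.one M c)
  simp only [one_smul] at ht1 ht2
  have f1 := LevelM.hasExp_expand (h := h) ht1 p (by rw [hh, mul_comm])
  have f2 := LevelM.hasExp_expand (h := h) ht2 p (by rw [hh, mul_comm])
  refine hasExp_fun_unique f2 ?_
  rw [← ModularCurve.coeffMap_qExpand, f1.unique hNG]
  exact hNG'

/-- The Galois action commutes with `T_p` on characters. -/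
theorem twQ_chrT (g : Γℚ) (χ : Chr M n) : twQ g (chrT hp hpM χ) = chrT hp hpM (twQ g χ) := by
  obtain ⟨f, hf, hf0⟩ := exists_ne_zero_charFun χ
  obtain ⟨H, hH, ht⟩ := tw_spec (liftC g : ℂ →+* ℂ) hf
  have hN := hf.heckeProd_isCharFun hp hpM
  refine (tw_unique hN (heckeProd_ne_zero hp hpM hf.holo hf0) (rootTwist_rootExp _)
    (hH.heckeProd_isCharFun hp hpM) ?_).symm
  obtain ⟨T, -, hT⟩ := exists_twist_invariant (M := M) five_le_M (isCoprime_rootExp _)
    (rootTwist_rootExp (liftC g : ℂ →+* ℂ)) (charFun_pow_one hN)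
  rw [← heckeProd_pow] at hT ⊢
  rw [← heckeProd_pow (f := H),
    ← twist_heckeProd hp hpM (charFun_pow_one hf) (charFun_pow_one hH) ht hT]
  exact hT

/-- **The Galois action commutes with `T_p`.** -/
theorem commute_heckeTH (g : Γℚ) :
    Commute (rhoH M n g) (heckeTH (ZMod n) (ZMod n) hp hpM) :=
  LinearMap.ext fun φ => chrOf_injective (by
    rw [Module.End.mul_apply, Module.End.mul_apply, chrOf_rhoH, chrOf_heckeTH, chrOf_heckeTH,
      chrOf_rhoH, twQ_chrT])

end Fermat.Agent.DeligneSerre
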