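import Mathlib
import Fermat.Prelude.Def_FLTPrelim_Modularity

/-!
# The mean square of the coefficients of a cusp form of weight one

Bessel's inequality on the horizontal line at height `1/X` gives
`∑_{n ≤ X} |a_n|² = O(X)`, hence `∑_n |a_n|² n⁻ˢ = O(1/(s-1))`.
-/

set_option autoImplicit false

noncomputable section

open Complex MeasureTheory Finset
open scoped Manifold MatrixGroups ComplexConjugate Real UpperHalfPlane

namespace Fermat.Agent.DeligneSerre

local notation "𝕢" => Function.Periodic.qParam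

theorem integral_exp_two_pi_int (m : ℤ) :
    ∫ u in (0 : ℝ)..1, cexp (2 * π * I * m * u) = if m = 0 then 1 else 0 := by
  rcases eq_or_ne m 0 with rfl | hm
  · simp
  rw [if_neg hm]
  have hc : (2 * π * I * m : ℂ) ≠ 0 := by
    simp [Real.pi_ne_zero, hm, Complex.I_ne_zero]
  rw [integral_exp_mul_complex hc]
  simp [show (2 * π * I * m : ℂ) = m * (2 * π * I) by ring, Complex.exp_int_mul_two_pi_mul_I]

/-- Bessel's inequality for the exponentials `u ↦ exp (2 π i n u)`. -/
theorem sum_normSq_integral_le {g : ℝ → ℂ} (hg : Continuous g) (S : Finset ℕ) :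
    ∑ n ∈ S, normSq (∫ u in (0 : ℝ)..1, cexp (-(2 * π * I * n * u)) * g u) ≤
      ∫ u in (0 : ℝ)..1, normSq (g u) := by
  set c : ℕ → ℂ := fun n => ∫ u in (0 : ℝ)..1, cexp (-(2 * π * I * n * u)) * g u with hc
  set P : ℝ → ℂ := fun u => ∑ n ∈ S, c n * cexp (2 * π * I * n * u) with hP
  have hPc : Continuous P := by simp only [hP]; fun_prop
  have hconjP : ∀ u : ℝ, conj (P u) = ∑ n ∈ S, conj (c n) * cexp (-(2 * π * I * n * u)) := by
    intro u
    simp only [hP, map_sum, map_mul, ← Complex.exp_conj]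
    refine Finset.sum_congr rfl fun n _ => ?_
    simp [Complex.conj_ofReal, map_ofNat]
  have h1 : ∫ u in (0 : ℝ)..1, g u * conj (P u) = ∑ n ∈ S, ((normSq (c n) : ℝ) : ℂ) := by
    simp only [hconjP, Finset.mul_sum]
    rw [intervalIntegral.integral_finsetSum fun n _ =>
      (by fun_prop : Continuous _).intervalIntegrable _ _]
    refine Finset.sum_congr rfl fun n _ => ?_
    rw [show (fun u : ℝ => g u * (conj (c n) * cexp (-(2 * π * I * n * u)))) =
      fun u : ℝ => conj (c n) * (cexp (-(2 * π * I * n * u)) * g u) from funext fun u => by ring,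
      intervalIntegral.integral_const_mul, Complex.normSq_eq_conj_mul_self]
  have h2 : ∫ u in (0 : ℝ)..1, P u * conj (P u) = ∑ n ∈ S, ((normSq (c n) : ℝ) : ℂ) := by
    simp only [hconjP, Finset.mul_sum]
    rw [intervalIntegral.integral_finsetSum fun n _ =>
      (by fun_prop : Continuous _).intervalIntegrable _ _]
    refine Finset.sum_congr rfl fun n hn => ?_
    simp only [hP, Finset.sum_mul]
    rw [intervalIntegral.integral_finsetSum fun m _ =>
      (by fun_prop : Continuous _).intervalIntegrable _ _]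
    have : ∀ m ∈ S, ∫ u in (0 : ℝ)..1, c m * cexp (2 * π * I * m * u) *
        (conj (c n) * cexp (-(2 * π * I * n * u))) =
        if m = n then ((normSq (c n) : ℝ) : ℂ) else 0 := by
      intro m _
      rw [show (fun u : ℝ => c m * cexp (2 * π * I * m * u) *
          (conj (c n) * cexp (-(2 * π * I * n * u)))) =
          fun u : ℝ => c m * conj (c n) * cexp (2 * π * I * ((m : ℤ) - n : ℤ) * u) from
        funext fun u => by
          rw [show c m * cexp (2 * π * I * m * u) * (conj (c n) * cexp (-(2 * π * I * n * u))) =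
            c m * conj (c n) * (cexp (2 * π * I * m * u) * cexp (-(2 * π * I * n * u))) by ring,
            ← Complex.exp_add]
          push_cast
          ring_nf,
        intervalIntegral.integral_const_mul, integral_exp_two_pi_int]
      rcases eq_or_ne m n with rfl | hmn
      · simp [Complex.mul_conj]
      · rw [if_neg hmn, if_neg (by omega), mul_zero]
    rw [Finset.sum_congr rfl this, Finset.sum_ite_eq' S n, if_pos hn]
  have key : (0 : ℝ) ≤ ∫ u in (0 : ℝ)..1, normSq (g u - P u) :=
    intervalIntegral.integral_nonneg zero_le_one fun u _ => normSq_nonneg _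
  have hexp : ∀ u : ℝ, normSq (g u - P u) =
      normSq (g u) - 2 * (g u * conj (P u)).re + (P u * conj (P u)).re := fun u => by
    rw [Complex.normSq_sub, Complex.mul_conj, Complex.ofReal_re]
    ring
  simp only [hexp] at key
  have hre : ∀ {F : ℝ → ℂ}, Continuous F →
      ∫ u in (0 : ℝ)..1, (F u).re = (∫ u in (0 : ℝ)..1, F u).re := fun {F} hF =>
    Complex.reCLM.intervalIntegral_comp_comm (hF.intervalIntegrable _ _)
  rw [intervalIntegral.integral_add
      ((by fun_prop : Continuous _).intervalIntegrable _ _)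
      ((by fun_prop : Continuous _).intervalIntegrable _ _),
    intervalIntegral.integral_sub
      ((by fun_prop : Continuous _).intervalIntegrable _ _)
      ((by fun_prop : Continuous _).intervalIntegrable _ _),
    intervalIntegral.integral_const_mul, hre (by fun_prop), hre (by fun_prop), h1, h2,
    ← Complex.ofReal_sum, Complex.ofReal_re] at key
  linarith

/-- `∑_{n ≤ X} |a_n|² = O(X)` for a periodic function with `|f τ| = O((Im τ)^(-1/2))`. -/
theorem exists_sum_normSq_qCoeff_le_of_bound {f : ℍ → ℂ}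
    (hper : Function.Periodic (f ∘ UpperHalfPlane.ofComplex) (1 : ℂ))
    (hhol : MDifferentiable 𝓘(ℂ) 𝓘(ℂ) f) (hbdd : UpperHalfPlane.IsBoundedAtImInfty f)
    {C : ℝ} (hC : ∀ τ : ℍ, ‖f τ‖ ≤ C / Real.sqrt τ.im) :
    ∃ K : ℝ, ∀ X : ℕ, ∑ n ∈ Finset.Icc 1 X, normSq (ModularFormClass.qCoeff f n) ≤ K * X := by
  refine ⟨Real.exp (4 * π) * C ^ 2, fun X => ?_⟩
  rcases Nat.eq_zero_or_pos X with rfl | hX
  · simp
  have hXr : (0 : ℝ) < X := by exact_mod_cast hX
  set t : ℝ := 1 / X with ht
  have htpos : 0 < t := by positivity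
  let z : ℝ → ℍ := fun u => ⟨u + t * I, by simpa using htpos⟩
  have hz : Continuous z := by
    rw [UpperHalfPlane.isEmbedding_coe.isInducing.continuous_iff]
    exact (by fun_prop : Continuous fun u : ℝ => (u : ℂ) + t * I)
  set g : ℝ → ℂ := fun u => f (z u) with hg
  have hgc : Continuous g := hhol.continuous.comp hz
  have hcoeff : ∀ n : ℕ, ModularFormClass.qCoeff f n * cexp (-(2 * π * n * t)) =
      ∫ u in (0 : ℝ)..1, cexp (-(2 * π * I * n * u)) * g u := by
    intro n
    rw [ModularFormClass.qCoeff, UpperHalfPlane.qExpansion_coeff_eq_intervalIntegral one_pos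
      (by simpa using hper) hhol hbdd n htpos, Complex.ofReal_one, div_one, one_mul,
      ← intervalIntegral.integral_mul_const]
    refine intervalIntegral.integral_congr fun u _ => ?_
    simp only [Function.Periodic.qParam, hg, z, Complex.ofReal_one, div_one]
    rw [← Complex.exp_nat_mul, one_div, ← Complex.exp_neg, mul_right_comm, ← Complex.exp_add]
    simp only [UpperHalfPlane.coe_I]
    congr 2
    linear_combination (-(2 * π * n * t) : ℂ) * Complex.I_sq
  have hbess := sum_normSq_integral_le hgc (Finset.Icc 1 X)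
  have hup : ∫ u in (0 : ℝ)..1, normSq (g u) ≤ C ^ 2 * X := by
    have hb : ∀ u ∈ Set.Icc (0 : ℝ) 1, normSq (g u) ≤ C ^ 2 * X := by
      intro u _
      have him : (z u).im = t := by simp [z, ← UpperHalfPlane.coe_im]
      have h := hC (z u)
      rw [him] at h
      calc normSq (g u) = ‖f (z u)‖ ^ 2 := Complex.normSq_eq_norm_sq _
        _ ≤ (C / Real.sqrt t) ^ 2 := pow_le_pow_left₀ (norm_nonneg _) h 2
        _ = C ^ 2 * X := by rw [div_pow, Real.sq_sqrt htpos.le, ht]; field_simp
    calc ∫ u in (0 : ℝ)..1, normSq (g u) ≤ ∫ _ in (0 : ℝ)..1, C ^ 2 * X :=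
          intervalIntegral.integral_mono_on zero_le_one
            ((by fun_prop : Continuous _).intervalIntegrable _ _) intervalIntegrable_const hb
      _ = C ^ 2 * X := by simp
  have hlow : ∀ n ∈ Finset.Icc 1 X, Real.exp (-(4 * π)) * normSq (ModularFormClass.qCoeff f n) ≤
      normSq (∫ u in (0 : ℝ)..1, cexp (-(2 * π * I * n * u)) * g u) := by
    intro n hn
    have hnX : (n : ℝ) ≤ X := by exact_mod_cast (Finset.mem_Icc.1 hn).2
    rw [← hcoeff n, map_mul, mul_comm]
    refine mul_le_mul_of_nonneg_left ?_ (normSq_nonneg _)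
    rw [show (-(2 * π * n * t) : ℂ) = ((-(2 * π * n * t) : ℝ) : ℂ) by push_cast; ring,
      ← Complex.ofReal_exp, Complex.normSq_ofReal, ← Real.exp_add, Real.exp_le_exp]
    have : (n : ℝ) * t ≤ 1 := by rw [ht, mul_one_div]; exact (div_le_one hXr).2 hnX
    nlinarith [Real.pi_pos]
  have h3 := (Finset.sum_le_sum hlow).trans (hbess.trans hup)
  rw [← Finset.mul_sum, Real.exp_neg, inv_mul_le_iff₀ (Real.exp_pos _)] at h3
  calc _ ≤ _ := h3
    _ = _ := by ring

theorem one_sub_half_rpow_ge {t : ℝ} (h0 : 0 < t) (h1 : t ≤ 1) :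
    t / 2 ≤ 1 - (1 / 2 : ℝ) ^ t := by
  have h := rpow_one_add_le_one_add_mul_self (s := (-1 / 2 : ℝ)) (by norm_num) h0.le h1
  norm_num at h ⊢
  linarith

/-- From `∑_{n ≤ X} b_n ≤ K X` we get `∑ b_n n⁻ˢ ≤ 4 K / (s - 1)`. -/
theorem sum_mul_rpow_neg_le {b : ℕ → ℝ} (hb : ∀ n, 0 ≤ b n) {K : ℝ}
    (hK : ∀ X : ℕ, ∑ n ∈ Finset.Icc 1 X, b n ≤ K * X) {s : ℝ} (hs : 1 < s) (hs2 : s ≤ 2)
    (S : Finset ℕ) (hS : 0 ∉ S) :
    ∑ n ∈ S, b n * (n : ℝ) ^ (-s) ≤ 4 * K / (s - 1) := by
  have hK0 : 0 ≤ K := by simpa using (Finset.sum_nonneg fun n _ => hb n).trans (hK 1)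
  set q : ℝ := (1 / 2 : ℝ) ^ (s - 1) with hq
  have hq0 : 0 ≤ q := Real.rpow_nonneg (by norm_num) _
  have hq1 : q < 1 := Real.rpow_lt_one (by norm_num) (by norm_num) (by linarith)
  set J := S.sup (fun n => Nat.log 2 n) + 1
  have hblock : ∀ j : ℕ, ∑ n ∈ S.filter (fun n => Nat.log 2 n = j), b n * (n : ℝ) ^ (-s) ≤
      2 * K * q ^ j := by
    intro j
    calc ∑ n ∈ S.filter (fun n => Nat.log 2 n = j), b n * (n : ℝ) ^ (-s)
        ≤ ∑ n ∈ S.filter (fun n => Nat.log 2 n = j), b n * ((2 : ℝ) ^ j) ^ (-s) := by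
          refine Finset.sum_le_sum fun n hn => mul_le_mul_of_nonneg_left ?_ (hb n)
          obtain ⟨hnS, rfl⟩ := Finset.mem_filter.1 hn
          refine Real.rpow_le_rpow_of_nonpos (by positivity) ?_ (by linarith)
          exact_mod_cast Nat.pow_log_le_self 2 (fun h : n = 0 => hS (h ▸ hnS))
      _ ≤ (K * ((2 : ℕ) ^ (j + 1) : ℕ)) * ((2 : ℝ) ^ j) ^ (-s) := by
          rw [← Finset.sum_mul]
          refine mul_le_mul_of_nonneg_right ?_ (by positivity)
          refine le_trans (Finset.sum_le_sum_of_subset_of_nonneg ?_ fun n _ _ => hb n)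
            (hK (2 ^ (j + 1)))
          intro n hn
          obtain ⟨hnS, rfl⟩ := Finset.mem_filter.1 hn
          exact Finset.mem_Icc.2 ⟨Nat.one_le_iff_ne_zero.2 fun h => hS (h ▸ hnS),
            (Nat.lt_pow_succ_log_self one_lt_two n).le⟩
      _ = 2 * K * q ^ j := by
          have h2 : ((2 : ℝ) ^ j) ^ (-s) = ((2 : ℝ) ^ j)⁻¹ * q ^ j := by
            rw [hq, ← Real.rpow_natCast 2 j, ← Real.rpow_natCast _ j,
              ← Real.rpow_mul (by norm_num), ← Real.rpow_mul (by norm_num),
              ← Real.rpow_neg (by norm_num), one_div, Real.inv_rpow (by norm_num),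
              ← Real.rpow_neg (by norm_num), ← Real.rpow_add (by norm_num)]
            congr 1
            ring
          rw [h2]
          push_cast
          rw [pow_succ]
          field_simp
  calc ∑ n ∈ S, b n * (n : ℝ) ^ (-s)
      = ∑ j ∈ Finset.range J, ∑ n ∈ S.filter (fun n => Nat.log 2 n = j), b n * (n : ℝ) ^ (-s) :=
        (Finset.sum_fiberwise_of_maps_to (fun n hn => Finset.mem_range.2
          (Nat.lt_succ_of_le (Finset.le_sup (f := fun n => Nat.log 2 n) hn))) _).symm
    _ ≤ ∑ j ∈ Finset.range J, 2 * K * q ^ j := Finset.sum_le_sum fun j _ => hblock j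
    _ ≤ 4 * K / (s - 1) := by
        rw [← Finset.mul_sum, geom_sum_eq hq1.ne, ← neg_div_neg_eq, neg_sub, neg_sub]
        have hg := one_sub_half_rpow_ge (t := s - 1) (by linarith) (by linarith)
        calc 2 * K * ((1 - q ^ J) / (1 - q)) ≤ 2 * K * (1 / ((s - 1) / 2)) := by
              refine mul_le_mul_of_nonneg_left ?_ (by positivity)
              exact div_le_div₀ zero_le_one (by linarith [pow_nonneg hq0 J]) (by linarith) hg
          _ = 4 * K / (s - 1) := by field_simp; ring

end Fermat.Agent.DeligneSerre
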