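import Fermat.Agent.DeligneSerre.Local.Main
import Fermat.Agent.DeligneSerre.Algebra.Basic

/-!
# The mod `l` representation of an eigenclass

The classes with given eigenvalues of the diamond and Hecke operators form a Galois module on which
the congruence relation becomes the quadratic relation for Frobenius elements.
-/

set_option autoImplicit false

noncomputable section

open scoped MatrixGroups

namespace Fermat.Agent.DeligneSerre

open Fermat.Agent.GammaH (H1 diamondH heckeTH primeUnit)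

local notation "ℚbar" => AlgebraicClosure ℚ
local notation "Γℚ" => (AlgebraicClosure ℚ ≃ₐ[ℚ] AlgebraicClosure ℚ)

/-- The cyclotomic character modulo `N`. -/
def cycN (N : ℕ) [NeZero N] : Γℚ →* (ZMod N)ˣ :=
  (modularCyclotomicCharacter ℚbar
      (HasEnoughRootsOfUnity.natCard_rootsOfUnity ℚbar N)).comp
    { toFun := fun σ => (σ : ℚbar ≃+* ℚbar), map_one' := rfl, map_mul' := fun _ _ => rfl }

theorem cycN_eq {N : ℕ} [NeZero N] {σ : Γℚ} {c : ZMod N}
    (h : ∀ t : ℚbar, t ^ N = 1 → σ t = t ^ c.val) : (cycN N σ : ZMod N) = c :=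
  (modularCyclotomicCharacter.unique ℚbar _ _ fun t ht =>
    h t (by rw [← Units.val_pow_eq_pow_val, (mem_rootsOfUnity N t).mp ht, Units.val_one])).symm

theorem cycN_frobenius {N : ℕ} [NeZero N] {p : ℕ} (hp : p.Prime) (hpN : ¬ p ∣ N)
    {A : ValuationSubring ℚbar} (hA : A.LiesOverPrime p) {τ : Γℚ} (hτ : A.IsFrobeniusAt τ p) :
    (cycN N τ : ZMod N) = (p : ZMod N) := by
  refine cycN_eq fun t ht => ?_
  rw [Gal.apply_rootOfUnity_of_isFrobeniusAt hτ hp hA hpN ht, ZMod.val_natCast]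
  exact pow_eq_pow_mod p ht

theorem cycN_inertia {N : ℕ} [NeZero N] {p : ℕ} (hp : p.Prime) (hpN : ¬ p ∣ N)
    {A : ValuationSubring ℚbar} (hA : A.LiesOverPrime p) {σ : Γℚ}
    (hσ : σ ∈ A.inertiaSubgroupIn ℚ) : cycN N σ = 1 := by
  obtain ⟨φ, hφ⟩ := Gal.exists_isFrobeniusAt hp hA
  have h1 := cycN_frobenius (N := N) hp hpN hA hφ
  have h2 := cycN_frobenius (N := N) hp hpN hA (Gal.isFrobeniusAt_mul_inertia hφ hσ)
  rw [← h1, map_mul, Units.val_mul] at h2
  exact Units.ext ((cycN N φ).isUnit.mul_eq_left.1 h2)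

theorem cycN_level (N : ℕ) [NeZero N] : GaloisFactorsThroughFiniteLevel (cycN N) := by
  let Z : Set ℚbar := {t | t ^ N = 1}
  have : Finite Z := by
    refine ((Polynomial.nthRootsFinset N (1 : ℚbar)).finite_toSet.subset fun t ht => ?_).to_subtype
    simpa [Z, Polynomial.mem_nthRootsFinset (NeZero.pos N)] using ht
  refine ⟨IntermediateField.adjoin ℚ Z, IntermediateField.finiteDimensional_adjoin
    fun x _ => (Algebra.IsAlgebraic.isAlgebraic x).isIntegral, fun σ hσ => Units.ext ?_⟩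
  refine (cycN_eq (c := 1) fun t ht => ?_).trans Units.val_one.symm
  rw [hσ t (IntermediateField.subset_adjoin ℚ Z ht)]
  rcases Nat.lt_or_ge N 2 with hN | hN
  · have hN1 : N = 1 := by have := NeZero.ne N; omega
    subst hN1
    rw [pow_one] at ht
    simp [ht]
  · have : Fact (1 < N) := ⟨hN⟩
    rw [ZMod.val_one, pow_one]

variable {M n : ℕ} [NeZero M] [Fact (5 ≤ M)] [Fact n.Prime] [NeZero n]

omit [NeZero M] [Fact (5 ≤ M)] in
theorem chrOf_nsmul (j : ℕ) (φ : H1 M (pmOne M) (ZMod n) (ZMod n)) :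
    chrOf (j • φ) = chrOf φ ^ j := by
  induction j with
  | zero =>
    have h := chrOf_add (0 : H1 M (pmOne M) (ZMod n) (ZMod n)) 0
    rw [zero_add] at h
    rw [zero_smul, pow_zero]
    exact mul_eq_left.1 h.symm
  | succ j ih => rw [succ_nsmul, chrOf_add, ih, pow_succ]

omit [Fact (5 ≤ M)] in
theorem finite_H1 : Finite (H1 M (pmOne M) (ZMod n) (ZMod n)) :=
  haveI : Finite (Chr M n) := finite_chr
  Finite.of_equiv _ (chrEquiv M n).symm

/-- The congruence relation on classes. -/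
theorem heckeTH_eq_of_frobenius (hn : 5 ≤ n) {p : ℕ} (hp : p.Prime) (hpM : ¬ p ∣ M) (hnp : n ≠ p)
    {A : ValuationSubring ℚbar} (hA : A.LiesOverPrime p) {F : Γℚ} (hF : A.IsFrobeniusAt F p)
    (φ : H1 M (pmOne M) (ZMod n) (ZMod n)) :
    heckeTH (ZMod n) (ZMod n) hp hpM φ = rhoH M n F φ +
      (p : ZMod n) • rhoH M n F⁻¹ (diamondH (ZMod n) (ZMod n) (primeUnit hp hpM) φ) :=
  chrOf_injective (by
    rw [Nat.cast_smul_eq_nsmul, chrOf_add, chrOf_nsmul, chrOf_rhoH, chrOf_rhoH, chrOf_diamondH,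
      chrOf_heckeTH]
    exact chrT_eq_of_frobenius hp hpM hn hnp hA hF (chrOf φ))

/-- The classes with given eigenvalues. -/
def eigSpace (α : (ZMod M)ˣ → ZMod n) (a : ℕ → ZMod n) :
    Submodule (ZMod n) (H1 M (pmOne M) (ZMod n) (ZMod n)) where
  carrier := {v | (∀ u, diamondH (ZMod n) (ZMod n) u v = α u • v) ∧
    ∀ (p : ℕ) (hp : p.Prime) (hpM : ¬ p ∣ M), heckeTH (ZMod n) (ZMod n) hp hpM v = a p • v}
  zero_mem' := ⟨fun u => by rw [map_zero, smul_zero], fun p hp hpM => by rw [map_zero, smul_zero]⟩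
  add_mem' := fun {v w} hv hw =>
    ⟨fun u => by rw [map_add, hv.1, hw.1, smul_add],
      fun p hp hpM => by rw [map_add, hv.2 p hp hpM, hw.2 p hp hpM, smul_add]⟩
  smul_mem' := fun c v hv =>
    ⟨fun u => by rw [LinearMap.map_smul, hv.1, smul_comm],
      fun p hp hpM => by rw [LinearMap.map_smul, hv.2 p hp hpM, smul_comm]⟩

theorem rhoH_mem_eigSpace {α : (ZMod M)ˣ → ZMod n} {a : ℕ → ZMod n} (g : Γℚ)
    {v : H1 M (pmOne M) (ZMod n) (ZMod n)} (hv : v ∈ eigSpace α a) :
    rhoH M n g v ∈ eigSpace α a :=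
  ⟨fun u => by
    have h := LinearMap.congr_fun (commute_diamondH g u).eq v
    rw [Module.End.mul_apply, Module.End.mul_apply, hv.1, LinearMap.map_smul] at h
    exact h.symm,
  fun p hp hpM => by
    have h := LinearMap.congr_fun (commute_heckeTH hp hpM g).eq v
    rw [Module.End.mul_apply, Module.End.mul_apply, hv.2 p hp hpM, LinearMap.map_smul] at h
    exact h.symm⟩

/-- The Galois action on the eigenclasses. -/
def rhoEig (α : (ZMod M)ˣ → ZMod n) (a : ℕ → ZMod n) :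
    Γℚ →* Module.End (ZMod n) (eigSpace α a) where
  toFun g := LinearMap.codRestrict (eigSpace α a) ((rhoH M n g).comp (eigSpace α a).subtype)
    fun v => rhoH_mem_eigSpace g v.2
  map_one' := LinearMap.ext fun v => Subtype.ext (by
    show rhoH M n 1 (v : H1 M (pmOne M) (ZMod n) (ZMod n)) = v
    rw [map_one]; rfl)
  map_mul' g h := LinearMap.ext fun v => Subtype.ext (by
    show rhoH M n (g * h) (v : H1 M (pmOne M) (ZMod n) (ZMod n)) = rhoH M n g (rhoH M n h v)
    rw [map_mul]; rfl)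

theorem coe_rhoEig (α : (ZMod M)ˣ → ZMod n) (a : ℕ → ZMod n) (g : Γℚ) (v : eigSpace α a) :
    (rhoEig α a g v : H1 M (pmOne M) (ZMod n) (ZMod n)) = rhoH M n g v := rfl

/-- **An eigenclass gives a mod `l` representation.** -/
theorem modRep_of_eigen {N l : ℕ} [NeZero N] [Fact l.Prime] [NeZero l] [NeZero (N * l)]
    [Fact (5 ≤ N * l)] (hl : 5 ≤ l) (E : ZMod N →* ZMod l) (α : (ZMod (N * l))ˣ → ZMod l)
    (hα : ∀ (p : ℕ) (hp : p.Prime) (hpM : ¬ p ∣ N * l),
      (p : ZMod l) * α (primeUnit hp hpM) = E (p : ZMod N))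
    (a : ℕ → ZMod l) {w : H1 (N * l) (pmOne (N * l)) (ZMod l) (ZMod l)} (hw : w ≠ 0)
    (hdia : ∀ u, diamondH (ZMod l) (ZMod l) u w = α u • w)
    (hT : ∀ (p : ℕ) (hp : p.Prime) (hpM : ¬ p ∣ N * l),
      heckeTH (ZMod l) (ZMod l) hp hpM w = a p • w) :
    ModRep l N a (fun p => E (p : ZMod N)) := by
  have : Finite (H1 (N * l) (pmOne (N * l)) (ZMod l) (ZMod l)) := finite_H1
  obtain ⟨L₁, hL₁, h₁⟩ := rhoH_finiteLevel (M := N * l) (n := l)
  obtain ⟨L₂, hL₂, h₂⟩ := cycN_level N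
  refine ⟨eigSpace α a, inferInstance, inferInstance, Module.Finite.of_finite, ?_, rhoEig α a,
    E.comp ((Units.coeHom (ZMod N)).comp (cycN N)), ⟨L₁ ⊔ L₂, inferInstance, fun σ hσ => ?_⟩,
    fun p hp hpM A hA => ?_⟩
  · exact ⟨⟨w, hdia, hT⟩, 0, fun h => hw (congrArg Subtype.val h)⟩
  · refine ⟨LinearMap.ext fun v => Subtype.ext ?_, ?_⟩
    · rw [coe_rhoEig, h₁ σ fun x hx => hσ x (le_sup_left (b := L₂) hx)]
      rfl
    · rw [MonoidHom.comp_apply, MonoidHom.comp_apply,
        h₂ σ fun x hx => hσ x (le_sup_right (a := L₁) hx), map_one, map_one]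
  have hpN : ¬ p ∣ N := fun h => hpM (h.trans (dvd_mul_right N l))
  have hlp : l ≠ p := fun h => hpM (h ▸ dvd_mul_left l N)
  refine ⟨fun σ hσ => ⟨LinearMap.ext fun v => Subtype.ext (chrOf_injective ?_), ?_⟩, fun σ hσ => ?_⟩
  · rw [coe_rhoEig, chrOf_rhoH, twQ_of_inertia hl hp hpM hlp hA hσ]
    rfl
  · rw [MonoidHom.comp_apply, MonoidHom.comp_apply, cycN_inertia hp hpN hA hσ, map_one, map_one]
  refine ⟨LinearMap.ext fun v => Subtype.ext ?_, ?_⟩
  · have h := congrArg (rhoH (N * l) l σ)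
      (heckeTH_eq_of_frobenius hl hp hpM hlp hA hσ
        (v : H1 (N * l) (pmOne (N * l)) (ZMod l) (ZMod l)))
    have h3 : ∀ x, rhoH (N * l) l σ (rhoH (N * l) l σ⁻¹ x) = x := fun x => by
      rw [← Module.End.mul_apply, ← map_mul, mul_inv_cancel, map_one, Module.End.one_apply]
    rw [v.2.2 p hp hpM, v.2.1, map_add, LinearMap.map_smul, LinearMap.map_smul, LinearMap.map_smul,
      LinearMap.map_smul, h3, smul_smul, hα p hp hpM] at h
    simp only [LinearMap.add_apply, LinearMap.sub_apply, LinearMap.smul_apply,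
      Module.End.mul_apply, Module.End.one_apply, LinearMap.zero_apply, Submodule.coe_add,
      Submodule.coe_sub, Submodule.coe_smul, ZeroMemClass.coe_zero, coe_rhoEig, h]
    abel
  · rw [MonoidHom.comp_apply, MonoidHom.comp_apply, Units.coeHom_apply, cycN_frobenius hp hpN hA hσ]

end Fermat.Agent.DeligneSerre
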