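import Fermat.Agent.Kummer.Poincare
import Fermat.Agent.Igusa.Base

/-!
# Functions with character on a torsion free group, non zero at a given point

`IsCharFun Γ χ f`: `f` is holomorphic on `ℍ`, `f (γ τ) = χ γ f τ`, and meromorphic at all cusps.
For a unitary `χ` trivial on elements of squared trace `≤ 4` and `Γ` without elliptic points, there
is such a function which does not vanish at any prescribed point (Poincaré series).
-/

set_option autoImplicit false

noncomputable section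

open Complex Filter Topology Function Set EisensteinSeries
open UpperHalfPlane hiding I
open scoped MatrixGroups Manifold Real ModularForm ComplexConjugate

namespace Fermat.Agent.DeligneSerre

local notation "Δf" => ModularForm.discriminant

/-- Holomorphic on `ℍ`, transforming by `χ`, meromorphic at all cusps. -/
structure IsCharFun {Γ : Subgroup SL(2, ℤ)} (χ : Γ →* ℂˣ) (f : ℍ → ℂ) : Prop where
  holo : MDiff f
  map_smul : ∀ (γ : Γ) (τ : ℍ), f ((γ : SL(2, ℤ)) • τ) = ((χ γ : ℂˣ) : ℂ) * f τ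
  bdd : ∃ m : ℕ, ∀ δ : SL(2, ℤ), IsBoundedAtImInfty (fun τ => Δf τ ^ m * f (δ • τ))

/-- Trivial on the elements of squared trace at most `4`. -/
def IsEllParChar {Γ : Subgroup SL(2, ℤ)} (χ : Γ →* ℂˣ) : Prop :=
  ∀ γ : Γ, ((γ : SL(2, ℤ)) : Matrix (Fin 2) (Fin 2) ℤ).trace ^ 2 ≤ 4 → χ γ = 1

/-- No elliptic points. -/
def IsFree (Γ : Subgroup SL(2, ℤ)) : Prop :=
  ∀ (γ : SL(2, ℤ)) (τ : ℍ), γ ∈ Γ → γ • τ = τ → γ = 1 ∨ γ = -1

namespace IsCharFun

variable {Γ : Subgroup SL(2, ℤ)} {χ ψ : Γ →* ℂˣ} {f g : ℍ → ℂ}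

theorem isBounded_discriminant : IsBoundedAtImInfty Δf := by
  have := ModularFormClass.bdd_at_infty CuspForm.discriminant
  simpa [CuspForm.coe_discriminant] using this

theorem bdd_of_le {m m' : ℕ} (h : m ≤ m') {δ : SL(2, ℤ)}
    (hb : IsBoundedAtImInfty (fun τ => Δf τ ^ m * f (δ • τ))) :
    IsBoundedAtImInfty (fun τ => Δf τ ^ m' * f (δ • τ)) := by
  have hp : IsBoundedAtImInfty (fun τ => Δf τ ^ (m' - m)) := by
    have := (isBounded_discriminant).pow (m' - m)
    exact this.congr_right fun τ => by simp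
  refine (hp.mul hb).congr' (Eventually.of_forall fun τ => ?_) EventuallyEq.rfl
  simp only [Pi.mul_apply, ← mul_assoc, ← pow_add, Nat.sub_add_cancel h]

theorem const (c : ℂ) : IsCharFun (1 : Γ →* ℂˣ) (fun _ => c) :=
  ⟨mdifferentiable_const, fun _ _ => by simp,
    ⟨0, fun δ => by simp only [pow_zero, one_mul]; exact atImInfty.const_boundedAtFilter c⟩⟩

theorem one : IsCharFun (1 : Γ →* ℂˣ) (1 : ℍ → ℂ) := const 1

theorem zero : IsCharFun χ (0 : ℍ → ℂ) :=
  ⟨mdifferentiable_const, fun _ _ => by simp,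
    ⟨0, fun δ => by
      simp only [pow_zero, one_mul, Pi.zero_apply]; exact atImInfty.const_boundedAtFilter (0 : ℂ)⟩⟩

theorem add (hf : IsCharFun χ f) (hg : IsCharFun χ g) : IsCharFun χ (f + g) := by
  obtain ⟨m, hm⟩ := hf.bdd
  obtain ⟨m', hm'⟩ := hg.bdd
  refine ⟨hf.holo.add hg.holo,
    fun γ τ => by rw [Pi.add_apply, Pi.add_apply, hf.map_smul, hg.map_smul, mul_add],
    ⟨max m m', fun δ => ?_⟩⟩
  refine ((bdd_of_le (le_max_left m m') (hm δ)).add (bdd_of_le (le_max_right m m') (hm' δ))).congr'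
    (Eventually.of_forall fun τ => ?_) EventuallyEq.rfl
  simp [mul_add]

theorem smul (hf : IsCharFun χ f) (c : ℂ) : IsCharFun χ (c • f) := by
  obtain ⟨m, hm⟩ := hf.bdd
  refine ⟨hf.holo.const_smul c, fun γ τ => ?_, ⟨m, fun δ => ?_⟩⟩
  · rw [Pi.smul_apply, Pi.smul_apply, hf.map_smul, smul_eq_mul, smul_eq_mul]; ring
  · refine ((hm δ).const_mul_left c).congr' (Eventually.of_forall fun τ => ?_) EventuallyEq.rfl
    simp [mul_left_comm]

theorem mul (hf : IsCharFun χ f) (hg : IsCharFun ψ g) : IsCharFun (χ * ψ) (f * g) := by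
  obtain ⟨m, hm⟩ := hf.bdd
  obtain ⟨m', hm'⟩ := hg.bdd
  refine ⟨hf.holo.mul hg.holo, fun γ τ => ?_, ⟨m + m', fun δ => ?_⟩⟩
  · rw [Pi.mul_apply, Pi.mul_apply, hf.map_smul, hg.map_smul, MonoidHom.mul_apply, Units.val_mul]
    ring
  · refine ((hm δ).mul (hm' δ)).congr' (Eventually.of_forall fun τ => ?_) EventuallyEq.rfl
    simp only [Pi.mul_apply, pow_add]
    ring

theorem congr (hf : IsCharFun χ f) (h : χ = ψ) : IsCharFun ψ f := h ▸ hf

theorem pow (hf : IsCharFun χ f) (n : ℕ) : IsCharFun (χ ^ n) (f ^ n) := by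
  induction n with
  | zero =>
    rw [pow_zero]
    exact one.congr (pow_zero χ).symm
  | succ n ih =>
    rw [pow_succ]
    exact (ih.mul hf).congr (pow_succ χ n).symm

theorem sum {ι : Type*} (s : Finset ι) {F : ι → ℍ → ℂ} (h : ∀ i ∈ s, IsCharFun χ (F i)) :
    IsCharFun χ (∑ i ∈ s, F i) :=
  Finset.sum_induction F (IsCharFun χ) (fun _ _ h h' => h.add h') zero h

end IsCharFun

namespace PoincareAt

open Kummer.Poincare (majorant summable_majorant)

variable (p : ℍ)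

/-- `(a z + b) - p̄ (c z + d)`. -/
def linP (δ : SL(2, ℤ)) (z : ℂ) : ℂ :=
  ((δ 0 0 : ℂ) * z + δ 0 1) - conj (p : ℂ) * ((δ 1 0 : ℂ) * z + δ 1 1)

/-- The comparison constant with the series at `2i`. -/
def kap : ℝ := min (p.im ^ 2 / (4 * (1 + p.re ^ 2 + p.im ^ 2))) (p.im / 2)

theorem kap_pos : 0 < kap p := by
  have := p.im_pos
  exact lt_min (by positivity) (by positivity)

theorem normSq_linP (δ : SL(2, ℤ)) (z : ℂ) :
    Complex.normSq (linP p δ z) =
      Complex.normSq (((δ 0 0 : ℂ) * z + δ 0 1) - p.re * ((δ 1 0 : ℂ) * z + δ 1 1)) +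
      p.im ^ 2 * Complex.normSq ((δ 1 0 : ℂ) * z + δ 1 1) + 2 * p.im * z.im := by
  have h := δ.2
  rw [Matrix.det_fin_two] at h
  have h' : (δ 0 0 : ℝ) * δ 1 1 - δ 0 1 * δ 1 0 = 1 := by exact_mod_cast h
  simp [linP, Complex.normSq_apply]
  linear_combination (2 * p.im * z.im) * h'

theorem kap_mul_normSq_lin_le (δ : SL(2, ℤ)) {z : ℂ} (hz : 0 ≤ z.im) :
    kap p * Complex.normSq (Kummer.Poincare.lin δ z) ≤ Complex.normSq (linP p δ z) := by
  rw [normSq_linP, Kummer.Poincare.normSq_lin]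
  set A := (δ 0 0 : ℂ) * z + δ 0 1
  set C := (δ 1 0 : ℂ) * z + δ 1 1
  set x := p.re
  set y := p.im
  have hy : 0 < y := p.im_pos
  have hd : (0 : ℝ) < 1 + x ^ 2 + y ^ 2 := by positivity
  have h1 : y ^ 2 * (Complex.normSq A + Complex.normSq C) ≤
      (1 + x ^ 2 + y ^ 2) * (Complex.normSq (A - x * C) + y ^ 2 * Complex.normSq C) := by
    simp only [Complex.normSq_apply, sub_re, sub_im, mul_re, mul_im, ofReal_re, ofReal_im,
      zero_mul, sub_zero, add_zero]
    have k1 : ∀ a c : ℝ, y ^ 2 * (a * a + c * c) ≤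
        (1 + x ^ 2 + y ^ 2) * ((a - x * c) * (a - x * c) + y ^ 2 * (c * c)) := fun a c => by
      nlinarith [sq_nonneg ((1 + x ^ 2) * a - (1 + x ^ 2 + y ^ 2) * x * c), sq_nonneg (a - x * c),
        sq_nonneg (x * (a - x * c) - y ^ 2 * c), sq_nonneg (a - x * c + x * c)]
    have := k1 A.re C.re
    have := k1 A.im C.im
    nlinarith
  have hK1 : kap p * (4 * (1 + x ^ 2 + y ^ 2)) ≤ y ^ 2 := by
    rw [← le_div_iff₀ (by positivity)]; exact min_le_left _ _
  have hK2 : kap p * 2 ≤ y := by rw [← le_div_iff₀ two_pos]; exact min_le_right _ _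
  have hK := kap_pos p
  have hA := Complex.normSq_nonneg A
  have hC := Complex.normSq_nonneg C
  have h2 : kap p * (Complex.normSq A + 4 * Complex.normSq C) ≤
      Complex.normSq (A - x * C) + y ^ 2 * Complex.normSq C := by
    refine le_of_mul_le_mul_left ?_ hd
    nlinarith [mul_le_mul_of_nonneg_right hK1 (add_nonneg hA hC),
      mul_nonneg hK.le (mul_nonneg hd.le hA)]
  nlinarith [mul_le_mul_of_nonneg_right hK2 hz]

theorem linP_ne_zero (δ : SL(2, ℤ)) {z : ℂ} (hz : 0 < z.im) : linP p δ z ≠ 0 := by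
  intro h
  have h' := kap_mul_normSq_lin_le p δ hz.le
  rw [h, map_zero] at h'
  exact absurd h' (not_le.2 (mul_pos (kap_pos p)
    (Complex.normSq_pos.2 (Kummer.Poincare.lin_ne_zero δ hz))))

theorem norm_inv_linP_le (δ : SL(2, ℤ)) {z : ℂ} (hz : 0 < z.im) :
    ‖linP p δ z‖⁻¹ ≤ (√(kap p))⁻¹ * ‖Kummer.Poincare.lin δ z‖⁻¹ := by
  rw [← mul_inv]
  refine inv_anti₀ (mul_pos (Real.sqrt_pos.2 (kap_pos p))
    (norm_pos_iff.2 (Kummer.Poincare.lin_ne_zero δ hz))) ?_
  rw [Complex.norm_def, Complex.norm_def, ← Real.sqrt_mul (kap_pos p).le]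
  exact Real.sqrt_le_sqrt (kap_mul_normSq_lin_le p δ hz.le)

theorem linP_mul (γ δ : SL(2, ℤ)) (z : ℍ) :
    linP p (γ * δ) z = linP p γ ((δ • z : ℍ) : ℂ) * ((δ 1 0 : ℂ) * z + δ 1 1) := by
  rw [Kummer.Poincare.coe_smul_apply]
  have h0 := Kummer.Poincare.denom_ne_zero' δ z
  simp only [linP, Matrix.SpecialLinearGroup.coe_mul, Matrix.mul_apply, Fin.sum_univ_two]
  push_cast
  field_simp
  ring

theorem linP_neg (δ : SL(2, ℤ)) (z : ℂ) : linP p (-δ) z = -linP p δ z := by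
  simp [linP]; ring

theorem linP_one : linP p 1 p = 2 * p.im * I := by
  apply Complex.ext <;> simp [linP]
  ring

theorem differentiable_linP (δ : SL(2, ℤ)) : Differentiable ℂ (linP p δ) := by
  unfold linP
  fun_prop

/-- Equality characterises the stabiliser. -/
theorem norm_linP_self (δ : SL(2, ℤ)) :
    2 * p.im ≤ ‖linP p δ p‖ ∧ (‖linP p δ p‖ = 2 * p.im → δ • p = p) := by
  have hy := p.im_pos
  set C := (δ 1 0 : ℂ) * p + δ 1 1
  set w : ℍ := δ • p with hw
  have hC : C ≠ 0 := Kummer.Poincare.denom_ne_zero' δ p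
  have e : linP p δ p = ((w : ℂ) - conj (p : ℂ)) * C := by
    rw [hw, Kummer.Poincare.coe_smul_apply, sub_mul, div_mul_cancel₀ _ hC]; rfl
  have him : w.im * Complex.normSq C = p.im := by
    have := ModularGroup.im_smul_eq_div_normSq δ p
    rw [hw, this, ModularGroup.denom_apply]
    have hC' : Complex.normSq C ≠ 0 := (Complex.normSq_pos.2 hC).ne'
    exact div_mul_cancel₀ _ hC' 
  have key : Complex.normSq (linP p δ p) =
      4 * p.im ^ 2 + Complex.normSq C * ((w.re - p.re) ^ 2 + (w.im - p.im) ^ 2) := by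
    rw [e, map_mul]
    simp [Complex.normSq_apply] at him ⊢
    linear_combination (4 * p.im) * him
  have hn : ‖linP p δ p‖ ^ 2 = Complex.normSq (linP p δ p) := Complex.sq_norm _
  have hCpos := Complex.normSq_pos.2 hC
  refine ⟨?_, fun h => ?_⟩
  · nlinarith [norm_nonneg (linP p δ p), mul_nonneg hCpos.le
      (add_nonneg (sq_nonneg (w.re - p.re)) (sq_nonneg (w.im - p.im)))]
  · have h0 : (w.re - p.re) ^ 2 + (w.im - p.im) ^ 2 = 0 := by
      rw [h, key] at hn
      exact (mul_eq_zero.1 (by linarith : Complex.normSq C *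
        ((w.re - p.re) ^ 2 + (w.im - p.im) ^ 2) = 0)).resolve_left hCpos.ne'
    rw [add_eq_zero_iff_of_nonneg (sq_nonneg _) (sq_nonneg _), sq_eq_zero_iff, sq_eq_zero_iff,
      sub_eq_zero, sub_eq_zero] at h0
    exact UpperHalfPlane.ext (Complex.ext h0.1 h0.2)

variable {Γ : Subgroup SL(2, ℤ)} (χ : Γ →* ℂˣ) (k : ℕ)

/-- The summand. -/
def term (g : SL(2, ℤ)) (γ : Γ) (z : ℂ) : ℂ :=
  ((χ γ⁻¹ : ℂˣ) : ℂ) * (linP p ((γ : SL(2, ℤ)) * g) z ^ k)⁻¹

/-- The series attached to the translate by `g`. -/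
def series (g : SL(2, ℤ)) (z : ℍ) : ℂ := ∑' γ : Γ, term p χ k g γ z

variable {χ k} (hχ : ∀ γ, ‖((χ γ : ℂˣ) : ℂ)‖ = 1)

include hχ in
theorem norm_term (g : SL(2, ℤ)) (γ : Γ) (z : ℂ) :
    ‖term p χ k g γ z‖ = ‖linP p ((γ : SL(2, ℤ)) * g) z‖⁻¹ ^ k := by
  rw [term, norm_mul, hχ, one_mul, norm_inv, norm_pow, inv_pow]

theorem injective_mul_right (g : SL(2, ℤ)) : Injective fun γ : Γ => (γ : SL(2, ℤ)) * g :=
  fun _ _ h => Subtype.ext (mul_right_cancel h)

variable (hk : 6 ≤ k)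

include hk hχ in
theorem norm_term_le {A B : ℝ} (hB : 0 < B) (g : SL(2, ℤ)) (γ : Γ) {z : ℍ}
    (hz : z ∈ verticalStrip A B) :
    ‖term p χ k g γ z‖ ≤ (√(kap p))⁻¹ ^ k * ((2 * √B)⁻¹ ^ (k - 6) *
      (r ⟨⟨A, B⟩, hB⟩ ^ (-(6 : ℝ))) * majorant ((γ : SL(2, ℤ)) * g)) := by
  rw [norm_term p hχ]
  refine (pow_le_pow_left₀ (by positivity) (norm_inv_linP_le p _ z.im_pos) k).trans ?_
  rw [mul_pow]
  exact mul_le_mul_of_nonneg_left (Kummer.Poincare.norm_inv_lin_pow_le hk hB _ hz) (by positivity)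

include hk hχ in
theorem summable_term (g : SL(2, ℤ)) (z : ℍ) : Summable fun γ : Γ => term p χ k g γ z :=
  Summable.of_norm_bounded
    (((summable_majorant.comp_injective (injective_mul_right g)).mul_left _).mul_left _)
    fun γ => norm_term_le p hχ hk z.im_pos g γ (A := |z.re|) ⟨le_rfl, le_rfl⟩

include hk hχ in
theorem mdifferentiable_series (g : SL(2, ℤ)) : MDiff (series p χ k g) := by
  rw [UpperHalfPlane.mdifferentiable_iff]
  intro z hz
  set A := |z.re| + 1
  set B := z.im / 2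
  have hB : 0 < B := by have : 0 < z.im := hz; positivity
  set U : Set ℂ := {w | |w.re| < A ∧ B < w.im} with hU
  have hUo : IsOpen U :=
    (isOpen_lt Complex.continuous_re.abs continuous_const).inter
      (isOpen_lt continuous_const Complex.continuous_im)
  have hzU : z ∈ U := ⟨by simp [A], by simp only [B]; linarith [(show 0 < z.im from hz)]⟩
  have hd : DifferentiableOn ℂ (fun w => ∑' γ : Γ, term p χ k g γ w) U :=
    differentiableOn_tsum_of_summable_norm
      (((summable_majorant.comp_injective (injective_mul_right g)).mul_left _).mul_left _)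
      (fun γ w hw => (((((differentiable_linP p _).differentiableAt.pow k).inv
        (pow_ne_zero _ (linP_ne_zero p _ (hB.trans hw.2)))).const_mul _).differentiableWithinAt))
      hUo fun γ w hw => norm_term_le p hχ hk hB g γ (z := ⟨w, hB.trans hw.2⟩) ⟨hw.1.le, hw.2.le⟩
  refine ((hd.differentiableAt (hUo.mem_nhds hzU)).congr_of_eventuallyEq ?_).differentiableWithinAt
  filter_upwards [hUo.mem_nhds hzU] with w hw
  simp [series, ofComplex_apply_of_im_pos (hB.trans hw.2)]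

theorem series_smul (g : SL(2, ℤ)) (z : ℍ) :
    series p χ k 1 (g • z) = ((g 1 0 : ℂ) * z + g 1 1) ^ k * series p χ k g z := by
  simp only [series, ← tsum_mul_left]
  refine tsum_congr fun γ => ?_
  simp only [term, mul_one]
  rw [linP_mul p (γ : SL(2, ℤ)) g z, mul_pow, mul_inv]
  have := Kummer.Poincare.denom_ne_zero' g z
  field_simp

theorem series_mul_left (δ : Γ) (g : SL(2, ℤ)) (z : ℍ) :
    series p χ k ((δ : SL(2, ℤ)) * g) z = ((χ δ : ℂˣ) : ℂ) * series p χ k g z := by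
  simp only [series, ← tsum_mul_left]
  rw [← (Equiv.mulRight δ).tsum_eq (fun γ => ((χ δ : ℂˣ) : ℂ) * term p χ k g γ z)]
  refine tsum_congr fun γ => ?_
  simp only [term, Equiv.coe_mulRight, mul_inv_rev, map_mul, Units.val_mul, Subgroup.coe_mul,
    mul_assoc]
  rw [← mul_assoc ((χ δ : ℂˣ) : ℂ), ← Units.val_mul, ← map_mul, mul_inv_cancel, map_one,
    Units.val_one, one_mul]

theorem series_transform (δ : Γ) (z : ℍ) :
    series p χ k 1 ((δ : SL(2, ℤ)) • z) = (((δ : SL(2, ℤ)) 1 0 : ℂ) * z + (δ : SL(2, ℤ)) 1 1) ^ k *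
      (((χ δ : ℂˣ) : ℂ) * series p χ k 1 z) := by
  have h := series_mul_left p (χ := χ) (k := k) δ 1 z
  rw [mul_one] at h
  rw [series_smul, h]

theorem exists_period [Γ.FiniteIndex] :
    ∃ w : ℕ, 0 < w ∧ ∀ g : SL(2, ℤ), g * ModularGroup.T ^ (w : ℤ) * g⁻¹ ∈ Γ :=
  ⟨Γ.normalCore.index, Nat.pos_of_ne_zero Subgroup.FiniteIndex.index_ne_zero, fun g => by
    rw [zpow_natCast]
    exact Γ.normalCore_le
      ((Subgroup.normalCore_normal Γ).conj_mem _ (Γ.normalCore.pow_index_mem _) g)⟩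

theorem linP_mul_T_zpow (δ : SL(2, ℤ)) (j : ℤ) (z : ℂ) :
    linP p (δ * ModularGroup.T ^ j) z = linP p δ (z + j) := by
  simp [linP, ModularGroup.coe_T_zpow, Matrix.mul_apply, Fin.sum_univ_two]
  ring

variable (hpar : IsEllParChar χ)

include hpar in
theorem series_periodic {w : ℕ} (hw : ∀ g : SL(2, ℤ), g * ModularGroup.T ^ (w : ℤ) * g⁻¹ ∈ Γ)
    (g : SL(2, ℤ)) : Function.Periodic (series p χ k g ∘ ofComplex) (w : ℝ) := by
  refine Fermat.Agent.LevelOne.periodic_comp_ofComplex_of_vadd fun τ => ?_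
  have h : series p χ k (g * ModularGroup.T ^ (w : ℤ)) τ = series p χ k g ((w : ℝ) +ᵥ τ) := by
    simp only [series]
    refine tsum_congr fun γ => ?_
    rw [term, term, ← mul_assoc, linP_mul_T_zpow, coe_vadd]
    push_cast
    rw [add_comm]
  rw [← h]
  have h2 : g * ModularGroup.T ^ (w : ℤ) = ((⟨_, hw g⟩ : Γ) : SL(2, ℤ)) * g := by simp
  rw [h2, series_mul_left, hpar ⟨_, hw g⟩ ?_, Units.val_one, one_mul]
  have hT : (((g * ModularGroup.T ^ (w : ℤ) * g⁻¹ : SL(2, ℤ))) :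
      Matrix (Fin 2) (Fin 2) ℤ).trace = 2 := by
    rw [Matrix.SpecialLinearGroup.coe_mul, Matrix.trace_mul_comm,
      ← Matrix.SpecialLinearGroup.coe_mul,
      ← mul_assoc, inv_mul_cancel, one_mul, ModularGroup.coe_T_zpow]
    simp [Matrix.trace_fin_two]
  show (((g * ModularGroup.T ^ (w : ℤ) * g⁻¹ : SL(2, ℤ))) : Matrix (Fin 2) (Fin 2) ℤ).trace ^ 2 ≤ 4
  rw [hT]; norm_num

include hk hpar hχ in
theorem isBoundedAtImInfty_series [Γ.FiniteIndex] (g : SL(2, ℤ)) :
    IsBoundedAtImInfty (series p χ k g) := by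
  obtain ⟨w, hw0, hw⟩ := exists_period (Γ := Γ)
  rw [isBoundedAtImInfty_iff]
  refine ⟨∑' γ : Γ, (√(kap p))⁻¹ ^ k * ((2 * √(1 : ℝ))⁻¹ ^ (k - 6) *
      (r ⟨⟨(w : ℝ), 1⟩, one_pos⟩ ^ (-(6 : ℝ))) * majorant ((γ : SL(2, ℤ)) * g)), 1, fun z hz => ?_⟩
  have hN : (0 : ℝ) < w := by exact_mod_cast hw0
  set j : ℤ := ⌊z.re / w⌋
  have hper := (series_periodic p hpar hw g (k := k)).sub_int_mul_eq (x := (z : ℂ)) j
  have him : 0 < ((z : ℂ) - j * (w : ℝ)).im := by simpa using z.im_pos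
  simp only [Function.comp_apply, ofComplex_apply, ofComplex_apply_of_im_pos him] at hper
  rw [← hper]
  have hstrip : (⟨(z : ℂ) - j * (w : ℝ), him⟩ : ℍ) ∈ verticalStrip (w : ℝ) 1 := by
    refine ⟨?_, ?_⟩
    · have h1 := Int.floor_le (z.re / w)
      have h2 := Int.lt_floor_add_one (z.re / w)
      rw [le_div_iff₀ hN] at h1
      rw [div_lt_iff₀ hN] at h2
      change |((z : ℂ) - j * (w : ℝ)).re| ≤ w
      simp only [sub_re, mul_re, intCast_re, intCast_im, ofReal_re, ofReal_im]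
      rw [abs_le]
      constructor <;> simp only [j] <;> linarith [(show (z : ℂ).re = z.re from rfl)]
    · change 1 ≤ ((z : ℂ) - j * (w : ℝ)).im
      simpa using hz
  exact tsum_of_norm_bounded
    (((summable_majorant.comp_injective (injective_mul_right g)).mul_left _).mul_left _).hasSum
    fun γ => norm_term_le p hχ hk one_pos g γ hstrip

include hχ in
/-- For large even weight the series does not vanish at `p`. -/
theorem eventually_series_ne_zero (hneg : (-1 : SL(2, ℤ)) ∈ Γ) (hfree : IsFree Γ)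
    (hpar : IsEllParChar χ) : ∀ᶠ m : ℕ in atTop, series p χ (2 * m + 6) 1 p ≠ 0 := by
  classical
  have hy := p.im_pos
  have h1 : χ ⟨-1, hneg⟩ = 1 := hpar _ (by simp)
  set c : Γ → ℂ := fun γ => (2 * p.im * I) / linP p (γ : SL(2, ℤ)) p with hc
  have hn2 : ‖(2 * p.im * I : ℂ)‖ = 2 * p.im := by simp [abs_of_pos hy]
  have hne2 : (2 * p.im * I : ℂ) ≠ 0 := by simp [hy.ne']
  have hle : ∀ γ, ‖c γ‖ ≤ 1 := fun γ => by
    rw [hc, norm_div, hn2, div_le_one (norm_pos_iff.2 (linP_ne_zero p _ p.im_pos))]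
    exact (norm_linP_self p _).1
  set e : Γ := ⟨-1, hneg⟩
  have hlim : Tendsto (fun m : ℕ => ∑' γ : Γ, ((χ γ⁻¹ : ℂˣ) : ℂ) * c γ ^ (2 * m + 6)) atTop
      (𝓝 (∑' γ : Γ, if γ = 1 ∨ γ = e then (1 : ℂ) else 0)) := by
    refine tendsto_tsum_of_dominated_convergence (bound := fun γ : Γ => ‖c γ‖ ^ 6) ?_ (fun γ => ?_)
      (Eventually.of_forall fun m γ => ?_)
    · have := ((summable_term p (χ := χ) hχ le_rfl 1 p).norm).mul_left (‖(2 * p.im * I : ℂ)‖ ^ 6)
      refine this.congr fun γ => ?_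
      rw [norm_term p hχ, mul_one, hc, norm_div, div_pow, inv_pow, div_eq_mul_inv]
    · by_cases hγ : γ = 1 ∨ γ = e
      · rw [if_pos hγ]
        have h2 : χ γ⁻¹ = 1 := by rcases hγ with rfl | rfl <;> simp [map_inv, e, h1]
        have h3 : c γ ^ 2 = 1 := by
          rcases hγ with rfl | rfl
          · simp [hc, linP_one, hne2]
          · rw [hc]
            show (2 * p.im * I / linP p (-1 : SL(2, ℤ)) p) ^ 2 = 1
            rw [linP_neg, linP_one, div_neg, neg_sq, div_self hne2, one_pow]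
        have h4 : ∀ m : ℕ, c γ ^ (2 * m + 6) = 1 := fun m => by
          rw [show 2 * m + 6 = 2 * (m + 3) by ring, pow_mul, h3, one_pow]
        simp only [h2, Units.val_one, one_mul, h4]
        exact tendsto_const_nhds
      · rw [if_neg hγ]
        have hlt : ‖c γ‖ < 1 := by
          refine lt_of_le_of_ne (hle γ) fun heq => hγ ?_
          rw [hc, norm_div, hn2, div_eq_one_iff_eq
            (norm_ne_zero_iff.2 (linP_ne_zero p _ p.im_pos))] at heq
          rcases hfree _ p γ.2 ((norm_linP_self p _).2 heq.symm) with h | h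
          · exact Or.inl (Subtype.ext h)
          · exact Or.inr (Subtype.ext h)
        have hmono : Tendsto (fun m : ℕ => 2 * m + 6) atTop atTop :=
          tendsto_atTop_mono (fun m => show m ≤ 2 * m + 6 by omega) tendsto_id
        simpa using ((tendsto_pow_atTop_nhds_zero_of_norm_lt_one hlt).comp hmono).const_mul
          ((χ γ⁻¹ : ℂˣ) : ℂ)
    · rw [norm_mul, hχ, one_mul, norm_pow]
      exact pow_le_pow_of_le_one (norm_nonneg _) (hle γ) (by omega)
  have hval : (∑' γ : Γ, if γ = 1 ∨ γ = e then (1 : ℂ) else 0) = 2 := by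
    rw [tsum_eq_sum (s := {1, e}) (fun γ hγ => by simp at hγ; simp [hγ])]
    have hne : (1 : Γ) ≠ e := fun h => by
      have := congrArg (fun γ : Γ => (γ : SL(2, ℤ)) 0 0) h
      simp [e] at this
    rw [Finset.sum_pair hne]
    norm_num
  filter_upwards [hlim.eventually_ne (by rw [hval]; norm_num : _ ≠ (0 : ℂ))] with m hm h0
  refine hm ?_
  calc ∑' γ : Γ, ((χ γ⁻¹ : ℂˣ) : ℂ) * c γ ^ (2 * m + 6)
      = (2 * p.im * I) ^ (2 * m + 6) * series p χ (2 * m + 6) 1 p := by
        rw [series, ← tsum_mul_left]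
        refine tsum_congr fun γ => ?_
        simp only [term, mul_one, hc, div_pow]
        ring
    _ = 0 := by rw [h0, mul_zero]

end PoincareAt

open PoincareAt in
/-- **Functions with character, not vanishing at a given point.** -/
theorem exists_charFun_ne_zero {Γ : Subgroup SL(2, ℤ)} [Γ.FiniteIndex]
    (hneg : (-1 : SL(2, ℤ)) ∈ Γ) (hfree : IsFree Γ) (χ : Γ →* ℂˣ)
    (hχ : ∀ γ, ‖((χ γ : ℂˣ) : ℂ)‖ = 1) (hpar : IsEllParChar χ) (p : ℍ) :
    ∃ f, IsCharFun χ f ∧ f p ≠ 0 := by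
  obtain ⟨m₀, hm₀⟩ := (eventually_series_ne_zero p hχ hneg hfree hpar).exists_forall_of_atTop
  -- a weight divisible by `12`
  obtain ⟨s, hs1, hs2⟩ : ∃ s : ℕ, 2 * m₀ + 6 ≤ 12 * s ∧ 1 ≤ s := ⟨m₀ + 1, by omega, by omega⟩
  have hk : 6 ≤ 12 * s := by omega
  have hne : series p χ (12 * s) 1 p ≠ 0 := by
    have := hm₀ (6 * s - 3) (by omega)
    rwa [show 2 * (6 * s - 3) + 6 = 12 * s by omega] at this
  refine ⟨fun τ => series p χ (12 * s) 1 τ * ((Δf τ)⁻¹) ^ s, ⟨?_, fun γ τ => ?_, ⟨s, fun δ => ?_⟩⟩,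
    mul_ne_zero hne (pow_ne_zero _ (inv_ne_zero (ModularForm.discriminant_ne_zero p)))⟩
  · exact (mdifferentiable_series p hχ hk 1).mul (Igusa.hasExp_deltaInv.1.pow s)
  · rw [series_transform, Igusa.discriminant_smul, ModularGroup.denom_apply, mul_inv, mul_pow,
      inv_pow, ← pow_mul]
    have h0 := Kummer.Poincare.denom_ne_zero' (γ : SL(2, ℤ)) τ
    field_simp
  · refine (isBoundedAtImInfty_series p hχ hk hpar δ).congr'
      (Eventually.of_forall fun τ => ?_) EventuallyEq.rfl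
    have h0 := Kummer.Poincare.denom_ne_zero' δ τ
    have hΔ := ModularForm.discriminant_ne_zero τ
    simp only [series_smul]
    rw [Igusa.discriminant_smul, ModularGroup.denom_apply, mul_inv, mul_pow, inv_pow,
      ← pow_mul]
    field_simp
    rw [mul_assoc, ← mul_pow, mul_one_div, div_self hΔ, one_pow, mul_one]

end Fermat.Agent.DeligneSerre
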