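import Fermat.Agent.DeligneSerre.Diamond
import Fermat.Agent.DeligneSerre.EisChar
import Fermat.Agent.MFCore.Lift

/-!
# The weight two forms `f · E` and `f · f`

For a weight one eigenform `f` of level `N` and the Eisenstein series `E` of an odd character
modulo `ℓ`, these are weight two forms of levels `N ℓ` and `N`, with the expected characters.
-/

set_option autoImplicit false

noncomputable section

namespace Fermat.Agent.DeligneSerre

open UpperHalfPlane CongruenceSubgroup Fermat.Agent.GammaH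
open Fermat.Agent.MFCore (IsQ qExp)
open Fermat.Agent.Newform (HasQ IsCuspFun)
open ModularFormClass (qCoeff)
open scoped MatrixGroups ModularForm Manifold

/-- `{±1}` in `(ℤ/M)ˣ`. -/
abbrev negH (M : ℕ) : Subgroup (ZMod M)ˣ := Subgroup.zpowers (-1)

theorem neg_one_mem_negH (M : ℕ) : (-1 : (ZMod M)ˣ) ∈ negH M := Subgroup.mem_zpowers _

theorem eq_or_eq_of_mem_negH {M : ℕ} {a : (ZMod M)ˣ} (h : a ∈ negH M) : a = 1 ∨ a = -1 := by
  obtain ⟨n, rfl⟩ := Subgroup.mem_zpowers_iff.1 h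
  rcases Int.even_or_odd n with ⟨m, rfl⟩ | ⟨m, rfl⟩
  · left; rw [← two_mul, zpow_mul]; simp
  · right; rw [zpow_add, zpow_mul]; simp

theorem isQ_of_slash_T {k : ℤ} {φ : ℍ → ℂ} (hh : MDiff φ) (hb : IsBoundedAtImInfty φ)
    (hT : φ ∣[k] ModularGroup.T = φ) : IsQ φ := by
  refine ⟨MFCore.periodic_one_of_vadd fun τ => ?_, hh, hb⟩
  have h := congrFun hT τ
  have hd : UpperHalfPlane.denom ((ModularGroup.T : SL(2, ℤ)) : GL (Fin 2) ℝ) τ = 1 := by
    rw [ModularGroup.denom_apply]; simp [ModularGroup.T]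
  rwa [ModularForm.SL_slash_apply, hd, one_zpow, mul_one, modular_T_smul] at h

theorem isQ_form1 {N : ℕ} [NeZero N] {k : ℤ} (f : CuspForm (Gamma1 N) k) : IsQ ⇑f := by
  refine isQ_of_slash_T (k := k) (CuspFormClass.holo f) ?_
    (slash_form1 f (by simp [Gamma1_mem, ModularGroup.coe_T]))
  have h := (isCuspFun_cuspForm f).zeroAt 1
  rw [map_one, SlashAction.slash_one] at h
  exact h.boundedAtFilter

theorem isQ_S2 {M : ℕ} [NeZero M] {H : Subgroup (ZMod M)ˣ} (f : S2 M H) : IsQ ⇑f := by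
  refine isQ_of_slash_T (k := 2) (CuspFormClass.holo f) ?_ (slash_eq_self f T_mem_GammaH)
  have h := (isCuspFun_cuspForm f).zeroAt 1
  rw [map_one, SlashAction.slash_one] at h
  exact h.boundedAtFilter

theorem zeroAt_slash_SL {k : ℤ} {φ : ℍ → ℂ} (h : IsCuspFun k φ) (γ : SL(2, ℤ)) :
    IsZeroAtImInfty (φ ∣[k] γ) := by
  rw [ModularForm.SL_slash, Newform.qm_SL]
  exact h.zeroAt _

section TwoForm

variable {M : ℕ} [NeZero M] {H : Subgroup (ZMod M)ˣ} {φ : ℍ → ℂ}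

/-- Bundle as a weight two cusp form. -/
def twoForm (hh : MDiff φ) (hz : ∀ γ : SL(2, ℤ), IsZeroAtImInfty (φ ∣[(2 : ℤ)] γ))
    (hinv : ∀ γ ∈ GammaH M H, φ ∣[(2 : ℤ)] γ = φ) : S2 M H where
  toFun := φ
  slash_action_eq' := by
    rintro _ ⟨γ, hγ, rfl⟩
    exact hinv γ hγ
  holo' := hh
  zero_at_cusps' {c} hc := by
    rw [Subgroup.IsArithmetic.isCusp_iff_isCusp_SL2Z] at hc
    rw [OnePoint.isZeroAt_iff_forall_SL2Z hc]
    exact fun γ _ => hz γ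

@[simp] theorem coe_twoForm (hh : MDiff φ)
    (hz : ∀ γ : SL(2, ℤ), IsZeroAtImInfty (φ ∣[(2 : ℤ)] γ))
    (hinv : ∀ γ ∈ GammaH M H, φ ∣[(2 : ℤ)] γ = φ) : ⇑(twoForm hh hz hinv) = φ := rfl

end TwoForm

theorem isZero_mul_bdd {φ ψ : ℍ → ℂ} (hφ : IsZeroAtImInfty φ) (hψ : IsBoundedAtImInfty ψ) :
    IsZeroAtImInfty (φ * ψ) := by
  refine (Asymptotics.isLittleO_one_iff ℝ).1 ?_
  simpa [Pi.mul_def, mul_comm] using ((Asymptotics.isLittleO_one_iff ℝ).2 hφ).mul_isBigO hψ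

theorem mul_slash_one_one (φ ψ : ℍ → ℂ) (γ : SL(2, ℤ)) :
    (φ * ψ) ∣[(2 : ℤ)] γ = (φ ∣[(1 : ℤ)] γ) * (ψ ∣[(1 : ℤ)] γ) := by
  rw [show (2 : ℤ) = 1 + 1 by norm_num, ModularForm.mul_slash_SL2]

namespace WeightOneEigen

variable {N : ℕ} [NeZero N] {ε : DirichletCharacter ℂ N} {f : CuspForm (Gamma1 N) 1}

/-- For `N ∣ M` the elements of `Γ₀(M)` act on `f` through `ε`. -/
theorem slash_eq_of_dvd (h : WeightOneEigen N ε f) {M : ℕ} (hNM : N ∣ M) (δ : Gamma0 M) :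
    (f : ℍ → ℂ) ∣[(1 : ℤ)] (δ : SL(2, ℤ)) =
      ε (ZMod.castHom hNM (ZMod N) (unitD M δ : ZMod M)) • (f : ℍ → ℂ) := by
  have h0 : ((δ : SL(2, ℤ)) 1 0 : ZMod N) = 0 := by
    have := congrArg (ZMod.castHom hNM (ZMod N)) (Gamma0_mem.1 δ.2)
    simpa using this
  have := h.slash_eq ⟨δ, Gamma0_mem.2 h0⟩
  rw [coe_unitD] at this ⊢
  simpa using this

variable {ℓ : ℕ} [Fact ℓ.Prime] {χ : DirichletCharacter ℂ ℓ}

/-- `f · E` has level `N ℓ` and character `ε χ`. -/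
theorem exists_prodForm (h : WeightOneEigen N ε f) [NeZero (N * ℓ)] (hodd : χ (-1) = -1) :
    ∃ G : S2 (N * ℓ) (negH (N * ℓ)),
      (G : ℍ → ℂ) = (f : ℍ → ℂ) * eisChar χ ∧
      qExp (G : ℍ → ℂ) = qExp (f : ℍ → ℂ) * PowerSeries.mk (eisCoeff χ) ∧
      ∀ a : (ZMod (N * ℓ))ˣ, diamond a G =
        (ε (ZMod.castHom (dvd_mul_right N ℓ) (ZMod N) (a : ZMod (N * ℓ))) *
          χ (ZMod.castHom (dvd_mul_left ℓ N) (ZMod ℓ) (a : ZMod (N * ℓ)))) • G := by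
  set c : ZMod (N * ℓ) → ℂ := fun x =>
    ε (ZMod.castHom (dvd_mul_right N ℓ) (ZMod N) x) *
      χ (ZMod.castHom (dvd_mul_left ℓ N) (ZMod ℓ) x) with hc
  have hsl : ∀ δ : Gamma0 (N * ℓ), ((f : ℍ → ℂ) * eisChar χ) ∣[(2 : ℤ)] (δ : SL(2, ℤ)) =
      c (unitD (N * ℓ) δ : ZMod (N * ℓ)) • ((f : ℍ → ℂ) * eisChar χ) := by
    intro δ
    have h0 : ((δ : SL(2, ℤ)) 1 0 : ZMod ℓ) = 0 := by
      have := congrArg (ZMod.castHom (dvd_mul_left ℓ N) (ZMod ℓ)) (Gamma0_mem.1 δ.2)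
      simpa using this
    rw [mul_slash_one_one, h.slash_eq_of_dvd (dvd_mul_right N ℓ) δ,
      eisChar_slash (Gamma0_mem.2 h0), smul_mul_smul_comm, hc]
    congr 2
    simp [coe_unitD]
  have hz : ∀ γ : SL(2, ℤ), IsZeroAtImInfty (((f : ℍ → ℂ) * eisChar χ) ∣[(2 : ℤ)] γ) := fun γ => by
    rw [mul_slash_one_one]
    exact isZero_mul_bdd (zeroAt_slash_SL (isCuspFun_cuspForm f) γ)
      (isBoundedAtImInfty_eisChar_slash γ)
  have hinv : ∀ γ ∈ GammaH (N * ℓ) (negH (N * ℓ)),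
      ((f : ℍ → ℂ) * eisChar χ) ∣[(2 : ℤ)] γ = (f : ℍ → ℂ) * eisChar χ := by
    intro γ hγ
    have e := hsl ⟨γ, GammaH_le_Gamma0 hγ⟩
    rcases eq_or_eq_of_mem_negH (unitD_mem_of_mem hγ) with h1 | h1 <;> rw [h1] at e
    · simpa [hc] using e
    · simpa [hc, h.eps_neg_one, hodd, map_neg] using e
  have hE : IsQ (eisChar χ) := by
    refine isQ_of_slash_T (k := 1) mdifferentiable_eisChar ?_ ?_
    · simpa using isBoundedAtImInfty_eisChar_slash (χ := χ) 1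
    · rw [eisChar_slash (by simp [Gamma0_mem, ModularGroup.coe_T])]
      simp [ModularGroup.coe_T]
  refine ⟨twoForm ((CuspFormClass.holo f).mul mdifferentiable_eisChar) hz hinv, rfl, ?_,
    fun a => ?_⟩
  · rw [coe_twoForm, MFCore.qExp_mul (isQ_form1 f) hE]
    congr 1
    ext n
    rw [PowerSeries.coeff_mk, ← MFCore.qExp_coeff_unique hE
      (fun τ => by simpa using hasQ_eisChar hodd τ) n]
  · refine DFunLike.coe_injective ?_
    rw [coe_diamond', FunLike.coe_smul, coe_twoForm, hsl, unitD_deltaOf]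

/-- `f · f` has level `N`. -/
theorem exists_sqForm (h : WeightOneEigen N ε f) :
    ∃ g : S2 N (negH N), (g : ℍ → ℂ) = (f : ℍ → ℂ) * (f : ℍ → ℂ) := by
  refine ⟨twoForm ((CuspFormClass.holo f).mul (CuspFormClass.holo f)) (fun γ => ?_)
    (fun γ hγ => ?_),
    rfl⟩
  · rw [mul_slash_one_one]
    exact isZero_mul_bdd (zeroAt_slash_SL (isCuspFun_cuspForm f) γ)
      (zeroAt_slash_SL (isCuspFun_cuspForm f) γ).boundedAtFilter
  · rw [mul_slash_one_one]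
    have e : (f : ℍ → ℂ) ∣[(1 : ℤ)] γ = ε (unitD N ⟨γ, GammaH_le_Gamma0 hγ⟩ : ZMod N) • ⇑f :=
      h.slash_eq ⟨γ, GammaH_le_Gamma0 hγ⟩
    rcases eq_or_eq_of_mem_negH (unitD_mem_of_mem hγ) with h1 | h1 <;> rw [h1] at e
    · simp [e]
    · simp [e, h.eps_neg_one]

end WeightOneEigen

end Fermat.Agent.DeligneSerre
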