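import Fermat.Agent.DeligneSerre.MeanSquare

/-!
# Rankin's bound

If `(a n)` satisfies the Hecke relations of weight one at the primes not dividing `N` and
`∑_{n ≤ X} |a n|² = O(X)`, then `∑_p |a p|² p⁻ˢ ≤ log (1/(s-1)) + O(1)` as `s → 1⁺`.
-/

set_option autoImplicit false

noncomputable section

open Complex Filter Topology Finset
open scoped ComplexConjugate

namespace Fermat.Agent.DeligneSerre

/-- The hypotheses of Rankin's bound. -/
structure RankinSeq (N : ℕ) (a e : ℕ → ℂ) (K : ℝ) : Prop where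
  one : a 1 = 1
  rel : ∀ p : ℕ, p.Prime → ¬ p ∣ N → ∀ n : ℕ,
    a (p * n) + e p * (if p ∣ n then a (n / p) else 0) = a p * a n
  norm_e : ∀ p : ℕ, p.Prime → ¬ p ∣ N → ‖e p‖ = 1
  bound : ∀ X : ℕ, ∑ n ∈ Finset.Icc 1 X, normSq (a n) ≤ K * X

variable {N : ℕ} {a e : ℕ → ℂ} {K : ℝ}

theorem RankinSeq.pow_mul (h : RankinSeq N a e K) {p : ℕ} (hp : p.Prime) (hpN : ¬ p ∣ N) {m : ℕ}
    (hpm : ¬ p ∣ m) : ∀ k : ℕ, a (p ^ k * m) = a (p ^ k) * a m
  | 0 => by simp [h.one]
  | 1 => by
    have := h.rel p hp hpN m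
    rw [if_neg hpm, mul_zero, add_zero] at this
    simpa using this
  | k + 2 => by
    have h1 := h.rel p hp hpN (p ^ (k + 1) * m)
    have h2 := h.rel p hp hpN (p ^ (k + 1))
    rw [if_pos (dvd_mul_of_dvd_left (dvd_pow_self p (by omega)) m), pow_succ p k, mul_assoc,
      mul_comm p m, ← mul_assoc (p ^ k), Nat.mul_div_cancel _ hp.pos] at h1
    rw [if_pos (dvd_pow_self p (by omega)), pow_succ p k, Nat.mul_div_cancel _ hp.pos] at h2
    rw [h.pow_mul hp hpN hpm k] at h1
    have e1 : p ^ (k + 2) * m = p * (p ^ k * m * p) := by ring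
    have e2 : p ^ (k + 2) = p * (p ^ k * p) := by ring
    have e3 : p ^ k * m * p = p ^ (k + 1) * m := by ring
    rw [e1, e2]
    rw [e3, h.pow_mul hp hpN hpm (k + 1)] at h1
    rw [e3]
    rw [← pow_succ] at h2 ⊢
    linear_combination h1 - a m * h2

theorem RankinSeq.rec_pow (h : RankinSeq N a e K) {p : ℕ} (hp : p.Prime) (hpN : ¬ p ∣ N) (k : ℕ) :
    a (p ^ (k + 2)) = a p * a (p ^ (k + 1)) - e p * a (p ^ k) := by
  have h2 := h.rel p hp hpN (p ^ (k + 1))
  rw [if_pos (dvd_pow_self p (by omega)), pow_succ p k, Nat.mul_div_cancel _ hp.pos,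
    ← pow_succ, ← pow_succ'] at h2
  linear_combination h2

/-- Products of truncated local series are partial sums of the whole series. -/
theorem RankinSeq.prod_local_eq (h : RankinSeq N a e K) (s : ℝ) (M : ℕ) (P : Finset ℕ)
    (hP : ∀ p ∈ P, p.Prime ∧ ¬ p ∣ N) :
    ∃ S : Finset ℕ, 0 ∉ S ∧ (∀ n ∈ S, ∀ q : ℕ, q.Prime → q ∣ n → q ∈ P) ∧
      ∏ p ∈ P, ∑ k ∈ Finset.range M, normSq (a (p ^ k)) * ((p ^ k : ℕ) : ℝ) ^ (-s) =
        ∑ n ∈ S, normSq (a n) * (n : ℝ) ^ (-s) := by
  classical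
  induction P using Finset.induction_on with
  | empty =>
    refine ⟨{1}, by simp, fun n hn q hq hqn => ?_, by simp [h.one]⟩
    rw [Finset.mem_singleton.1 hn] at hqn
    exact absurd (Nat.dvd_one.1 hqn) hq.ne_one
  | insert p P hpP ih =>
    obtain ⟨S, h0, hS, hsum⟩ := ih fun q hq => hP q (Finset.mem_insert_of_mem hq)
    obtain ⟨hp, hpN⟩ := hP p (Finset.mem_insert_self p P)
    have hnd : ∀ n ∈ S, ¬ p ∣ n := fun n hn hd => hpP (hS n hn p hp hd)
    have hinj : Set.InjOn (fun x : ℕ × ℕ => p ^ x.1 * x.2)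
        ((Finset.range M ×ˢ S : Finset (ℕ × ℕ)) : Set (ℕ × ℕ)) := by
      intro x hx y hy hxy
      simp only [Finset.coe_product, Set.mem_prod, Finset.mem_coe] at hx hy
      have key : x.1 = y.1 := by
        have := congrArg (fun n : ℕ => n.factorization p) hxy
        simp only at this
        rwa [Nat.factorization_mul (pow_ne_zero _ hp.ne_zero) (fun z : x.2 = 0 => h0 (z ▸ hx.2)),
          Nat.factorization_mul (pow_ne_zero _ hp.ne_zero) (fun z : y.2 = 0 => h0 (z ▸ hy.2)),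
          Finsupp.add_apply, Finsupp.add_apply, hp.factorization_pow, hp.factorization_pow,
          Finsupp.single_eq_same, Finsupp.single_eq_same,
          Nat.factorization_eq_zero_of_not_dvd (hnd _ hx.2),
          Nat.factorization_eq_zero_of_not_dvd (hnd _ hy.2), add_zero, add_zero] at this
      refine Prod.ext key ?_
      simp only [key] at hxy
      exact Nat.eq_of_mul_eq_mul_left (pow_pos hp.pos _) hxy
    refine ⟨(Finset.range M ×ˢ S).image fun x => p ^ x.1 * x.2, ?_, ?_, ?_⟩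
    · intro h'
      obtain ⟨x, hx, hx0⟩ := Finset.mem_image.1 h'
      rcases mul_eq_zero.1 hx0 with h1 | h1
      · exact hp.ne_zero (pow_eq_zero_iff'.1 h1).1
      · exact h0 (h1 ▸ (Finset.mem_product.1 hx).2)
    · intro n hn q hq hqn
      obtain ⟨x, hx, rfl⟩ := Finset.mem_image.1 hn
      rcases (Nat.Prime.dvd_mul hq).1 hqn with h1 | h1
      · rw [(Nat.prime_dvd_prime_iff_eq hq hp).1 (hq.dvd_of_dvd_pow h1)]
        exact Finset.mem_insert_self p P
      · exact Finset.mem_insert_of_mem (hS _ (Finset.mem_product.1 hx).2 q hq h1)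
    · rw [Finset.prod_insert hpP, hsum, Finset.sum_mul_sum, ← Finset.sum_product',
        Finset.sum_image hinj]
      refine Finset.sum_congr rfl fun x hx => ?_
      rw [h.pow_mul hp hpN (hnd _ (Finset.mem_product.1 hx).2), map_mul, Nat.cast_mul,
        Real.mul_rpow (Nat.cast_nonneg _) (Nat.cast_nonneg _)]
      ring

theorem normSq_rec_key (t e u v : ℂ) (he : ‖e‖ = 1) :
    let u2 := t * v - e * u
    let u3 := t * u2 - e * v
    let u4 := t * u3 - e * u2
    normSq u4 - normSq t * normSq u3 + (2 * (t ^ 2 * conj e).re - 2) * normSq u2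
      - normSq t * normSq v + normSq u = 0 := by
  intro u2 u3 u4
  have hne : e ≠ 0 := fun h => by simp [h] at he
  have hce : conj e = e⁻¹ := (Complex.inv_eq_conj he).symm
  apply Complex.ofReal_injective
  push_cast
  simp only [Complex.normSq_eq_conj_mul_self, u4, u3, u2, map_sub, map_mul, map_pow,
    Complex.re_eq_add_conj, map_inv₀, hce, inv_inv]
  field_simp
  ring

/-- The local factor: `exp (A x - c x²) ≤ ∑ₖ |a (pᵏ)|² xᵏ`. -/
theorem exp_le_local_tsum {t e : ℂ} (he : ‖e‖ = 1) {u : ℕ → ℂ} (h0 : u 0 = 1) (h1 : u 1 = t)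
    (hrec : ∀ k, u (k + 2) = t * u (k + 1) - e * u k) {x : ℝ} (hx0 : 0 ≤ x) (hx : x ≤ 1 / 2)
    (hsum : Summable fun k => normSq (u k) * x ^ k) {c : ℝ} (hc : normSq t * x ≤ c) :
    Real.exp (normSq t * x - (Real.exp c + 2) * x ^ 2) ≤ ∑' k, normSq (u k) * x ^ k := by
  set A := normSq t
  set B := (t ^ 2 * conj e).re
  have hsummable : ∀ j, Summable fun k => normSq (u (k + j)) * x ^ k := by
    intro j
    induction j with
    | zero => simpa using hsum
    | succ j ih =>
      rcases eq_or_ne x 0 with rfl | hx'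
      · exact summable_of_ne_finset_zero (s := {0}) fun k hk => by
          simp [Finset.notMem_singleton.1 hk]
      have := ((summable_nat_add_iff 1).2 ih).mul_left x⁻¹
      refine this.congr fun k => ?_
      rw [add_right_comm k 1 j, ← add_assoc, pow_succ]
      field_simp
  set S : ℕ → ℝ := fun j => ∑' k, normSq (u (k + j)) * x ^ k with hS
  have hstep : ∀ j, S j = normSq (u j) + x * S (j + 1) := by
    intro j
    simp only [hS]
    rw [(hsummable j).tsum_eq_zero_add, ← tsum_mul_left]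
    simp only [zero_add, pow_zero, mul_one, add_comm j 1, ← add_assoc]
    congr 1
    exact tsum_congr fun k => by rw [pow_succ]; ring
  have hlin : S 4 - A * S 3 + (2 * B - 2) * S 2 - A * S 1 + S 0 = 0 := by
    simp only [hS, ← tsum_mul_left]
    rw [← Summable.tsum_sub (hsummable 4) ((hsummable 3).mul_left A),
      ← Summable.tsum_add ((hsummable 4).sub ((hsummable 3).mul_left A))
        ((hsummable 2).mul_left _),
      ← Summable.tsum_sub (((hsummable 4).sub ((hsummable 3).mul_left A)).add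
        ((hsummable 2).mul_left _)) ((hsummable 1).mul_left A),
      ← Summable.tsum_add ((((hsummable 4).sub ((hsummable 3).mul_left A)).add
        ((hsummable 2).mul_left _)).sub ((hsummable 1).mul_left A)) (hsummable 0)]
    refine (tsum_congr fun k => ?_).trans tsum_zero
    have hk := normSq_rec_key t e (u k) (u (k + 1)) he
    simp only [← hrec k] at hk
    rw [show t * u (k + 2) - e * u (k + 1) = u (k + 3) from (hrec (k + 1)).symm,
      show t * u (k + 3) - e * u (k + 2) = u (k + 4) from (hrec (k + 2)).symm] at hk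
    rw [add_zero]
    linear_combination x ^ k * hk
  have w0 : normSq (u 0) = 1 := by simp [h0]
  have w1 : normSq (u 1) = A := by rw [h1]
  have w2 : normSq (u 2) = A ^ 2 - 2 * B + 1 := by
    rw [hrec 0, h1, h0, mul_one, Complex.normSq_sub, map_mul,
      Complex.normSq_eq_norm_sq e, he, show t * t = t ^ 2 by ring]
    ring
  have w3 : normSq (u 3) = A * normSq (u 2) - (2 * B - 2) * A + A := by
    have hk := normSq_rec_key t e 0 1 he
    simp only [mul_one, mul_zero, sub_zero, map_zero, map_one, add_zero] at hk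
    rw [hrec 1, hrec 0, h1, h0, mul_one]
    linear_combination hk
  have key : S 0 * (1 - A * x + (2 * B - 2) * x ^ 2 - A * x ^ 3 + x ^ 4) = 1 - x ^ 2 := by
    have s0 := hstep 0
    have s1 := hstep 1
    have s2 := hstep 2
    have s3 := hstep 3
    simp only [Nat.reduceAdd] at s0 s1 s2 s3
    rw [w0] at s0
    rw [w1] at s1
    rw [w3, w2] at s3
    rw [w2] at s2
    linear_combination
      ((1 - A * x + (2 * B - 2) * x ^ 2 - A * x ^ 3 + x ^ 4) - x ^ 4) *
        (s0 + x * s1 + x ^ 2 * s2 + x ^ 3 * s3)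
      + x ^ 4 * (hlin + A * s3 - (2 * B - 2) * (s2 + x * s3) + A * (s1 + x * s2 + x ^ 2 * s3))
  have hS0 : 1 ≤ S 0 := by
    rw [hstep 0, w0]
    have : 0 ≤ S 1 := tsum_nonneg fun k => mul_nonneg (normSq_nonneg _) (pow_nonneg hx0 _)
    nlinarith
  set D := 1 - A * x + (2 * B - 2) * x ^ 2 - A * x ^ 3 + x ^ 4
  have hBA : B ≤ A := (Complex.re_le_norm _).trans (le_of_eq (by
    rw [norm_mul, norm_pow, Complex.norm_conj, he, mul_one, ← Complex.normSq_eq_norm_sq]))
  have hDle : D ≤ (1 - x) ^ 2 * (1 - (A - 2) * x + x ^ 2) := by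
    nlinarith [mul_le_mul_of_nonneg_right hBA (sq_nonneg x)]
  have hD2 : D ≤ Real.exp (-(2 * x)) *
    (Real.exp (-((A - 2) * x)) * Real.exp (Real.exp c * x ^ 2)) := by
    refine hDle.trans ?_
    have e1 : (1 - x) ^ 2 ≤ Real.exp (-(2 * x)) := by
      rw [show -(2 * x) = (-x) + (-x) by ring, Real.exp_add, sq]
      exact mul_self_le_mul_self (by linarith) (by linarith [Real.add_one_le_exp (-x)])
    have e2 : 1 - (A - 2) * x + x ^ 2 ≤
        Real.exp (-((A - 2) * x)) * Real.exp (Real.exp c * x ^ 2) := by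
      have a1 := Real.add_one_le_exp (-((A - 2) * x))
      have a2 := Real.add_one_le_exp (Real.exp c * x ^ 2)
      have a3 : 1 ≤ Real.exp (-((A - 2) * x)) * Real.exp c := by
        rw [← Real.exp_add]
        exact Real.one_le_exp (by linarith)
      have a4 := (Real.exp_pos (-((A - 2) * x))).le
      calc 1 - (A - 2) * x + x ^ 2 ≤ Real.exp (-((A - 2) * x)) +
            (Real.exp (-((A - 2) * x)) * Real.exp c) * x ^ 2 := by nlinarith [sq_nonneg x]
        _ = Real.exp (-((A - 2) * x)) * (Real.exp c * x ^ 2 + 1) := by ring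
        _ ≤ _ := mul_le_mul_of_nonneg_left a2 a4
    have e3 : 0 ≤ Real.exp (-((A - 2) * x)) * Real.exp (Real.exp c * x ^ 2) := by positivity
    calc (1 - x) ^ 2 * (1 - (A - 2) * x + x ^ 2)
        ≤ (1 - x) ^ 2 * (Real.exp (-((A - 2) * x)) * Real.exp (Real.exp c * x ^ 2)) :=
          mul_le_mul_of_nonneg_left e2 (sq_nonneg _)
      _ ≤ _ := mul_le_mul_of_nonneg_right e1 e3
  rw [← Real.exp_add, ← Real.exp_add] at hD2
  have h4 : Real.exp (-(2 * x ^ 2)) ≤ 1 - x ^ 2 := by
    have a1 := Real.add_one_le_exp (2 * x ^ 2)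
    rw [Real.exp_neg]
    refine (inv_anti₀ (by positivity) (by linarith : (2 : ℝ) * x ^ 2 + 1 ≤ _)).trans ?_
    rw [inv_le_iff_one_le_mul₀ (by positivity)]
    have hx2 : x ^ 2 ≤ 1 / 4 := by nlinarith
    nlinarith [mul_nonneg (sq_nonneg x) (sub_nonneg.2 hx2)]
  have hS0' : S 0 = ∑' k, normSq (u k) * x ^ k := by simp [hS]
  rw [← hS0']
  have h5 : Real.exp (-(2 * x ^ 2)) ≤ S 0 * Real.exp
      (-(2 * x) + (-((A - 2) * x) + Real.exp c * x ^ 2)) :=
    h4.trans (key ▸ mul_le_mul_of_nonneg_left hD2 (by linarith))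
  rw [← div_le_iff₀ (Real.exp_pos _), ← Real.exp_sub] at h5
  refine le_trans (le_of_eq ?_) h5
  congr 1
  ring

/-- **Rankin.** `∑_{p ∤ N} |a p|² p⁻ˢ ≤ -log (s - 1) + C`. -/
theorem RankinSeq.exists_tsum_le (h : RankinSeq N a e K) :
    ∃ C : ℝ, ∀ᶠ s in 𝓝[>] (1 : ℝ),
      (Summable fun p : Nat.Primes =>
        if (p : ℕ) ∣ N then 0 else normSq (a p) * ((p : ℕ) : ℝ) ^ (-s)) ∧
      (∑' p : Nat.Primes, if (p : ℕ) ∣ N then 0 else normSq (a p) * ((p : ℕ) : ℝ) ^ (-s)) ≤
        -Real.log (s - 1) + C := by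
  have hK1 : 1 ≤ K := by simpa [h.one] using h.bound 1
  set Q := ∑' p : Nat.Primes, ((p : ℕ) : ℝ) ^ (-(2 : ℝ)) with hQ
  have hQs : Summable fun p : Nat.Primes => ((p : ℕ) : ℝ) ^ (-(2 : ℝ)) :=
    Nat.Primes.summable_rpow.2 (by norm_num)
  refine ⟨Real.log (4 * K) + (Real.exp K + 2) * Q, ?_⟩
  filter_upwards [Ioo_mem_nhdsGT (show (1 : ℝ) < 2 by norm_num)] with s hs
  obtain ⟨hs1, hs2⟩ := hs
  have hpos : 0 < 4 * K / (s - 1) := div_pos (by linarith) (by linarith)
  set F : Nat.Primes → ℝ := fun p =>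
    if (p : ℕ) ∣ N then 0 else normSq (a p) * ((p : ℕ) : ℝ) ^ (-s) with hF
  have hF0 : ∀ p, 0 ≤ F p := fun p => by
    simp only [hF]
    split_ifs
    · exact le_rfl
    · exact mul_nonneg (normSq_nonneg _) (Real.rpow_nonneg (Nat.cast_nonneg _) _)
  have hpow : ∀ p k : ℕ, ((p ^ k : ℕ) : ℝ) ^ (-s) = ((p : ℝ) ^ (-s)) ^ k := fun p k => by
    rw [Nat.cast_pow, ← Real.rpow_natCast _ k, ← Real.rpow_natCast _ k,
      ← Real.rpow_mul (Nat.cast_nonneg _), ← Real.rpow_mul (Nat.cast_nonneg _), mul_comm]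
  have hloc : ∀ p : ℕ, p.Prime → ¬ p ∣ N →
      Summable fun k => normSq (a (p ^ k)) * ((p : ℝ) ^ (-s)) ^ k := by
    intro p hp hpN
    refine summable_of_sum_range_le (fun k => mul_nonneg (normSq_nonneg _)
      (pow_nonneg (Real.rpow_nonneg (Nat.cast_nonneg _) _) _)) (c := 4 * K / (s - 1)) fun M => ?_
    obtain ⟨S, h0, -, hS⟩ := h.prod_local_eq s M {p} (by simp [hp, hpN])
    rw [Finset.prod_singleton] at hS
    simp only [← hpow]
    rw [hS]
    exact sum_mul_rpow_neg_le (fun n => normSq_nonneg _) h.bound hs1 hs2.le S h0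
  have hfin : ∀ P : Finset Nat.Primes,
      ∑ p ∈ P, F p ≤ -Real.log (s - 1) + (Real.log (4 * K) + (Real.exp K + 2) * Q) := by
    intro P
    set P' := P.filter fun p : Nat.Primes => ¬ (p : ℕ) ∣ N
    have hsum : ∑ p ∈ P, F p = ∑ p ∈ P', normSq (a p) * ((p : ℕ) : ℝ) ^ (-s) := by
      rw [Finset.sum_filter]
      refine Finset.sum_congr rfl fun p _ => ?_
      simp only [hF, ite_not]
    have hprod : ∏ p ∈ P', ∑' k, normSq (a ((p : ℕ) ^ k)) * (((p : ℕ) : ℝ) ^ (-s)) ^ k ≤
        4 * K / (s - 1) := by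
      refine le_of_tendsto' (tendsto_finsetProd P' fun p hp =>
        (hloc p p.2 (Finset.mem_filter.1 hp).2).hasSum.tendsto_sum_nat) fun M => ?_
      obtain ⟨S, h0, -, hS⟩ := h.prod_local_eq s M (P'.image fun p : Nat.Primes => (p : ℕ))
        fun p hp => by
        obtain ⟨q, hq, rfl⟩ := Finset.mem_image.1 hp
        exact ⟨q.2, (Finset.mem_filter.1 hq).2⟩
      rw [Finset.prod_image (s := P') (g := fun p : Nat.Primes => (p : ℕ))
        fun x _ y _ hxy => Subtype.ext hxy] at hS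
      simp only [← hpow]
      rw [hS]
      exact sum_mul_rpow_neg_le (fun n => normSq_nonneg _) h.bound hs1 hs2.le S h0
    have hexp : Real.exp (∑ p ∈ P', (normSq (a p) * ((p : ℕ) : ℝ) ^ (-s) -
        (Real.exp K + 2) * (((p : ℕ) : ℝ) ^ (-s)) ^ 2)) ≤ 4 * K / (s - 1) := by
      rw [Real.exp_sum]
      refine le_trans (Finset.prod_le_prod (fun p _ => (Real.exp_pos _).le) fun p hp => ?_) hprod
      have hpN := (Finset.mem_filter.1 hp).2
      have hp1 : (1 : ℝ) ≤ ((p : ℕ) : ℝ) := by exact_mod_cast p.2.one_le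
      have hx : ((p : ℕ) : ℝ) ^ (-s) ≤ ((p : ℕ) : ℝ)⁻¹ := by
        rw [← Real.rpow_neg_one]
        exact Real.rpow_le_rpow_of_exponent_le hp1 (by linarith)
      have hhalf : ((p : ℕ) : ℝ)⁻¹ ≤ 1 / 2 := by
        rw [one_div]
        exact inv_anti₀ two_pos (by exact_mod_cast p.2.two_le)
      refine exp_le_local_tsum (h.norm_e p p.2 hpN) (u := fun k => a ((p : ℕ) ^ k))
        (by simp [h.one]) (by simp) (fun k => h.rec_pow p.2 hpN k)
        (Real.rpow_nonneg (Nat.cast_nonneg _) _) (hx.trans hhalf) (hloc p p.2 hpN) ?_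
      have hb : normSq (a p) ≤ K * (p : ℕ) :=
        (Finset.single_le_sum (fun n _ => normSq_nonneg (a n))
          (Finset.mem_Icc.2 ⟨p.2.one_le, le_rfl⟩)).trans (h.bound p)
      calc normSq (a p) * ((p : ℕ) : ℝ) ^ (-s) ≤ K * (p : ℕ) * ((p : ℕ) : ℝ)⁻¹ :=
            mul_le_mul hb hx (Real.rpow_nonneg (Nat.cast_nonneg _) _) (by positivity)
        _ = K := by field_simp
    have hlog := (Real.le_log_iff_exp_le hpos).2 hexp
    rw [Finset.sum_sub_distrib, ← Finset.mul_sum,
      Real.log_div (by positivity) (by linarith)] at hlog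
    have hsq : ∑ p ∈ P', (((p : ℕ) : ℝ) ^ (-s)) ^ 2 ≤ Q := by
      refine le_trans (Finset.sum_le_sum fun p _ => ?_)
        (hQs.sum_le_tsum P' fun p _ => Real.rpow_nonneg (Nat.cast_nonneg _) _)
      rw [← Real.rpow_natCast, ← Real.rpow_mul (Nat.cast_nonneg _)]
      exact Real.rpow_le_rpow_of_exponent_le (by exact_mod_cast p.2.one_le)
        (by push_cast; linarith)
    rw [hsum]
    have : 0 ≤ Real.exp K + 2 := by positivity
    nlinarith [mul_le_mul_of_nonneg_left hsq this]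
  exact ⟨summable_of_sum_le hF0 hfin, Real.tsum_le_of_sum_le hF0 hfin⟩

end Fermat.Agent.DeligneSerre
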