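import Fermat.Agent.DeligneSerre.FunTwist
import Fermat.Agent.Kummer.Invariant
import Fermat.Agent.Kummer.NthRoot
import Fermat.Agent.LevelM.Sep
import Fermat.Agent.Periods.Parabolic

/-!
# Field automorphisms act on characters of `±Γ₁(M)` of order `n`

If `f` transforms by `χ` then `σ (f ^ n) = H ^ n` with `H` transforming by a character `σχ`
which does not depend on `f`.
-/

set_option autoImplicit false

noncomputable section

open Complex Filter Topology Function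
open UpperHalfPlane hiding I
open scoped MatrixGroups Manifold ModularForm

namespace Fermat.Agent.DeligneSerre

open Fermat.Agent.Igusa (HasExp QS mem_QS)
open Fermat.Agent.LevelM (sgnGamma sgnGamma1 ConjRel RootTwist)
open Fermat.Agent.Kummer (MeroH)
open Fermat.Agent.Kummer.MeroH (ofHol ordAt)
open Fermat.Agent.Kummer (uhp)

local notation "Δf" => ModularForm.discriminant

theorem mem_sgnGamma1_iff_zmod {M : ℕ} {γ : SL(2, ℤ)} : γ ∈ sgnGamma1 M ↔
    ((γ 1 0 : ZMod M) = 0 ∧ (γ 1 1 : ZMod M) = 1) ∨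
      ((γ 1 0 : ZMod M) = 0 ∧ (γ 1 1 : ZMod M) = -1) := by
  simp only [LevelM.mem_sgnGamma1_iff, LevelM.RowEq, Matrix.SpecialLinearGroup.coe_one,
    Matrix.one_apply_ne (show (1 : Fin 2) ≠ 0 by decide), Matrix.one_apply_eq, sub_zero, add_zero,
    ← ZMod.intCast_zmod_eq_zero_iff_dvd]
  push_cast
  rw [sub_eq_zero, add_eq_zero_iff_eq_neg]

theorem sgnGamma_le_sgnGamma1 (M : ℕ) : sgnGamma M ≤ sgnGamma1 M := fun γ hγ => by
  rw [mem_sgnGamma1_iff_zmod]
  rcases hγ with h | h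
  · obtain ⟨-, -, h10, h11⟩ := CongruenceSubgroup.Gamma_mem.1 h
    exact Or.inl ⟨h10, h11⟩
  · obtain ⟨-, -, h10, h11⟩ := CongruenceSubgroup.Gamma_mem.1 h
    simp only [Matrix.SpecialLinearGroup.coe_neg, Matrix.neg_apply, Int.cast_neg,
      neg_eq_iff_eq_neg, neg_zero] at h10 h11
    exact Or.inr ⟨h10, h11⟩

theorem conjRel_mem_sgnGamma1_iff {M : ℕ} {c : ℤ} (hc : IsCoprime c (M : ℤ)) {δ δ' : SL(2, ℤ)}
    (h : ConjRel M c δ δ') : δ ∈ sgnGamma1 M ↔ δ' ∈ sgnGamma1 M := by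
  obtain ⟨-, -, h10, h11⟩ := h
  have hu : IsUnit (c : ZMod M) := by
    obtain ⟨u, w, huw⟩ := hc
    have := congrArg (fun x : ℤ => (x : ZMod M)) huw
    push_cast at this
    rw [ZMod.natCast_self, mul_zero, add_zero] at this
    exact IsUnit.of_mul_eq_one_right _ this
  rw [mem_sgnGamma1_iff_zmod, mem_sgnGamma1_iff_zmod, h11, ← h10, IsUnit.mul_right_eq_zero hu]

theorem trace_zmod {M : ℕ} {γ : SL(2, ℤ)} (hγ : γ ∈ sgnGamma1 M) :
    (((γ : Matrix (Fin 2) (Fin 2) ℤ).trace : ℤ) : ZMod M) = 2 ∨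
      (((γ : Matrix (Fin 2) (Fin 2) ℤ).trace : ℤ) : ZMod M) = -2 := by
  have hd := γ.2
  rw [Matrix.det_fin_two] at hd
  have hd' := congrArg (fun x : ℤ => (x : ZMod M)) hd
  push_cast at hd'
  rw [Matrix.trace_fin_two]
  push_cast
  rcases mem_sgnGamma1_iff_zmod.1 hγ with ⟨h10, h11⟩ | ⟨h10, h11⟩
  · left; rw [h10, h11, mul_one, mul_zero, sub_zero] at hd'; rw [h11, hd']; ring
  · right
    rw [h10, h11, mul_zero, sub_zero, mul_neg_one] at hd'
    rw [h11]; linear_combination -hd'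

theorem trace_sq_ge {M : ℕ} (hM : 5 ≤ M) {γ : SL(2, ℤ)} (hγ : γ ∈ sgnGamma1 M) :
    4 ≤ (γ : Matrix (Fin 2) (Fin 2) ℤ).trace ^ 2 := by
  set t := (γ : Matrix (Fin 2) (Fin 2) ℤ).trace
  by_contra hlt
  have h1 : -1 ≤ t ∧ t ≤ 1 := by constructor <;> nlinarith
  rcases trace_zmod hγ with h | h
  · have hd : (M : ℤ) ∣ t - 2 := by
      rw [← ZMod.intCast_zmod_eq_zero_iff_dvd]; push_cast; rw [h, sub_self]
    have := Int.le_of_dvd (by omega) (dvd_neg.2 hd)
    omega
  · have hd : (M : ℤ) ∣ t + 2 := by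
      rw [← ZMod.intCast_zmod_eq_zero_iff_dvd]; push_cast; rw [h, neg_add_cancel]
    have := Int.le_of_dvd (by omega) hd
    omega

theorem smul_eq_trace {γ : SL(2, ℤ)} {τ : ℍ} (h : γ • τ = τ) :
    γ = 1 ∨ γ = -1 ∨ (γ : Matrix (Fin 2) (Fin 2) ℤ).trace ^ 2 < 4 := by
  have hC := Kummer.Poincare.denom_ne_zero' γ τ
  have h' := congrArg (fun z : ℍ => (z : ℂ)) h
  simp only [Kummer.Poincare.coe_smul_apply, div_eq_iff hC] at h'
  have hd := γ.2
  rw [Matrix.det_fin_two] at hd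
  have hre := congrArg Complex.re h'
  have him := congrArg Complex.im h'
  simp only [add_re, add_im, mul_re, mul_im, intCast_re, intCast_im, UpperHalfPlane.coe_re,
    UpperHalfPlane.coe_im, zero_mul, sub_zero, add_zero] at hre him
  have hy := τ.im_pos
  set a := γ 0 0; set b := γ 0 1; set c := γ 1 0; set d := γ 1 1
  have k1 : (a : ℝ) = 2 * c * τ.re + d := by
    refine mul_right_cancel₀ hy.ne' ?_
    linear_combination him
  rcases eq_or_ne c 0 with hc | hc
  · rw [hc, mul_zero, sub_zero] at hd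
    rw [hc, Int.cast_zero, mul_zero, zero_mul, zero_add] at k1
    have had : a = d := by exact_mod_cast k1
    have hb : b = 0 := by
      have : (b : ℝ) = 0 := by
        rw [k1, hc] at hre; push_cast at hre; linarith
      exact_mod_cast this
    rcases Int.eq_one_or_neg_one_of_mul_eq_one hd with h1 | h1
    · left
      apply Subtype.ext
      ext i j
      fin_cases i <;> fin_cases j <;> simp [← had, h1, hb, hc, a, b, c, d] at *
    · right; left
      apply Subtype.ext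
      ext i j
      fin_cases i <;> fin_cases j <;> simp [← had, h1, hb, hc, a, b, c, d] at *
  · right; right
    rw [Matrix.trace_fin_two]
    have hdr : (a : ℝ) * d - b * c = 1 := by exact_mod_cast hd
    have hb : (b : ℝ) = -c * (τ.re ^ 2 + τ.im ^ 2) := by
      rw [k1] at hre; linear_combination hre
    have hcy : 0 < (c : ℝ) ^ 2 * τ.im ^ 2 := by
      have : (c : ℝ) ≠ 0 := Int.cast_ne_zero.2 hc
      positivity
    have key : ((a : ℝ) + d) ^ 2 = 4 - 4 * ((c : ℝ) ^ 2 * τ.im ^ 2) := by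
      rw [k1, hb] at hdr
      rw [k1]; linear_combination 4 * hdr
    have : (((a + d) ^ 2 : ℤ) : ℝ) < ((4 : ℤ) : ℝ) := by push_cast; linarith
    exact_mod_cast this

theorem isFree_sgnGamma1 {M : ℕ} (hM : 5 ≤ M) : IsFree (sgnGamma1 M) := fun γ τ hγ h => by
  rcases smul_eq_trace h with h1 | h1 | h1
  · exact Or.inl h1
  · exact Or.inr h1
  · exact absurd (trace_sq_ge hM hγ) (not_le.2 h1)

/-- A periodicity criterion. -/
theorem eq_one_of_pow_tendsto {g : ℍ → ℂ} (hd : MDiff g) {w : ℕ} (hw : 0 < w) {a : ℂ} {n : ℕ}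
    (hn : 0 < n) (ha : a ^ n = 1) (hper : ∀ τ : ℍ, g ((w : ℝ) +ᵥ τ) = a * g τ) {U : ℂ}
    (hU : U ≠ 0) (hlim : Tendsto (fun τ => g τ ^ n) atImInfty (𝓝 U)) : a = 1 := by
  have : NeZero (n * w) := ⟨(Nat.mul_pos hn hw).ne'⟩
  have hperj : ∀ (j : ℕ) (τ : ℍ), g (((j * w : ℕ) : ℝ) +ᵥ τ) = a ^ j * g τ := by
    intro j
    induction j with
    | zero => intro τ; simp
    | succ j ih =>
      intro τ
      rw [show (((j + 1) * w : ℕ) : ℝ) = ((j * w : ℕ) : ℝ) + (w : ℝ) by push_cast; ring,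
        add_vadd, ih, hper, pow_succ, mul_assoc]
  have hp : ∀ τ : ℍ, g (((n * w : ℕ) : ℝ) +ᵥ τ) = g τ := fun τ => by rw [hperj, ha, one_mul]
  have hb : IsBoundedAtImInfty g := by
    obtain ⟨A, hA⟩ := isBoundedAtImInfty_iff.1 (hlim.isBigO_one ℝ : IsBoundedAtImInfty _)
    obtain ⟨B, hB⟩ := hA
    refine isBoundedAtImInfty_iff.2 ⟨1 + A, B, fun τ hτ => ?_⟩
    have h1 := hB τ hτ
    rw [norm_pow] at h1
    rcases le_total ‖g τ‖ 1 with h2 | h2
    · have : 0 ≤ A := le_trans (by positivity) h1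
      linarith
    · have := le_self_pow₀ h2 hn.ne'
      linarith
  have hh : (0 : ℝ) < (n * w : ℕ) := by exact_mod_cast Nat.mul_pos hn hw
  have hgp : Function.Periodic (g ∘ ofComplex) (((n * w : ℕ) : ℝ) : ℂ) :=
    LevelOne.periodic_comp_ofComplex_of_vadd hp
  have hExp := Igusa.hasExp_ofPowerSeries (h := n * w) (p := qExpansion ((n * w : ℕ) : ℝ) g) hd
    fun τ => by simpa using UpperHalfPlane.hasSum_qExpansion hh hgp hd hb τ
  have hl := LevelM.tendsto_shift hExp (m := 0) fun k hk => by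
    rw [ModularCurve.ofPowerSeries_coeff_of_neg _ hk]
  set l := (HahnSeries.ofPowerSeries ℤ ℂ (qExpansion ((n * w : ℕ) : ℝ) g)).coeff 0
  simp only [neg_zero, zpow_zero, mul_one] at hl
  have hl0 : l ≠ 0 := by
    intro h0
    rw [h0] at hl
    have := tendsto_nhds_unique hlim (hl.pow n)
    rw [zero_pow hn.ne'] at this
    exact hU this
  have htr : Tendsto (fun τ : ℍ => ((w : ℝ) +ᵥ τ)) atImInfty atImInfty := by
    simp only [atImInfty, tendsto_comap_iff, Function.comp_def, vadd_im]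
    exact tendsto_comap
  have h2 := tendsto_nhds_unique (hl.comp htr)
    ((hl.const_mul a).congr fun τ => (hper τ).symm)
  exact mul_right_cancel₀ hl0 (h2.symm.trans (one_mul l).symm)

theorem ordAt_ofHol_nonneg {G : ℍ → ℂ} (hG : MDiff G) {z : ℂ} (hz : z ∈ uhp) :
    0 ≤ ordAt (ofHol G hG) z := by
  rw [ofHol, Kummer.MeroH.ordAt_mk _ hz]
  exact (((UpperHalfPlane.mdifferentiable_iff.1 hG).analyticOnNhd Kummer.isOpen_uhp) z
    hz).meromorphicOrderAt_nonneg

theorem ordAt_ofHol_eq_zero {G : ℍ → ℂ} (hG : MDiff G) {τ : ℍ} (h : G τ ≠ 0) :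
    ordAt (ofHol G hG) (τ : ℂ) = 0 := by
  have ha := ((UpperHalfPlane.mdifferentiable_iff.1 hG).analyticOnNhd Kummer.isOpen_uhp) (τ : ℂ)
    τ.im_pos
  rw [ofHol, Kummer.MeroH.ordAt_mk _ τ.im_pos, ha.meromorphicOrderAt_eq,
    ha.analyticOrderAt_eq_zero.2 (by simpa [UpperHalfPlane.ofComplex_apply] using h)]
  rfl

theorem ofHol_mul {f g : ℍ → ℂ} (hf : MDiff f) (hg : MDiff g) :
    ofHol (f * g) (hf.mul hg) = ofHol f hf * ofHol g hg := by
  rw [ofHol, ofHol, ofHol, Kummer.MeroH.mk_mul]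
  rfl

theorem ofHol_pow {f : ℍ → ℂ} (hf : MDiff f) (n : ℕ) :
    ofHol (f ^ n) (hf.pow n) = ofHol f hf ^ n := by
  rw [ofHol, ofHol, Kummer.MeroH.mk_pow]
  rfl

theorem ofHol_smul {f : ℍ → ℂ} (hf : MDiff f) (a : ℂ) :
    ofHol (a • f) (hf.const_smul a) = Kummer.MeroH.const a * ofHol f hf := by
  rw [ofHol, ofHol, Kummer.MeroH.const_apply, Kummer.MeroH.mk_mul]
  rfl

theorem exists_eq_smul_of_pow_eq {n : ℕ} (hn : 0 < n) {f g : ℍ → ℂ} (hf : MDiff f) (hg : MDiff g)
    (h : f ^ n = g ^ n) : ∃ a : ℂ, a ^ n = 1 ∧ f = a • g := by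
  obtain ⟨a, ha, hfg⟩ := Kummer.MeroH.exists_const_mul_of_pow_eq_pow hn
    (x := ofHol f hf) (y := ofHol g hg)
    (by rw [← ofHol_pow, ← ofHol_pow]; exact Kummer.MeroH.ofHol_congr _ _ h)
  exact ⟨a, ha, Kummer.MeroH.eq_of_ofHol_eq (hψ := hg.const_smul a) (by rw [hfg, ofHol_smul])⟩

/-- **Roots.** -/
theorem exists_root {n : ℕ} (hn : 0 < n) {G : ℍ → ℂ} (hG : MDiff G) (hG0 : G ≠ 0)
    (hloc : ∀ τ : ℍ, ∃ S G₁ : ℍ → ℂ, MDiff S ∧ MDiff G₁ ∧ G₁ τ ≠ 0 ∧
      S ^ n = G * G₁ ^ (n - 1)) : ∃ H : ℍ → ℂ, MDiff H ∧ H ^ n = G := by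
  have hx : ofHol G hG ≠ 0 := by
    intro h0
    refine hG0 (Kummer.MeroH.eq_of_ofHol_eq (hφ := hG) (hψ := mdifferentiable_const) ?_)
    rw [h0]; rfl
  obtain ⟨y, hy⟩ := Kummer.MeroH.exists_pow_eq hx hn.ne' fun z hz => by
    obtain ⟨S, G₁, hS, hG₁, h0, he⟩ := hloc ⟨z, hz⟩
    have h1 := Kummer.MeroH.ofHol_congr (hS.pow n) (hG.mul (hG₁.pow (n - 1))) he
    rw [ofHol_pow hS, ofHol_mul hG (hG₁.pow _), ofHol_pow hG₁] at h1
    have h2 := congrArg (fun x => ordAt x z) h1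
    have hz1 : ordAt (ofHol G₁ hG₁) z = 0 := ordAt_ofHol_eq_zero hG₁ h0
    simp only [Kummer.MeroH.ordAt_pow _ _ hz, Kummer.MeroH.ordAt_mul _ _ hz, hz1] at h2
    have hS0 : ordAt (ofHol S hS) z ≠ ⊤ := fun ht => by
      rw [ht] at h2
      have := Kummer.MeroH.ordAt_ne_top hx hz
      revert h2
      cases hG' : ordAt (ofHol G hG) z with
      | top => exact absurd hG' this
      | coe v => simp [hn.ne']
    obtain ⟨v, hv⟩ := WithTop.ne_top_iff_exists.1 hS0
    refine ⟨v, ?_⟩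
    rw [← hv] at h2
    simpa using h2.symm
  obtain ⟨H, hH, hHy⟩ := Kummer.MeroH.mdifferentiable_nf (x := y) fun z hz => by
    have h1 := congrArg (fun x => ordAt x z) hy
    simp only [Kummer.MeroH.ordAt_pow _ _ hz] at h1
    have h2 := ordAt_ofHol_nonneg hG hz
    rw [← h1] at h2
    cases hy' : ordAt y z with
    | top => simp
    | coe v =>
      rw [hy'] at h2
      have h3 : (0 : ℤ) ≤ (n : ℤ) * v := by
        have : ((0 : ℤ) : WithTop ℤ) ≤ (((n : ℤ) * v : ℤ) : WithTop ℤ) := by simpa using h2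
        exact_mod_cast this
      exact_mod_cast (show (0 : ℤ) ≤ v by nlinarith)
  exact ⟨H, hH, Kummer.MeroH.eq_of_ofHol_eq (hφ := hH.pow n) (hψ := hG)
    (by rw [ofHol_pow hH, hHy, hy])⟩

/-- Characters of `±Γ₁(M)` of order dividing `n`, trivial on elliptic and parabolic elements. -/
structure Chr (M n : ℕ) where
  toHom : sgnGamma1 M →* ℂˣ
  pow_eq : toHom ^ n = 1
  ellPar : IsEllParChar toHom

namespace Chr

variable {M n : ℕ}

theorem ext' {χ ψ : Chr M n} (h : χ.toHom = ψ.toHom) : χ = ψ := by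
  cases χ; cases ψ; cases h; rfl

theorem apply_pow (χ : Chr M n) (γ : sgnGamma1 M) : ((χ.toHom γ : ℂˣ) : ℂ) ^ n = 1 := by
  rw [← Units.val_pow_eq_pow_val, ← MonoidHom.pow_apply, χ.pow_eq]
  rfl

theorem norm_apply (hn : 0 < n) (χ : Chr M n) (γ : sgnGamma1 M) :
    ‖((χ.toHom γ : ℂˣ) : ℂ)‖ = 1 :=
  Complex.norm_eq_one_of_pow_eq_one (χ.apply_pow γ) hn.ne'

theorem pow_pred (hn : 0 < n) (χ : Chr M n) : χ.toHom * χ.toHom ^ (n - 1) = 1 := by
  refine MonoidHom.ext fun x => ?_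
  have h := DFunLike.congr_fun χ.pow_eq x
  simp only [MonoidHom.mul_apply, MonoidHom.pow_apply, MonoidHom.one_apply] at h ⊢
  rw [← pow_succ', Nat.sub_add_cancel hn, h]

end Chr

variable {M n : ℕ} [NeZero M]

theorem Chr.exists_nonzero (hM : 5 ≤ M) (hn : 0 < n) (χ : Chr M n) (τ : ℍ) :
    ∃ f, IsCharFun χ.toHom f ∧ f τ ≠ 0 :=
  exists_charFun_ne_zero (LevelM.neg_one_mem_sgnGamma1 M) (isFree_sgnGamma1 hM) _
    (χ.norm_apply hn) χ.ellPar τ

omit [NeZero M] in
theorem IsCharFun.isFunOn {g : ℍ → ℂ} (hg : IsCharFun (1 : sgnGamma1 M →* ℂˣ) g) : IsFunOn M g :=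
  (hg.restrict (sgnGamma_le_sgnGamma1 M)).congr (by ext; simp)

/-- Twists preserve invariance under `±Γ₁(M)`. -/
theorem FunTwist.charFun_one {σ : ℂ →+* ℂ} {c : ℤ} (hc : IsCoprime c (M : ℤ)) {g g' : ℍ → ℂ}
    (hg : IsCharFun (1 : sgnGamma1 M →* ℂˣ) g) (hg' : IsFunOn M g')
    (ht : FunTwist M σ c g g') : IsCharFun (1 : sgnGamma1 M →* ℂˣ) g' := by
  refine ⟨hg'.holo, fun γ τ => ?_, hg'.bdd⟩
  obtain ⟨δ, hδ⟩ := exists_conjRel_left hc (γ : SL(2, ℤ))
  have := ht.map_smul hδ (a := 1) (fun τ => by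
    rw [one_mul]; exact hg.inv δ ((conjRel_mem_sgnGamma1_iff hc hδ).2 γ.2) τ) τ
  simpa using this

theorem exists_twist_invariant (hM : 5 ≤ M) {σ : ℂ →+* ℂ} {c : ℤ} (hc : IsCoprime c (M : ℤ))
    (hσ : RootTwist M σ c) {g : ℍ → ℂ} (hg : IsCharFun (1 : sgnGamma1 M →* ℂˣ) g) :
    ∃ g', IsCharFun (1 : sgnGamma1 M →* ℂˣ) g' ∧ FunTwist M σ c g g' := by
  obtain ⟨g', hg', ht⟩ := exists_funTwist (by omega) hc hσ hg.isFunOn
  exact ⟨g', ht.charFun_one hc hg hg', ht⟩

theorem coeffMap_order_pow {σ : ℂ →+* ℂ} {s : LaurentSeries ℂ} (hs : s ≠ 0) (n : ℕ) :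
    (∀ k < (n : ℤ) * s.order, (ModularCurve.coeffMap σ (s ^ n)).coeff k = 0) ∧
      (ModularCurve.coeffMap σ (s ^ n)).coeff ((n : ℤ) * s.order) ≠ 0 := by
  have ho : (s ^ n).order = (n : ℤ) * s.order := by rw [HahnSeries.order_pow, nsmul_eq_mul]
  refine ⟨fun k hk => ?_, ?_⟩
  · rw [ModularCurve.coeffMap_coeff, HahnSeries.coeff_eq_zero_of_lt_order (ho ▸ hk), map_zero]
  · rw [ModularCurve.coeffMap_coeff, map_ne_zero, ← ho]
    exact mt HahnSeries.coeff_order_eq_zero.mp (pow_ne_zero n hs)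

/-- A root of the twist of an `n`-th power has a character trivial on parabolic elements. -/
theorem apply_parabolic (hn : 0 < n) {σ : ℂ →+* ℂ} {c : ℤ} (hc : IsCoprime c (M : ℤ))
    {χ : Chr M n} {f : ℍ → ℂ} (hf : IsCharFun χ.toHom f) (hf0 : f ≠ 0) {G' H : ℍ → ℂ}
    (ht : FunTwist M σ c (f ^ n) G') (hH : MDiff H) (hHn : H ^ n = G') {χ' : sgnGamma1 M →* ℂˣ}
    (hmul : ∀ (γ : sgnGamma1 M) τ, H ((γ : SL(2, ℤ)) • τ) = ((χ' γ : ℂˣ) : ℂ) * H τ)
    (hpow : ∀ γ, ((χ' γ : ℂˣ) : ℂ) ^ n = 1) {γ : sgnGamma1 M}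
    (hγ : ((γ : SL(2, ℤ)) : Matrix (Fin 2) (Fin 2) ℤ).trace ^ 2 = 4) : χ' γ = 1 := by
  obtain ⟨δ', hδ'⟩ := Periods.exists_conj_lower_eq_zero (γ : SL(2, ℤ)) hγ
  obtain ⟨w, hw⟩ := ModularGroup.exists_eq_T_zpow_of_c_eq_zero hδ'
  have hact : ∀ τ : ℍ, (γ : SL(2, ℤ)) • δ' • τ = δ' • ((w : ℝ) +ᵥ τ) := by
    intro τ
    rw [← modular_T_zpow_smul, ← hw τ, ← mul_smul, ← mul_smul]
    simp [mul_assoc]
  -- reduce to a positive translation
  suffices key : ∀ (γ : sgnGamma1 M) (w : ℕ), 0 < w →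
      (∀ τ : ℍ, (γ : SL(2, ℤ)) • δ' • τ = δ' • ((w : ℝ) +ᵥ τ)) → χ' γ = 1 by
    rcases lt_trichotomy w 0 with hw0 | hw0 | hw0
    · have h1 := key γ⁻¹ (-w).toNat (by omega) fun τ => by
        rw [show (((-w).toNat : ℕ) : ℝ) = -(w : ℝ) by
          rw [← Int.cast_natCast, Int.toNat_of_nonneg (by omega)]; push_cast; ring]
        rw [Subgroup.coe_inv, inv_smul_eq_iff, hact, ← add_vadd, add_neg_cancel, zero_vadd]
      rwa [map_inv, inv_eq_one] at h1
    · subst hw0
      have hH0 : ∃ τ, H (δ' • τ) ≠ 0 := by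
        by_contra hcon
        push Not at hcon
        have hG0 : G' = 0 := funext fun τ => by
          have h1 := hcon (δ'⁻¹ • τ)
          rw [smul_inv_smul] at h1
          rw [← hHn, Pi.pow_apply, h1, zero_pow hn.ne', Pi.zero_apply]
        obtain ⟨s, hs, hs'⟩ := ht 1 1 (ConjRel.one M c)
        simp only [one_smul, hG0] at hs hs'
        have hs0 : ModularCurve.coeffMap σ s = 0 := HasExp.eq_zero hs'
        have hs00 : s = 0 := by
          refine (map_eq_zero_iff _ ?_).1 hs0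
          intro a b hab; ext k; exact σ.injective (by
            simpa using congrArg (fun x : LaurentSeries ℂ => x.coeff k) hab)
        rw [hs00] at hs
        refine hf0 (funext fun τ => eq_zero_of_pow_eq_zero (n := n) ?_)
        have := hs.2 τ
        simp only [HahnSeries.coeff_zero, zero_mul] at this
        exact this.unique hasSum_zero
      obtain ⟨τ, hτ⟩ := hH0
      have := hmul γ (δ' • τ)
      rw [hact τ, Int.cast_zero, zero_vadd] at this
      refine Units.ext ?_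
      rw [Units.val_one]
      exact mul_right_cancel₀ hτ (this.symm.trans (one_mul _).symm)
    · refine key γ w.toNat (by omega) fun τ => ?_
      rw [show ((w.toNat : ℕ) : ℝ) = (w : ℝ) by
        rw [← Int.cast_natCast, Int.toNat_of_nonneg hw0.le]]
      exact hact τ

  intro γ w hw hact
  obtain ⟨δ, hδ⟩ := exists_conjRel_left hc δ'
  obtain ⟨u, v, huv⟩ := id hc
  -- the corresponding parabolic element
  set j : ℤ := u * w with hj
  have hjw : ((c * j : ℤ) : ZMod M) = (w : ℤ) := by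
    have := congrArg (fun x : ℤ => (x : ZMod M)) huv
    push_cast at this ⊢
    rw [ZMod.natCast_self, mul_zero, add_zero] at this
    rw [hj]; push_cast; linear_combination (w : ZMod M) * this
  have hT : ConjRel M c (ModularGroup.T ^ j) (ModularGroup.T ^ (w : ℤ)) := by
    simp only [ConjRel, ModularGroup.coe_T_zpow]
    push_cast at hjw
    simp [hjw]
  have hmem : δ * ModularGroup.T ^ j * δ⁻¹ ∈ sgnGamma1 M := by
    rw [conjRel_mem_sgnGamma1_iff hc ((hδ.mul hT).mul hδ.inv)]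
    set ee := (γ : SL(2, ℤ))⁻¹ * (δ' * ModularGroup.T ^ (w : ℤ) * δ'⁻¹) with hee
    have hfix : ∀ τ : ℍ, ee • τ = τ := fun τ => by
      have h2 := hact (δ'⁻¹ • τ)
      rw [smul_inv_smul] at h2
      rw [hee, mul_smul, mul_smul, mul_smul, modular_T_zpow_smul, Int.cast_natCast, ← h2,
        inv_smul_smul]
    have hee' : ee ∈ sgnGamma1 M := by
      obtain h | h | h := smul_eq_trace (hfix UpperHalfPlane.I)
      · rw [h]; exact one_mem _
      · rw [h]; exact LevelM.neg_one_mem_sgnGamma1 M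
      · exfalso
        have hI := hfix UpperHalfPlane.I
        set J : ℍ := ⟨2 * Complex.I, by simp⟩
        have hJ := hfix J
        have e : ∀ τ : ℍ, ee • τ = τ → (ee 0 0 : ℂ) * τ + ee 0 1
            = τ * ((ee 1 0 : ℂ) * τ + ee 1 1) := fun τ hτ => by
          have := congrArg (fun z : ℍ => (z : ℂ)) hτ
          rwa [Kummer.Poincare.coe_smul_apply,
            div_eq_iff (Kummer.Poincare.denom_ne_zero' ee τ)] at this
        have e1 := e _ hI
        have e2 := e _ hJ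
        have hd := ee.2
        rw [Matrix.det_fin_two] at hd
        simp [J, Complex.ext_iff] at e1 e2
        rw [Matrix.trace_fin_two] at h
        obtain ⟨e1a, e1b⟩ := e1
        obtain ⟨e2a, e2b⟩ := e2
        have ea : ee 0 0 = ee 1 1 := by exact_mod_cast e1b
        have ec : ee 1 0 = 0 := by
          have : (ee 1 0 : ℝ) = 0 := by linarith
          exact_mod_cast this
        rw [ec, mul_zero, sub_zero, ea] at hd
        rw [ea] at h
        nlinarith
    have := mul_mem γ.2 hee'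
    rwa [hee, mul_inv_cancel_left] at this
  have hpar1 : χ.toHom ⟨_, hmem⟩ = 1 := χ.ellPar _ (by
    rw [show ((⟨_, hmem⟩ : sgnGamma1 M) : SL(2, ℤ)) = δ * ModularGroup.T ^ j * δ⁻¹ from rfl,
      Matrix.SpecialLinearGroup.coe_mul, Matrix.trace_mul_comm,
      ← Matrix.SpecialLinearGroup.coe_mul, ← mul_assoc, inv_mul_cancel, one_mul,
      ModularGroup.coe_T_zpow]
    simp [Matrix.trace_fin_two])
  set g : ℍ → ℂ := fun τ => f (δ • τ)
  have hgj : ∀ τ : ℍ, g ((j : ℝ) +ᵥ τ) = g τ := fun τ => by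
    have := hf.map_smul ⟨_, hmem⟩ (δ • τ)
    rw [hpar1, Units.val_one, one_mul] at this
    simp only [g]
    rw [← this, ← modular_T_zpow_smul, ← mul_smul, ← mul_smul]
    simp [mul_assoc]
  have hgM : ∀ τ : ℍ, g ((M : ℝ) +ᵥ τ) = g τ := fun τ => by
    have hm : δ * ModularGroup.T ^ (M : ℤ) * δ⁻¹ ∈ sgnGamma1 M :=
      sgnGamma_le_sgnGamma1 M (LevelM.conj_T_pow_mem δ)
    have h1 := χ.ellPar ⟨_, hm⟩ (by
      rw [show ((⟨_, hm⟩ : sgnGamma1 M) : SL(2, ℤ)) = δ * ModularGroup.T ^ (M : ℤ) * δ⁻¹ from rfl,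
        Matrix.SpecialLinearGroup.coe_mul, Matrix.trace_mul_comm,
        ← Matrix.SpecialLinearGroup.coe_mul, ← mul_assoc, inv_mul_cancel, one_mul,
        ModularGroup.coe_T_zpow]
      simp [Matrix.trace_fin_two])
    have := hf.map_smul ⟨_, hm⟩ (δ • τ)
    rw [h1, Units.val_one, one_mul] at this
    simp only [g]
    rw [← this, show ((M : ℝ) +ᵥ τ) = (ModularGroup.T ^ (M : ℤ) : SL(2, ℤ)) • τ by
      rw [modular_T_zpow_smul]; norm_cast, ← mul_smul, ← mul_smul]
    simp [mul_assoc]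
  obtain ⟨m, hm⟩ := hf.bdd
  obtain ⟨S, hS⟩ := exists_hasExp (h := M) (hf.mdiff_smul δ) hgM (hm δ)
  have hS0 : S ≠ 0 := by
    rintro rfl
    refine hf0 (funext fun τ => ?_)
    have := hS.2 (δ⁻¹ • τ)
    simp only [HahnSeries.coeff_zero, zero_mul, smul_inv_smul] at this
    exact this.unique hasSum_zero
  -- the support of `S`
  have hζ : (ModularCurve.coeffMap (RingHom.id ℂ) S) = S := by ext k; simp
  have hsupp : (M : ℤ) ∣ j * S.order := by
    set z : ℂˣ := Units.mk0 (Complex.exp (2 * Real.pi * Complex.I * j / M)) (Complex.exp_ne_zero _)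
    have h1 := hS.comp_affine 1 j 1 (H := M) 1 z fun τ => by
      simp only [Function.Periodic.qParam, Igusa.coe_affine, Nat.cast_one, one_mul, div_one,
        pow_one, z, Units.val_mk0, ← Complex.exp_add]
      congr 1
      push_cast
      ring
    have h2 : g ∘ Igusa.affine 1 j 1 = g := by
      funext τ
      show g (Igusa.affine 1 j 1 τ) = g τ
      rw [← hgj τ]
      congr 1
      ext
      simp [UpperHalfPlane.coe_vadd, add_comm]
    rw [h2] at h1
    have h3 := congrArg (fun x : LaurentSeries ℂ => x.coeff S.order) (h1.unique hS)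
    simp only [ModularCurve.qExpand_one_apply, Igusa.twist_coeff] at h3
    have hz : ((z ^ S.order : ℂˣ) : ℂ) = 1 :=
      mul_right_cancel₀ (mt HahnSeries.coeff_order_eq_zero.mp hS0) (h3.trans (one_mul _).symm)
    rw [Units.val_zpow_eq_zpow_val, Units.val_mk0, ← Complex.exp_int_mul] at hz
    obtain ⟨t, ht⟩ := Complex.exp_eq_one_iff.1 hz
    have hpi : (2 : ℂ) * Real.pi * Complex.I ≠ 0 := Complex.two_pi_I_ne_zero
    have hM0 : (M : ℂ) ≠ 0 := Nat.cast_ne_zero.2 (NeZero.ne M)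
    field_simp at ht
    refine ⟨t, ?_⟩
    have : ((j * S.order : ℤ) : ℂ) = (((M : ℤ) * t : ℤ) : ℂ) := by
      push_cast
      refine mul_left_cancel₀ hpi ?_
      linear_combination (2 * (Real.pi : ℂ) * Complex.I) * ht
    exact_mod_cast this
  have hsupp' : (M : ℤ) ∣ (w : ℤ) * S.order := by
    rw [← ZMod.intCast_zmod_eq_zero_iff_dvd] at hsupp ⊢
    push_cast at hsupp hjw ⊢
    rw [← hjw]
    linear_combination (c : ZMod M) * hsupp
  obtain ⟨e, he⟩ := hsupp'
  -- the expansion of the twist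
  obtain ⟨s, hs, hs'⟩ := ht δ δ' hδ
  have hsS : s = S ^ n := by
    refine hs.unique ?_
    have := mem_QS.1 (pow_mem (show ((g, S)) ∈ QS M from hS) n)
    simpa [Prod.pow_mk, Pi.pow_def, g] using this
  subst hsS
  obtain ⟨hlow, hlead⟩ := coeffMap_order_pow (σ := σ) hS0 n
  have hlim := LevelM.tendsto_shift hs' hlow
  set K : ℍ → ℂ := fun τ => H (δ' • τ) * Function.Periodic.qParam (M : ℝ) τ ^ (-S.order) with hK
  have hKd : MDiff K :=
    (hH.comp (mdifferentiable_smul (by simp))).mul (LevelM.hasExp_qP_zpow (-S.order)).1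
  have hKlim : Tendsto (fun τ => K τ ^ n) atImInfty
      (𝓝 ((ModularCurve.coeffMap σ (S ^ n)).coeff ((n : ℤ) * S.order))) := by
    refine hlim.congr fun τ => ?_
    rw [hK, mul_pow, ← hHn, Pi.pow_apply, ← zpow_natCast (Function.Periodic.qParam _ _ ^ _),
      ← zpow_mul]
    congr 2
    ring
  refine Units.ext ?_
  rw [Units.val_one]
  refine eq_one_of_pow_tendsto hKd hw hn (hpow γ) (fun τ => ?_) hlead hKlim
  have hq : Function.Periodic.qParam (M : ℝ) (((w : ℝ) +ᵥ τ : ℍ) : ℂ) ^ (-S.order) =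
      Function.Periodic.qParam (M : ℝ) (τ : ℂ) ^ (-S.order) := by
    simp only [Function.Periodic.qParam, UpperHalfPlane.coe_vadd, ← Complex.exp_int_mul]
    rw [Complex.exp_eq_exp_iff_exists_int]
    refine ⟨-e, ?_⟩
    have hM0 : (M : ℂ) ≠ 0 := Nat.cast_ne_zero.2 (NeZero.ne M)
    have he' : (w : ℂ) * S.order = M * e := by exact_mod_cast he
    push_cast
    field_simp
    linear_combination (-1) * he'
  simp only [hK]
  rw [← hact, hmul, hq, mul_assoc]

/-- **The twisted character.** -/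
theorem exists_twistChr (hM : 5 ≤ M) (hn : 0 < n) {σ : ℂ →+* ℂ} {c : ℤ}
    (hc : IsCoprime c (M : ℤ)) (hσ : RootTwist M σ c) (χ : Chr M n) :
    ∃ χ' : Chr M n, ∀ f, IsCharFun χ.toHom f →
      ∃ H, IsCharFun χ'.toHom H ∧ FunTwist M σ c (f ^ n) (H ^ n) := by
  obtain ⟨r, F, F', hF, hF', hsum⟩ := exists_unit_sum (χ := χ.toHom)
    (LevelM.neg_one_mem_sgnGamma1 M) (isFree_sgnGamma1 hM) (χ.norm_apply hn) χ.ellPar
  have hFn : ∀ {u : ℍ → ℂ}, IsCharFun χ.toHom u →
      IsCharFun (1 : sgnGamma1 M →* ℂˣ) (u ^ n) := fun hu => (hu.pow n).congr χ.pow_eq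
  have hprod : ∀ {u v : ℍ → ℂ}, IsCharFun χ.toHom u → IsCharFun χ.toHom v →
      IsCharFun (1 : sgnGamma1 M →* ℂˣ) (u * v ^ (n - 1)) :=
    fun hu hv => (hu.mul (hv.pow (n - 1))).congr (χ.pow_pred hn)
  -- roots
  have hroot : ∀ f, IsCharFun χ.toHom f → f ≠ 0 → ∃ H G' : ℍ → ℂ,
      IsCharFun (1 : sgnGamma1 M →* ℂˣ) G' ∧ FunTwist M σ c (f ^ n) G' ∧ MDiff H ∧ H ^ n = G' := by
    intro f hf hf0
    obtain ⟨G', hG', htG⟩ := exists_twist_invariant hM hc hσ (hFn hf)
    have hG'0 : G' ≠ 0 := by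
      intro h0
      subst h0
      obtain ⟨s, hs, hs'⟩ := htG 1 1 (ConjRel.one M c)
      simp only [one_smul] at hs hs'
      have hs0 : s = 0 := by
        ext k
        refine σ.injective ?_
        rw [HahnSeries.coeff_zero, map_zero, ← ModularCurve.coeffMap_coeff,
          (show ModularCurve.coeffMap σ s = 0 from HasExp.eq_zero hs'), HahnSeries.coeff_zero]
      subst hs0
      refine hf0 (funext fun τ => eq_zero_of_pow_eq_zero (n := n) ?_)
      have := hs.2 τ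
      simp only [HahnSeries.coeff_zero, zero_mul] at this
      exact this.unique hasSum_zero
    obtain ⟨H, hH, hHn⟩ := exists_root hn hG'.holo hG'0 fun τ => by
      choose R hR htR using fun i : Fin r =>
        exists_twist_invariant hM hc hσ (((hF i).mul (hF' i)).congr (mul_inv_cancel χ.toHom))
      obtain ⟨i, hi⟩ : ∃ i, R i τ ≠ 0 := by
        by_contra hcon
        push Not at hcon
        have h1 := (FunTwist.sum Finset.univ fun i _ => htR i)
        rw [hsum] at h1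
        have h2 := congrFun (h1.right_unique FunTwist.one) τ
        simp [Finset.sum_apply, hcon] at h2
      obtain ⟨Gi, hGi, htGi⟩ := exists_twist_invariant hM hc hσ (hFn (hF i))
      obtain ⟨Gi', hGi', htGi'⟩ := exists_twist_invariant hM hc hσ
        (show IsCharFun (1 : sgnGamma1 M →* ℂˣ) (F' i ^ n) from
          ((hF' i).pow n).congr (MonoidHom.ext fun x => by
            have h := DFunLike.congr_fun χ.pow_eq x
            simp only [MonoidHom.pow_apply, MonoidHom.inv_apply, MonoidHom.one_apply] at h ⊢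
            rw [inv_pow, h, inv_one]))
      have hGi0 : Gi τ ≠ 0 := by
        intro h0
        have h1 : R i ^ n = Gi * Gi' :=
          ((htR i).pow n).right_unique (by rw [mul_pow]; exact htGi.mul htGi')
        have h2 := congrFun h1 τ
        simp only [Pi.pow_apply, Pi.mul_apply, h0, zero_mul] at h2
        exact hi (eq_zero_of_pow_eq_zero h2)
      obtain ⟨S, hS, htS⟩ := exists_twist_invariant hM hc hσ (hprod hf (hF i))
      refine ⟨S, Gi, hS.holo, hGi.holo, hGi0, (htS.pow n).right_unique ?_⟩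
      rw [mul_pow, ← pow_mul, mul_comm (n - 1), pow_mul]
      exact htG.mul (htGi.pow _)
    exact ⟨H, G', hG', htG, hH, hHn⟩
  obtain ⟨f₀, hf₀, hf₀0⟩ := χ.exists_nonzero hM hn UpperHalfPlane.I
  have hf₀ne : f₀ ≠ 0 := fun h => hf₀0 (by rw [h]; rfl)
  -- multipliers
  have hchr : ∀ f, IsCharFun χ.toHom f → f ≠ 0 → ∃ (χ' : Chr M n) (H : ℍ → ℂ),
      IsCharFun χ'.toHom H ∧ H ≠ 0 ∧ FunTwist M σ c (f ^ n) (H ^ n) := by
    intro f hf hf0
    obtain ⟨H, G', hG', htG, hH, hHn⟩ := hroot f hf hf0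
    have hHne : ∃ τ, H τ ≠ 0 := by
      by_contra hcon
      push Not at hcon
      obtain ⟨s, hs, hs'⟩ := htG 1 1 (ConjRel.one M c)
      have hG0 : G' = 0 := funext fun τ => by
        rw [← hHn, Pi.pow_apply, hcon, zero_pow hn.ne', Pi.zero_apply]
      simp only [one_smul, hG0] at hs hs'
      have hs0 : s = 0 := by
        ext k
        refine σ.injective ?_
        rw [HahnSeries.coeff_zero, map_zero, ← ModularCurve.coeffMap_coeff,
          (show ModularCurve.coeffMap σ s = 0 from HasExp.eq_zero hs'), HahnSeries.coeff_zero]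
      subst hs0
      refine hf0 (funext fun τ => eq_zero_of_pow_eq_zero (n := n) ?_)
      have := hs.2 τ
      simp only [HahnSeries.coeff_zero, zero_mul] at this
      exact this.unique hasSum_zero
    have hz : ∀ γ : sgnGamma1 M, ∃ a : ℂ, a ^ n = 1 ∧
        ∀ τ, H ((γ : SL(2, ℤ)) • τ) = a * H τ := fun γ => by
      have hd : MDiff fun τ : ℍ => H ((γ : SL(2, ℤ)) • τ) :=
        hH.comp (mdifferentiable_smul (by simp))
      obtain ⟨a, ha, he⟩ := exists_eq_smul_of_pow_eq hn hd hH (funext fun τ => by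
        simp only [Pi.pow_apply]
        have := congrFun hHn ((γ : SL(2, ℤ)) • τ)
        rw [Pi.pow_apply] at this
        rw [this, hG'.inv _ γ.2 τ, ← hHn, Pi.pow_apply])
      exact ⟨a, ha, fun τ => congrFun he τ⟩
    choose a ha he using hz
    obtain ⟨τ₀, hτ₀⟩ := hHne
    have hmul' : ∀ γ δ, a (γ * δ) = a γ * a δ := fun γ δ => by
      refine mul_right_cancel₀ hτ₀ ?_
      rw [← he, Subgroup.coe_mul, mul_smul, he, he, mul_assoc]
    have ha0 : ∀ γ, a γ ≠ 0 := fun γ h0 => by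
      have := ha γ
      rw [h0, zero_pow hn.ne'] at this
      exact zero_ne_one this
    let χ₁ : sgnGamma1 M →* ℂˣ := MonoidHom.mk' (fun γ => Units.mk0 (a γ) (ha0 γ))
      fun γ δ => Units.ext (by simp [hmul'])
    have hpar : IsEllParChar χ₁ := fun γ hγ =>
      apply_parabolic hn hc hf hf0 htG hH hHn (χ' := χ₁) (fun γ τ => he γ τ) (fun γ => ha γ)
        (le_antisymm hγ (trace_sq_ge hM γ.2))
    refine ⟨⟨χ₁, MonoidHom.ext fun γ => Units.ext (by simpa [χ₁] using ha γ), hpar⟩, H,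
      ⟨hH, he, ?_⟩, fun h => hτ₀ (by rw [h]; rfl), hHn.symm ▸ htG⟩
    obtain ⟨m, hm⟩ := hG'.bdd
    refine ⟨m, fun δ => ?_⟩
    have hD : IsBoundedAtImInfty (fun τ => Δf τ ^ (n * m - m)) := by
      have := (IsCharFun.isBounded_discriminant).pow (n * m - m)
      exact this.congr_right fun τ => by simp
    obtain ⟨A, B, hAB⟩ := isBoundedAtImInfty_iff.1 (hD.mul (hm δ))
    refine isBoundedAtImInfty_iff.2 ⟨1 + A, B, fun τ hτ => ?_⟩
    have h1 := hAB τ hτ
    rw [Pi.mul_apply, ← hHn, Pi.pow_apply, ← mul_assoc, ← pow_add,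
      Nat.sub_add_cancel (Nat.le_mul_of_pos_left m hn), mul_comm n m, pow_mul, ← mul_pow,
      norm_pow] at h1
    rcases le_total ‖Δf τ ^ m * H (δ • τ)‖ 1 with h2 | h2
    · have : 0 ≤ A := le_trans (by positivity) h1
      linarith
    · have := le_self_pow₀ h2 hn.ne'
      linarith
  obtain ⟨χ', H₀, hH₀, hH₀0, ht₀⟩ := hchr f₀ hf₀ hf₀ne
  refine ⟨χ', fun f hf => ?_⟩
  rcases eq_or_ne f 0 with rfl | hf0
  · refine ⟨0, IsCharFun.zero, ?_⟩
    rw [zero_pow hn.ne']
    have := FunTwist.const (L := M) (σ := σ) (c := c) 0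
    rw [map_zero] at this
    exact this
  obtain ⟨χ'', H, hH, hH0, ht⟩ := hchr f hf hf0
  obtain ⟨S, hS, htS⟩ := exists_twist_invariant hM hc hσ (hprod hf hf₀)
  have hpw : (H * H₀ ^ (n - 1)) ^ n = S ^ n :=
    ((show FunTwist M σ c ((f * f₀ ^ (n - 1)) ^ n) ((H * H₀ ^ (n - 1)) ^ n) by
      rw [mul_pow, mul_pow, ← pow_mul, ← pow_mul, mul_comm (n - 1), pow_mul, pow_mul]
      exact ht.mul (ht₀.pow _))).right_unique (htS.pow n)
  obtain ⟨a, -, ha⟩ := exists_eq_smul_of_pow_eq hn (hH.holo.mul (hH₀.holo.pow _)) hS.holo hpw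
  have hne : H * H₀ ^ (n - 1) ≠ 0 := by
    intro h0
    rcases (UpperHalfPlane.mul_eq_zero_iff hH.holo (hH₀.holo.pow _)).1 h0 with h | h
    · exact hH0 h
    · exact hH₀0 (funext fun τ => eq_zero_of_pow_eq_zero (congrFun h τ))
  obtain ⟨τ, hτ⟩ := Function.ne_iff.1 hne
  have heq : χ''.toHom * χ'.toHom ^ (n - 1) = 1 := by
    refine MonoidHom.ext fun γ => Units.ext ?_
    have h1 := (hH.mul (hH₀.pow (n - 1))).map_smul γ τ
    rw [ha, Pi.smul_apply, hS.inv _ γ.2 τ] at h1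
    rw [ha] at hτ
    exact mul_right_cancel₀ hτ (h1.symm.trans (by simp))
  refine ⟨H, hH.congr ?_, ht⟩
  refine MonoidHom.ext fun x => ?_
  have h1 := DFunLike.congr_fun heq x
  have h2 := DFunLike.congr_fun (χ'.pow_pred hn) x
  simp only [MonoidHom.mul_apply, MonoidHom.pow_apply, MonoidHom.one_apply] at h1 h2
  calc χ''.toHom x = χ''.toHom x * (χ'.toHom x * χ'.toHom x ^ (n - 1)) := by rw [h2, mul_one]
    _ = χ'.toHom x := by rw [mul_comm (χ'.toHom x), ← mul_assoc, h1, one_mul]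

end Fermat.Agent.DeligneSerre
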