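import Fermat.Agent.DeligneSerre.Product
import Fermat.Agent.DeligneSerre.Rankin
import Fermat.Agent.GammaH.Algebra
import Fermat.Agent.MFCore.Extend
import Mathlib.NumberTheory.LegendreSymbol.QuadraticChar.Basic
import Mathlib.FieldTheory.IsAlgClosed.Basic
import Mathlib.RingTheory.AlgebraicIndependent.TranscendenceBasis

/-!
# The coefficient ring of a weight one eigenform and its conjugate systems

`f · E₃` has weight two, so the coefficients of `f` lie in a finitely generated `ℤ`-module and the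
eigenvalues generate a finite ring `R`.  For `σ : ℂ → ℂ` the series `σ f` is the square root of
`σ (f²)`, hence satisfies Rankin's bound.
-/

set_option autoImplicit false

noncomputable section

namespace Fermat.Agent.DeligneSerre

open UpperHalfPlane CongruenceSubgroup Fermat.Agent.GammaH Filter Topology
open Fermat.Agent.MFCore (IsQ qExp)
open ModularFormClass (qCoeff)
open scoped MatrixGroups ModularForm Manifold

/-- A ring homomorphism out of a subfield extends to the algebraic closure. -/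
theorem exists_extend_of_algebraic {A B M : Type} [CommRing A] [IsDomain A] [Field B] [Field M]
    [IsAlgClosed M] [Algebra A B] [Algebra.IsAlgebraic A B]
    (hi : Function.Injective (algebraMap A B)) (ψ : A →+* M) (hψ : Function.Injective ψ) :
    ∃ σ : B →+* M, ∀ a, σ (algebraMap A B a) = ψ a := by
  let := ψ.toAlgebra
  have : FaithfulSMul A M := (faithfulSMul_iff_algebraMap_injective A M).2 hψ
  have : FaithfulSMul A B := (faithfulSMul_iff_algebraMap_injective A B).2 hi
  exact ⟨(IsAlgClosed.lift : B →ₐ[A] M).toRingHom, fun a => AlgHom.commutes _ a⟩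

/-- A homomorphism from a finite subring of `ℂ` extends to `ℂ`. -/
theorem exists_extend_complex (R : Subalgebra ℤ ℂ) [Module.Finite ℤ R] (τ : R →+* ℂ) :
    ∃ σ : ℂ →+* ℂ, ∀ x : R, σ (x : ℂ) = τ x := by
  set K : IntermediateField ℚ ℂ := algebraicClosure ℚ ℂ with hK
  have : Algebra.IsAlgebraic ℚ K := algebraicClosure.isAlgebraic ℚ ℂ
  have hmem : ∀ x : R, (x : ℂ) ∈ K := fun x =>
    mem_algebraicClosure_iff.2
      (((Algebra.IsIntegral.isIntegral (R := ℤ) x).map R.val).tower_top (A := ℚ)).isAlgebraic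
  let i : R →+* K := R.val.toRingHom.codRestrict K hmem
  have hτ : Function.Injective τ := by
    have : Algebra.IsIntegral ℤ R := inferInstance
    rw [RingHom.injective_iff_ker_eq_bot]
    have := RingHom.ker_isPrime τ
    refine Ideal.eq_bot_of_comap_eq_bot (R := ℤ) ((RingHom.comap_ker τ (algebraMap ℤ R)).trans ?_)
    rw [← RingHom.injective_iff_ker_eq_bot]
    exact (τ.comp (algebraMap ℤ R)).injective_int
  let : Algebra R K := i.toAlgebra
  have : IsScalarTower ℤ R K := IsScalarTower.of_algebraMap_eq' (RingHom.ext_int _ _)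
  have : Algebra.IsAlgebraic R K := ⟨fun x => by
    have h1 : IsAlgebraic ℤ x := (IsFractionRing.isAlgebraic_iff ℤ ℚ K).2
      (Algebra.IsAlgebraic.isAlgebraic (R := ℚ) x)
    exact h1.extendScalars (algebraMap ℤ R).injective_int⟩
  obtain ⟨e, he⟩ := exists_extend_of_algebraic (A := R) (B := K)
    (fun x y hxy => Subtype.ext (congrArg (fun z : K => (z : ℂ)) hxy)) τ hτ
  obtain ⟨s, hs⟩ := exists_isTranscendenceBasis K ℂ
  set x : s → ℂ := Subtype.val with hx
  have hind : AlgebraicIndependent K x := hs.1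
  set φ : MvPolynomial s K →+* ℂ := MvPolynomial.eval₂Hom e x with hφ
  have hφinj : Function.Injective φ := by
    have hcl : ∀ z : K, e z ∈ K := fun z => mem_algebraicClosure_iff.2
      ((Algebra.IsAlgebraic.isAlgebraic (R := ℚ) z).algHom e.toRatAlgHom)
    let e' : K →+* K := e.codRestrict K hcl
    have e1 : φ = (MvPolynomial.aeval (R := K) x).toRingHom.comp (MvPolynomial.map e') := by
      refine MvPolynomial.ringHom_ext (fun z => ?_) (fun j => ?_)
      · simp [hφ]; rfl
      · simp [hφ]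
    rw [e1]
    exact (algebraicIndependent_iff_injective_aeval.1 hind).comp
      (MvPolynomial.map_injective e' e'.injective)
  have := hs.isAlgebraic
  have hi : Function.Injective (algebraMap (Algebra.adjoin K (Set.range x)) ℂ) :=
    Subtype.val_injective
  obtain ⟨σ, hσ⟩ := exists_extend_of_algebraic hi
    (φ.comp hind.repr.toRingHom) (hφinj.comp hind.aevalEquiv.symm.injective)
  refine ⟨σ, fun r => ?_⟩
  have h1 := hσ (algebraMap K _ (i r))
  rw [← he r]
  have e2 : hind.repr.toRingHom (algebraMap K _ (i r)) = MvPolynomial.C (i r) :=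
    hind.repr.commutes (i r)
  rw [RingHom.comp_apply, e2, hφ, MvPolynomial.eval₂Hom_C] at h1
  exact h1

/-- The odd character modulo `3`. -/
def chiThree : DirichletCharacter ℂ 3 :=
  (quadraticChar (ZMod 3)).ringHomComp (Int.castRingHom ℂ)

theorem chiThree_apply (a : ZMod 3) : chiThree a = ((quadraticChar (ZMod 3) a : ℤ) : ℂ) := rfl

theorem chiThree_odd : chiThree (-1) = -1 := by
  rw [chiThree_apply, show quadraticChar (ZMod 3) (-1) = -1 by decide]
  simp

theorem exists_intSeries : ∃ E : PowerSeries ℤ, IsUnit E ∧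
    PowerSeries.map (Int.castRingHom ℂ) E = PowerSeries.mk (eisCoeff chiThree) := by
  refine ⟨PowerSeries.mk fun n => if n = 0 then 1 else
    2 * (3 : ℤ) * ∑ d ∈ n.divisors, quadraticChar (ZMod 3) (d : ZMod 3), ?_, ?_⟩
  · rw [PowerSeries.isUnit_iff_constantCoeff]
    simp
  · ext n
    rw [PowerSeries.coeff_map, PowerSeries.coeff_mk, PowerSeries.coeff_mk, eisCoeff]
    rcases eq_or_ne n 0 with rfl | hn
    · have : ∑ a : ZMod 3, (a.val : ℤ) * quadraticChar (ZMod 3) a = -1 := by decide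
      have h2 : ∑ a : ZMod 3, (a.val : ℂ) * chiThree a = -1 := by
        simp only [chiThree_apply]
        exact_mod_cast this
      simp only [if_true]
      rw [h2, neg_neg, map_one]
    · rw [if_neg hn, if_neg hn]
      simp only [map_mul, map_sum, chiThree_apply, map_ofNat, Int.coe_castRingHom, Nat.cast_ofNat]
      


namespace WeightOneEigen

variable {N : ℕ} [NeZero N] {ε : DirichletCharacter ℂ N} {f : CuspForm (Gamma1 N) 1}

/-- The coefficients of `f` lie in a finitely generated `ℤ`-module. -/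
theorem exists_coeff_span (h : WeightOneEigen N ε f) :
    ∃ s : Finset ℂ, ∀ n, qCoeff f n ∈ Submodule.span ℤ (s : Set ℂ) := by
  classical
  have : NeZero (N * 3) := ⟨mul_ne_zero (NeZero.ne N) (by norm_num)⟩
  obtain ⟨G, -, hG, -⟩ := h.exists_prodForm (ℓ := 3) chiThree_odd
  obtain ⟨E, hEu, hE⟩ := exists_intSeries
  have hspan : G ∈ Submodule.span ℂ (intFormsH (N * 3) (negH (N * 3)) : Set _) := by
    rw [span_intFormsH (neg_one_mem_negH _)]; trivial
  obtain ⟨k, c, g, hsum⟩ := Submodule.mem_span_set'.1 hspan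
  set S := Submodule.span ℤ ((Finset.univ.image c : Finset ℂ) : Set ℂ) with hS
  have hGn : ∀ n, qCoeff ⇑G n ∈ S := by
    intro n
    rw [← hsum, ← qLin_apply, map_sum]
    refine Submodule.sum_mem _ fun i _ => ?_
    obtain ⟨m, hm⟩ := qCoeff_intFormsH (g i).2 n
    rw [map_smul, qLin_apply, hm, smul_eq_mul, mul_comm, ← zsmul_eq_mul]
    exact S.smul_mem m (Submodule.subset_span (by simp))
  obtain ⟨u, rfl⟩ := hEu
  refine ⟨Finset.univ.image c, fun n => ?_⟩
  have e : qExp (f : ℍ → ℂ) =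
      qExp (G : ℍ → ℂ) * PowerSeries.map (Int.castRingHom ℂ)
        ((u⁻¹ : (PowerSeries ℤ)ˣ) : PowerSeries ℤ) := by
    rw [hG, ← hE, mul_assoc, ← map_mul, Units.mul_inv, map_one, mul_one]
  show (qExp (f : ℍ → ℂ)).coeff n ∈ S
  rw [e, PowerSeries.coeff_mul]
  refine Submodule.sum_mem _ fun p _ => ?_
  rw [PowerSeries.coeff_map, eq_intCast, mul_comm, ← zsmul_eq_mul]
  exact S.smul_mem _ (hGn p.1)

/-- `σ f`: a Rankin sequence. -/
theorem exists_rankinSeq (h : WeightOneEigen N ε f) (σ : ℂ →+* ℂ) :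
    ∃ K : ℝ, RankinSeq N (fun n => σ (qCoeff f n)) (fun n => σ (ε (n : ZMod N))) K := by
  have : NeZero (N * 3) := ⟨mul_ne_zero (NeZero.ne N) (by norm_num)⟩
  obtain ⟨G, hGfun, hG, -⟩ := h.exists_prodForm (ℓ := 3) chiThree_odd
  obtain ⟨g, hg⟩ := h.exists_sqForm
  obtain ⟨G', hG', -⟩ := exists_conjugate_form (neg_one_mem_negH _) σ G
  obtain ⟨g', hg', -⟩ := exists_conjugate_form (neg_one_mem_negH _) σ g
  obtain ⟨E, hEu, hE⟩ := exists_intSeries
  set Ef : ℍ → ℂ := eisChar chiThree with hEf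
  have hET : Ef ∣[(1 : ℤ)] ModularGroup.T = Ef := by
    rw [hEf, eisChar_slash (by simp [Gamma0_mem, ModularGroup.coe_T])]
    simp [ModularGroup.coe_T]
  have hEQ : IsQ Ef := isQ_of_slash_T (k := 1) mdifferentiable_eisChar
    (by simpa using isBoundedAtImInfty_eisChar_slash (χ := chiThree) 1) hET
  have hEexp : qExp Ef = PowerSeries.map (Int.castRingHom ℂ) E := by
    rw [hE]
    ext n
    rw [PowerSeries.coeff_mk, ← MFCore.qExp_coeff_unique hEQ
      (fun τ => by simpa using hasQ_eisChar chiThree_odd τ) n]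
  have hE0 : Ef ≠ 0 := by
    rw [Ne, ← MFCore.qExp_eq_zero_iff hEQ, hEexp]
    exact ((PowerSeries.map (Int.castRingHom ℂ)).isUnit_map hEu).ne_zero
  have hσE : PowerSeries.map σ (qExp Ef) = qExp Ef := by
    rw [hEexp]
    ext n
    simp
  have hG'exp : qExp (G' : ℍ → ℂ) = PowerSeries.map σ (qExp (G : ℍ → ℂ)) :=
    PowerSeries.ext fun n => by rw [PowerSeries.coeff_map]; exact hG' n
  have hg'exp : qExp (g' : ℍ → ℂ) = PowerSeries.map σ (qExp (g : ℍ → ℂ)) :=
    PowerSeries.ext fun n => by rw [PowerSeries.coeff_map]; exact hg' n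
  rw [← hE, ← hEexp] at hG
  have hsq : (G' : ℍ → ℂ) ^ 2 = (g' : ℍ → ℂ) * Ef ^ 2 := by
    refine MFCore.qExp_inj ((isQ_S2 G').pow 2) ((isQ_S2 g').mul (hEQ.pow 2)) ?_
    rw [MFCore.qExp_pow (isQ_S2 G'), MFCore.qExp_mul (isQ_S2 g') (hEQ.pow 2),
      MFCore.qExp_pow hEQ, hG'exp, hG, hg'exp, hg, MFCore.qExp_mul (isQ_form1 f) (isQ_form1 f),
      map_mul, map_mul, hσE]
    ring
  obtain ⟨F, hFm, hFE, hF2⟩ := MFCore.exists_mdiff_mul_eq (n := 2)
    (c := fun m => if m = 0 then 0 else -(g' : ℍ → ℂ)) (a := (G' : ℍ → ℂ)) (b := Ef)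
    (CuspFormClass.holo G') hEQ.holo hE0 (fun m => by
      rcases eq_or_ne m 0 with rfl | hm
      · simp only [if_true]; exact mdifferentiable_const
      · simp only [if_neg hm]; exact (CuspFormClass.holo g').neg) (by
      simp [Finset.sum_range_succ, hsq])
  have hF2' : F ^ 2 = (g' : ℍ → ℂ) := by
    simp [Finset.sum_range_succ] at hF2
    linear_combination hF2
  have hnorm : ∀ τ : ℍ, ‖F τ‖ ^ 2 = ‖g' τ‖ := fun τ => by
    rw [← hF2', Pi.pow_apply, norm_pow]
  have hFT : F ∣[(1 : ℤ)] ModularGroup.T = F := by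
    have h1 : (F * Ef) ∣[(2 : ℤ)] ModularGroup.T = F * Ef := by
      rw [hFE]
      exact slash_eq_self G' T_mem_GammaH
    rw [mul_slash_one_one, hET] at h1
    have h2 : (F ∣[(1 : ℤ)] ModularGroup.T - F) * Ef = 0 := by rw [sub_mul, h1, sub_self]
    have hm : MDiff (F ∣[(1 : ℤ)] ModularGroup.T) := by
      rw [ModularForm.SL_slash]; exact hFm.slash 1 _
    exact sub_eq_zero.1 (((UpperHalfPlane.mul_eq_zero_iff (hm.sub hFm)
      hEQ.holo).1 h2).resolve_right hE0)
  have hFb : IsBoundedAtImInfty F := by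
    rw [isBoundedAtImInfty_iff]
    obtain ⟨M, A, hMA⟩ := isBoundedAtImInfty_iff.1 (isQ_S2 g').bdd
    refine ⟨Real.sqrt M, A, fun τ hτ => ?_⟩
    rw [← Real.sqrt_sq (norm_nonneg (F τ)), hnorm]
    exact Real.sqrt_le_sqrt (hMA τ hτ)
  have hFQ : IsQ F := isQ_of_slash_T hFm hFb hFT
  have hFexp : qExp F = PowerSeries.map σ (qExp (f : ℍ → ℂ)) := by
    refine mul_right_cancel₀ (b := qExp Ef) ?_ ?_
    · rw [Ne, MFCore.qExp_eq_zero_iff hEQ]; exact hE0
    · rw [← MFCore.qExp_mul hFQ hEQ, hFE, hG'exp, hG, map_mul, hσE]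
  obtain ⟨C, hC⟩ := CuspFormClass.exists_bound g'
  obtain ⟨K, hK⟩ := exists_sum_normSq_qCoeff_le_of_bound (C := Real.sqrt C) hFQ.periodic hFm hFb
    fun τ => by
      have h1 := hC τ
      norm_num at h1
      rw [← Real.sqrt_div' C τ.im_pos.le, ← Real.sqrt_sq (norm_nonneg (F τ)), hnorm]
      exact Real.sqrt_le_sqrt h1
  have hcoef : ∀ n, qCoeff F n = σ (qCoeff f n) := fun n => by
    show (qExp F).coeff n = _
    rw [hFexp, PowerSeries.coeff_map]
    rfl
  refine ⟨K, ?_, ?_, ?_, ?_⟩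
  · simp [h.one]
  · intro p hp hpN n
    have e := congrArg σ (h.rel p hp hpN n)
    simp only [map_add, map_mul, apply_ite σ, map_zero] at e
    exact e
  · intro p hp hpN
    have hu : IsUnit (p : ZMod N) :=
      (ZMod.isUnit_iff_coprime p N).2 ((Nat.Prime.coprime_iff_not_dvd hp).2 hpN)
    obtain ⟨u, hu⟩ := hu
    have : (σ (ε (p : ZMod N))) ^ Fintype.card (ZMod N)ˣ = 1 := by
      rw [← map_pow, ← map_pow, ← hu, ← Units.val_pow_eq_pow_val, pow_card_eq_one, Units.val_one,
        map_one, map_one]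
    exact Complex.norm_eq_one_of_pow_eq_one this Fintype.card_ne_zero
  · simpa only [hcoef] using hK

/-- **The coefficient ring**: finite, containing the eigenvalues and the values of `ε`, all of
whose conjugate systems satisfy Rankin's bound. -/
theorem exists_coeffRing (h : WeightOneEigen N ε f) :
    ∃ R : Subalgebra ℤ ℂ, Module.Finite ℤ R ∧
      (∀ a : ZMod N, ε a ∈ R) ∧
      (∀ p : ℕ, p.Prime → ¬ p ∣ N → qCoeff f p ∈ R) ∧
      ∀ τ : R →+* ℂ, ∀ t : ℕ → R,
        (∀ p : ℕ, p.Prime → ¬ p ∣ N → (t p : ℂ) = qCoeff f p) →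
        ∃ C : ℝ, ∀ᶠ s in 𝓝[>] (1 : ℝ),
          (Summable fun p : Nat.Primes =>
            if (p : ℕ) ∣ N then 0 else Complex.normSq (τ (t p)) * ((p : ℕ) : ℝ) ^ (-s)) ∧
          (∑' p : Nat.Primes,
            if (p : ℕ) ∣ N then 0 else Complex.normSq (τ (t p)) * ((p : ℕ) : ℝ) ^ (-s)) ≤
            -Real.log (s - 1) + C := by
  classical
  obtain ⟨s, hs⟩ := h.exists_coeff_span
  set M : Submodule ℤ ℂ := Submodule.span ℤ {x | ∃ a : ZMod N, ∃ n, x = ε a * qCoeff f n} with hM
  have hgen : ∀ a n, ε a * qCoeff f n ∈ M := fun a n => Submodule.subset_span ⟨a, n, rfl⟩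
  have h1M : (1 : ℂ) ∈ M := by simpa [h.one] using hgen 1 1
  have hfg : M ≤ Submodule.span ℤ
      ((Finset.univ.image₂ (fun (a : ZMod N) x => ε a * x) s : Finset ℂ) : Set ℂ) := by
    rw [hM, Submodule.span_le]
    rintro _ ⟨a, n, rfl⟩
    have hmap := Submodule.mem_map_of_mem (f := LinearMap.mulLeft ℤ (ε a)) (hs n)
    rw [Submodule.map_span] at hmap
    refine Submodule.span_mono ?_ hmap
    rintro _ ⟨x, hx, rfl⟩
    exact Finset.mem_coe.2 (Finset.mem_image₂.2 ⟨a, Finset.mem_univ _, x, hx, rfl⟩)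
  let R : Subalgebra ℤ ℂ :=
    { carrier := {x | ∀ m ∈ M, x * m ∈ M}
      mul_mem' := fun {x y} hx hy m hm => by rw [mul_assoc]; exact hx _ (hy m hm)
      add_mem' := fun {x y} hx hy m hm => by rw [add_mul]; exact M.add_mem (hx m hm) (hy m hm)
      algebraMap_mem' := fun z m hm => by
        rw [eq_intCast, ← zsmul_eq_mul]; exact M.smul_mem z hm }
  have hRε : ∀ a, ε a ∈ R := by
    intro a m hm
    induction hm using Submodule.span_induction with
    | mem x hx =>
      obtain ⟨b, n, rfl⟩ := hx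
      rw [← mul_assoc, ← map_mul]
      exact hgen _ n
    | zero => rw [mul_zero]; exact M.zero_mem
    | add x y _ _ hx hy => rw [mul_add]; exact M.add_mem hx hy
    | smul z x _ hx => rw [mul_smul_comm]; exact M.smul_mem z hx
  have hRa : ∀ p : ℕ, p.Prime → ¬ p ∣ N → qCoeff f p ∈ R := by
    intro p hp hpN m hm
    induction hm using Submodule.span_induction with
    | mem x hx =>
      obtain ⟨b, n, rfl⟩ := hx
      rw [mul_left_comm, ← h.rel p hp hpN n, mul_add]
      refine M.add_mem (hgen _ _) ?_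
      split_ifs
      · rw [← mul_assoc, ← map_mul]; exact hgen _ _
      · rw [mul_zero, mul_zero]; exact M.zero_mem
    | zero => rw [mul_zero]; exact M.zero_mem
    | add x y _ _ hx hy => rw [mul_add]; exact M.add_mem hx hy
    | smul z x _ hx => rw [mul_smul_comm]; exact M.smul_mem z hx
  have : Module.Finite ℤ R := by
    have : Module.Finite ℤ (Submodule.span ℤ
        ((Finset.univ.image₂ (fun (a : ZMod N) x => ε a * x) s : Finset ℂ) : Set ℂ)) :=
      Module.Finite.span_of_finite ℤ (Finset.finite_toSet _)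
    refine Module.Finite.of_injective (LinearMap.codRestrict _ R.val.toLinearMap fun x => hfg ?_)
      fun x y hxy => Subtype.ext (congrArg Subtype.val hxy :)
    simpa using x.2 1 h1M
  refine ⟨R, this, hRε, hRa, fun τ t ht => ?_⟩
  obtain ⟨σ, hσ⟩ := exists_extend_complex R τ
  obtain ⟨K, hK⟩ := h.exists_rankinSeq σ
  obtain ⟨C, hC⟩ := hK.exists_tsum_le
  have e : ∀ s : ℝ, (fun p : Nat.Primes =>
      if (p : ℕ) ∣ N then 0 else Complex.normSq (τ (t p)) * ((p : ℕ) : ℝ) ^ (-s)) =
      fun p : Nat.Primes =>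
      if (p : ℕ) ∣ N then 0 else Complex.normSq (σ (qCoeff f p)) * ((p : ℕ) : ℝ) ^ (-s) := by
    intro s
    funext p
    split_ifs with hp
    · rfl
    · rw [← ht p p.2 hp, hσ]
  refine ⟨C, hC.mono fun s hs => ?_⟩
  rw [e s]
  exact hs

end WeightOneEigen

end Fermat.Agent.DeligneSerre
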